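/-
Core definitions for the Eichler–Shimura / dimension-formula effort (S20, S21).
All spaces of modular forms are SUBMODULES of `ℍ → ℂ`.
-/
import Mathlib

set_option autoImplicit false

namespace Fermat.Agent.ES

open UpperHalfPlane ModularForm
open scoped MatrixGroups Manifold

/-- Weight `k` holomorphic modular forms for `Γ ≤ SL(2,ℤ)`, as a submodule of `ℍ → ℂ`. -/
def MF (Γ : Subgroup SL(2, ℤ)) (k : ℤ) : Submodule ℂ (ℍ → ℂ) where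
  carrier := {f | MDiff f ∧ (∀ γ ∈ Γ, f ∣[k] γ = f) ∧
    ∀ g : SL(2, ℤ), IsBoundedAtImInfty (f ∣[k] g)}
  zero_mem' := by
    refine ⟨mdifferentiable_const, fun γ _ => by simp, fun g => ?_⟩
    simpa using zero_form_isBoundedAtImInfty
  add_mem' := by
    rintro f g ⟨hf1, hf2, hf3⟩ ⟨hg1, hg2, hg3⟩
    refine ⟨hf1.add hg1, fun γ hγ => by rw [SlashAction.add_slash, hf2 γ hγ, hg2 γ hγ],
      fun h => ?_⟩
    rw [SlashAction.add_slash]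
    exact (hf3 h).add (hg3 h)
  smul_mem' := by
    rintro c f ⟨hf1, hf2, hf3⟩
    refine ⟨hf1.const_smul c, fun γ hγ => by rw [ModularForm.SL_smul_slash, hf2 γ hγ],
      fun h => ?_⟩
    rw [ModularForm.SL_smul_slash]
    exact (hf3 h).const_smul_left c

/-- Weight `k` cusp forms for `Γ ≤ SL(2,ℤ)`, as a submodule of `ℍ → ℂ`. -/
def CF (Γ : Subgroup SL(2, ℤ)) (k : ℤ) : Submodule ℂ (ℍ → ℂ) where
  carrier := {f | MDiff f ∧ (∀ γ ∈ Γ, f ∣[k] γ = f) ∧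
    ∀ g : SL(2, ℤ), IsZeroAtImInfty (f ∣[k] g)}
  zero_mem' := by
    refine ⟨mdifferentiable_const, fun γ _ => by simp, fun g => ?_⟩
    rw [SlashAction.zero_slash]
    exact Filter.zero_zeroAtFilter _
  add_mem' := by
    rintro f g ⟨hf1, hf2, hf3⟩ ⟨hg1, hg2, hg3⟩
    refine ⟨hf1.add hg1, fun γ hγ => by rw [SlashAction.add_slash, hf2 γ hγ, hg2 γ hγ],
      fun h => ?_⟩
    rw [SlashAction.add_slash]
    exact (hf3 h).add (hg3 h)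
  smul_mem' := by
    rintro c f ⟨hf1, hf2, hf3⟩
    refine ⟨hf1.const_smul c, fun γ hγ => by rw [ModularForm.SL_smul_slash, hf2 γ hγ],
      fun h => ?_⟩
    rw [ModularForm.SL_smul_slash]
    exact (hf3 h).smul c


variable {Γ : Subgroup SL(2, ℤ)} {k : ℤ} {f : ℍ → ℂ}

lemma mem_MF : f ∈ MF Γ k ↔ MDiff f ∧ (∀ γ ∈ Γ, f ∣[k] γ = f) ∧
    ∀ g : SL(2, ℤ), IsBoundedAtImInfty (f ∣[k] g) := Iff.rfl

lemma mem_CF : f ∈ CF Γ k ↔ MDiff f ∧ (∀ γ ∈ Γ, f ∣[k] γ = f) ∧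
    ∀ g : SL(2, ℤ), IsZeroAtImInfty (f ∣[k] g) := Iff.rfl

lemma CF_le_MF : CF Γ k ≤ MF Γ k := fun _ hf =>
  ⟨hf.1, hf.2.1, fun g => (hf.2.2 g).boundedAtFilter⟩

/-- The coset space `X = SL(2,ℤ) ⧸ Γ` (left cosets `hΓ`), with the left action of `SL(2,ℤ)`. -/
abbrev X (Γ : Subgroup SL(2, ℤ)) : Type := SL(2, ℤ) ⧸ Γ

/-- The base point `Γ` of `X Γ`. -/
def x₀ (Γ : Subgroup SL(2, ℤ)) : X Γ := ((1 : SL(2, ℤ)) : SL(2, ℤ) ⧸ Γ)

/-- `V = ℂ^X`. -/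
abbrev V (Γ : Subgroup SL(2, ℤ)) : Type := X Γ → ℂ

/-- The permutation representation of `SL(2,ℤ)` on `V`: `(rho g v) x = v (g⁻¹ • x)`. -/
def rho (Γ : Subgroup SL(2, ℤ)) (g : SL(2, ℤ)) : V Γ →ₗ[ℂ] V Γ :=
  LinearMap.funLeft ℂ ℂ (fun x : X Γ => g⁻¹ • x)

@[simp] lemma rho_apply (g : SL(2, ℤ)) (v : V Γ) (x : X Γ) : rho Γ g v x = v (g⁻¹ • x) := rfl

/-- `dim V^g`. -/
noncomputable def fixDim (Γ : Subgroup SL(2, ℤ)) (g : SL(2, ℤ)) : ℕ :=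
  Module.finrank ℂ (LinearMap.ker (rho Γ g - 1))

/-- The conjugate `F_x = F ∣[k] h⁻¹`, `x = hΓ` (`h = x.out`). -/
noncomputable def conj (k : ℤ) (f : ℍ → ℂ) (x : X Γ) : ℍ → ℂ := f ∣[k] (x.out)⁻¹

/-- The vector `(F_x(z))_x ∈ V`. -/
noncomputable def vec (Γ : Subgroup SL(2, ℤ)) (k : ℤ) (f : ℍ → ℂ) (z : ℍ) : V Γ :=
  fun x => conj k f x z

end Fermat.Agent.ES
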