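/-
Basic API for `MF`, `CF`, conjugates, and comparison with Mathlib's bundled forms.
-/
import Fermat.Agent.ES.Defs

set_option autoImplicit false

namespace Fermat.Agent.ES

open UpperHalfPlane ModularForm Matrix.SpecialLinearGroup
open scoped MatrixGroups Manifold

variable {Γ : Subgroup SL(2, ℤ)} {k l : ℤ} {f g : ℍ → ℂ}

lemma conj_mk (hf : ∀ γ ∈ Γ, f ∣[k] γ = f) (h : SL(2, ℤ)) :
    conj k f (h : X Γ) = f ∣[k] h⁻¹ := by
  unfold conj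
  obtain ⟨γ, hγ⟩ : ∃ γ : Γ, ((h : X Γ).out) = h * γ := by
    have := QuotientGroup.mk_out_eq_mul Γ h
    obtain ⟨γ, hγ⟩ := this
    exact ⟨γ, hγ⟩
  rw [hγ, mul_inv_rev, SlashAction.slash_mul, hf _ (Γ.inv_mem γ.2)]

lemma conj_x₀ (hf : ∀ γ ∈ Γ, f ∣[k] γ = f) : conj k f (x₀ Γ) = f := by
  rw [x₀, conj_mk hf]; simp

lemma conj_slash (hf : ∀ γ ∈ Γ, f ∣[k] γ = f) (g : SL(2, ℤ)) (x : X Γ) :
    conj k f x ∣[k] g = conj k f (g⁻¹ • x) := by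
  induction x using QuotientGroup.induction_on with
  | H h =>
    rw [conj_mk hf, ← SlashAction.slash_mul]
    have : g⁻¹ • (h : X Γ) = ((g⁻¹ * h : SL(2, ℤ)) : X Γ) := rfl
    rw [this, conj_mk hf]
    simp

lemma conj_add (f g : ℍ → ℂ) (x : X Γ) : conj k (f + g) x = conj k f x + conj k g x := by
  simp [conj, SlashAction.add_slash]

lemma conj_smul (c : ℂ) (f : ℍ → ℂ) (x : X Γ) : conj k (c • f) x = c • conj k f x := by
  simp [conj, ModularForm.SL_smul_slash]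

lemma conj_mul (f g : ℍ → ℂ) (x : X Γ) :
    conj (k + l) (f * g) x = conj k f x * conj l g x := by
  simp [conj, ModularForm.mul_slash_SL2]

lemma conj_of_top (hf : ∀ γ : SL(2, ℤ), f ∣[k] γ = f) (x : X Γ) : conj k f x = f := hf _

lemma vec_apply (z : ℍ) (x : X Γ) : vec Γ k f z x = conj k f x z := rfl

lemma vec_smul (hf : ∀ γ ∈ Γ, f ∣[k] γ = f) (g : SL(2, ℤ)) (z : ℍ) :
    vec Γ k f (g • z) = (denom g z) ^ k • rho Γ g (vec Γ k f z) := by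
  ext x
  have h := congrFun (conj_slash hf g x) z
  rw [ModularForm.SL_slash_apply] at h
  simp only [vec_apply, Pi.smul_apply, rho_apply, smul_eq_mul]
  rw [← h, mul_comm, mul_assoc, ← zpow_add₀ (denom_ne_zero _ _)]
  simp

lemma MF_mono {Γ' : Subgroup SL(2, ℤ)} (h : Γ ≤ Γ') : MF Γ' k ≤ MF Γ k :=
  fun _ hf => ⟨hf.1, fun γ hγ => hf.2.1 γ (h hγ), hf.2.2⟩

lemma CF_mono {Γ' : Subgroup SL(2, ℤ)} (h : Γ ≤ Γ') : CF Γ' k ≤ CF Γ k :=
  fun _ hf => ⟨hf.1, fun γ hγ => hf.2.1 γ (h hγ), hf.2.2⟩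

lemma MF_mul (hf : f ∈ MF Γ k) (hg : g ∈ MF Γ l) : f * g ∈ MF Γ (k + l) := by
  refine ⟨hf.1.mul hg.1, fun γ hγ => ?_, fun h => ?_⟩
  · rw [ModularForm.mul_slash_SL2, hf.2.1 γ hγ, hg.2.1 γ hγ]
  · rw [ModularForm.mul_slash_SL2]
    exact (hf.2.2 h).mul (hg.2.2 h)

lemma CF_mul_MF (hf : f ∈ CF Γ k) (hg : g ∈ MF Γ l) : f * g ∈ CF Γ (k + l) := by
  refine ⟨hf.1.mul hg.1, fun γ hγ => ?_, fun h => ?_⟩
  · rw [ModularForm.mul_slash_SL2, hf.2.1 γ hγ, hg.2.1 γ hγ]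
  · rw [ModularForm.mul_slash_SL2]
    exact (hf.2.2 h).mul_boundedAtFilter (hg.2.2 h)

lemma const_mem_MF (c : ℂ) : (fun _ => c : ℍ → ℂ) ∈ MF Γ 0 := by
  have h : ∀ g : SL(2, ℤ), (fun _ => c : ℍ → ℂ) ∣[(0 : ℤ)] g = fun _ => c := by
    intro g; ext z; simp [ModularForm.SL_slash_apply]
  refine ⟨mdifferentiable_const, fun γ _ => h γ, fun g => ?_⟩
  rw [h]
  exact Filter.const_boundedAtFilter _ c

lemma one_mem_MF : (1 : ℍ → ℂ) ∈ MF Γ 0 := const_mem_MF 1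

lemma conj_mem_bdd (hf : f ∈ MF Γ k) (x : X Γ) : IsBoundedAtImInfty (conj k f x) := hf.2.2 _

lemma conj_mdiff (hf : MDiff f) (x : X Γ) : MDiff (conj k f x) := hf.slash k _

section bundled

variable [Γ.FiniteIndex]

lemma coe_mem_MF (F : ModularForm Γ k) : (⇑F : ℍ → ℂ) ∈ MF Γ k :=
  ⟨F.holo', fun γ hγ => by
      rw [ModularForm.SL_slash]
      exact F.slash_action_eq' _ ⟨γ, hγ, rfl⟩,
    fun g => ModularFormClass.bdd_at_infty_slash F g⟩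

lemma coe_mem_CF (F : CuspForm Γ k) : (⇑F : ℍ → ℂ) ∈ CF Γ k :=
  ⟨F.holo', fun γ hγ => by
      rw [ModularForm.SL_slash]
      exact F.slash_action_eq' _ ⟨γ, hγ, rfl⟩,
    fun g => CuspFormClass.zero_at_infty_slash F g⟩

/-- Bundle an element of `MF Γ k` as a Mathlib `ModularForm`. -/
def toModularForm (hf : f ∈ MF Γ k) : ModularForm Γ k where
  toFun := f
  slash_action_eq' := by
    rintro _ ⟨γ, hγ, rfl⟩
    exact hf.2.1 γ hγ
  holo' := hf.1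
  bdd_at_cusps' {c} hc := by
    rw [Subgroup.IsArithmetic.isCusp_iff_isCusp_SL2Z] at hc
    rw [OnePoint.isBoundedAt_iff_forall_SL2Z hc]
    exact fun γ _ => hf.2.2 γ

/-- Bundle an element of `CF Γ k` as a Mathlib `CuspForm`. -/
def toCuspForm (hf : f ∈ CF Γ k) : CuspForm Γ k where
  toFun := f
  slash_action_eq' := by
    rintro _ ⟨γ, hγ, rfl⟩
    exact hf.2.1 γ hγ
  holo' := hf.1
  zero_at_cusps' {c} hc := by
    rw [Subgroup.IsArithmetic.isCusp_iff_isCusp_SL2Z] at hc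
    rw [OnePoint.isZeroAt_iff_forall_SL2Z hc]
    exact fun γ _ => hf.2.2 γ

@[simp] lemma coe_toModularForm (hf : f ∈ MF Γ k) : ⇑(toModularForm hf) = f := rfl
@[simp] lemma coe_toCuspForm (hf : f ∈ CF Γ k) : ⇑(toCuspForm hf) = f := rfl

/-- `ModularForm Γ k ≃ MF Γ k`. -/
def MFequiv (Γ : Subgroup SL(2, ℤ)) [Γ.FiniteIndex] (k : ℤ) : ModularForm Γ k ≃ₗ[ℂ] MF Γ k where
  toFun F := ⟨F, coe_mem_MF F⟩
  map_add' _ _ := rfl
  map_smul' _ _ := rfl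
  invFun f := toModularForm f.2
  left_inv _ := rfl
  right_inv _ := rfl

/-- `CuspForm Γ k ≃ CF Γ k`. -/
def CFequiv (Γ : Subgroup SL(2, ℤ)) [Γ.FiniteIndex] (k : ℤ) : CuspForm Γ k ≃ₗ[ℂ] CF Γ k where
  toFun F := ⟨F, coe_mem_CF F⟩
  map_add' _ _ := rfl
  map_smul' _ _ := rfl
  invFun f := toCuspForm f.2
  left_inv _ := rfl
  right_inv _ := rfl

end bundled

section levelOne

lemma coe_mem_MF_top (F : ModularForm 𝒮ℒ k) : (⇑F : ℍ → ℂ) ∈ MF ⊤ k :=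
  ⟨F.holo', fun γ _ => by
      rw [ModularForm.SL_slash]
      exact F.slash_action_eq' _ ⟨γ, rfl⟩,
    fun g => ModularFormClass.bdd_at_infty_slash F g⟩

lemma coe_mem_CF_top (F : CuspForm 𝒮ℒ k) : (⇑F : ℍ → ℂ) ∈ CF ⊤ k :=
  ⟨F.holo', fun γ _ => by
      rw [ModularForm.SL_slash]
      exact F.slash_action_eq' _ ⟨γ, rfl⟩,
    fun g => CuspFormClass.zero_at_infty_slash F g⟩

/-- Bundle an element of `MF ⊤ k` as a Mathlib level one `ModularForm`. -/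
def toModularFormSL (hf : f ∈ MF ⊤ k) : ModularForm 𝒮ℒ k where
  toFun := f
  slash_action_eq' := by
    rintro _ ⟨γ, rfl⟩
    exact hf.2.1 γ trivial
  holo' := hf.1
  bdd_at_cusps' {c} hc := by
    rw [OnePoint.isBoundedAt_iff_forall_SL2Z hc]
    exact fun γ _ => hf.2.2 γ

/-- Bundle an element of `CF ⊤ k` as a Mathlib level one `CuspForm`. -/
def toCuspFormSL (hf : f ∈ CF ⊤ k) : CuspForm 𝒮ℒ k where
  toFun := f
  slash_action_eq' := by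
    rintro _ ⟨γ, rfl⟩
    exact hf.2.1 γ trivial
  holo' := hf.1
  zero_at_cusps' {c} hc := by
    rw [OnePoint.isZeroAt_iff_forall_SL2Z hc]
    exact fun γ _ => hf.2.2 γ

@[simp] lemma coe_toModularFormSL (hf : f ∈ MF ⊤ k) : ⇑(toModularFormSL hf) = f := rfl
@[simp] lemma coe_toCuspFormSL (hf : f ∈ CF ⊤ k) : ⇑(toCuspFormSL hf) = f := rfl

/-- `ModularForm 𝒮ℒ k ≃ MF ⊤ k`. -/
def MFequivSL (k : ℤ) : ModularForm 𝒮ℒ k ≃ₗ[ℂ] MF ⊤ k where
  toFun F := ⟨F, coe_mem_MF_top F⟩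
  map_add' _ _ := rfl
  map_smul' _ _ := rfl
  invFun f := toModularFormSL f.2
  left_inv _ := rfl
  right_inv _ := rfl

/-- `CuspForm 𝒮ℒ k ≃ CF ⊤ k`. -/
def CFequivSL (k : ℤ) : CuspForm 𝒮ℒ k ≃ₗ[ℂ] CF ⊤ k where
  toFun F := ⟨F, coe_mem_CF_top F⟩
  map_add' _ _ := rfl
  map_smul' _ _ := rfl
  invFun f := toCuspFormSL f.2
  left_inv _ := rfl
  right_inv _ := rfl

lemma MF_top_le : MF ⊤ k ≤ MF Γ k := MF_mono le_top

lemma CF_top_le : CF ⊤ k ≤ CF Γ k := CF_mono le_top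

lemma conj_of_mem_top (hf : f ∈ MF ⊤ k) (x : X Γ) : conj k f x = f := hf.2.1 _ trivial

end levelOne

end Fermat.Agent.ES
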