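/-
Further shared definitions for the ES effort: `E4`, `E6`, `Δ`, `absq`, homogeneous bases.
-/
import Fermat.Agent.ES.Basic

set_option autoImplicit false

namespace Fermat.Agent.ES

open UpperHalfPlane ModularForm
open scoped MatrixGroups Manifold

/-- `E₄` as a plain function. -/
noncomputable def E4 : ℍ → ℂ := ⇑ModularForm.E₄
/-- `E₆` as a plain function. -/
noncomputable def E6 : ℍ → ℂ := ⇑ModularForm.E₆
/-- The discriminant as a plain function. -/
noncomputable def Δ : ℍ → ℂ := ModularForm.discriminant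

/-- the real function `|q| = exp(-2π Im z)` -/
noncomputable def absq (z : ℍ) : ℝ := Real.exp (-2 * Real.pi * z.im)

/-- A homogeneous basis of `⨁ MF Γ k` over `⨁ MF ⊤ k`. -/
structure HBasis (Γ : Subgroup SL(2, ℤ)) where
  /-- index set -/
  J : Type
  /-- weights -/
  wt : J → ℤ
  /-- the forms -/
  F : J → ℍ → ℂ
  mem : ∀ j, F j ∈ MF Γ (wt j)
  gen : ∀ K, ∀ G ∈ MF Γ K, ∃ a : J →₀ (ℍ → ℂ), (∀ j, a j ∈ MF ⊤ (K - wt j)) ∧
    G = a.sum (fun j r => r * F j)
  indep : ∀ K, ∀ a : J →₀ (ℍ → ℂ), (∀ j, a j ∈ MF ⊤ (K - wt j)) →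
    a.sum (fun j r => r * F j) = 0 → a = 0

/-- `Γ` has enough forms to separate the cosets at every point. -/
def Separates (Γ : Subgroup SL(2, ℤ)) : Prop :=
  ∀ (z₀ : ℍ) (x x' : X Γ), x ≠ x' → ∃ k : ℤ, ∃ f ∈ MF Γ k, conj k f x z₀ ≠ conj k f x' z₀

/-- The values of the basis at every point form a basis of `V`. -/
def HBasis.IsFrame {Γ : Subgroup SL(2, ℤ)} (B : HBasis Γ) : Prop :=
  ∀ z : ℍ, LinearIndependent ℂ (fun j => vec Γ (B.wt j) (B.F j) z) ∧
    Submodule.span ℂ (Set.range fun j => vec Γ (B.wt j) (B.F j) z) = ⊤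

end Fermat.Agent.ES
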