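import Mathlib

/-! # ES-P4 : the moment lemma (pure analysis) -/

set_option autoImplicit false

namespace Fermat.Agent.ES

open Filter Topology

namespace Moment

/-- Cesàro means of the powers of `w`, `‖w‖ ≤ 1`, `w ≠ 1`, tend to `0`. -/
theorem tendsto_cesaro {w : ℂ} (hw : ‖w‖ ≤ 1) (hw1 : w ≠ 1) (c : ℂ) :
    Tendsto (fun M : ℕ => c * (((M : ℂ) + 1)⁻¹ * ∑ m ∈ Finset.range (M + 1), w ^ (m + 2)))
      atTop (𝓝 0) := by
  have hw1' : w - 1 ≠ 0 := sub_ne_zero.mpr hw1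
  have hbound : ∀ M : ℕ, ‖c * (((M : ℂ) + 1)⁻¹ * ∑ m ∈ Finset.range (M + 1), w ^ (m + 2))‖
      ≤ (‖c‖ * (2 / ‖w - 1‖)) * (1 / ((M : ℝ) + 1)) := by
    intro M
    have hsum : ∑ m ∈ Finset.range (M + 1), w ^ (m + 2) = w ^ 2 * ((w ^ (M + 1) - 1) / (w - 1)) := by
      rw [← geom_sum_eq hw1, Finset.mul_sum]
      refine Finset.sum_congr rfl fun m _ => ?_
      ring
    have h1 : ‖∑ m ∈ Finset.range (M + 1), w ^ (m + 2)‖ ≤ 2 / ‖w - 1‖ := by
      rw [hsum, norm_mul, norm_div, norm_pow]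
      have h2 : ‖w ^ (M + 1) - 1‖ ≤ 2 := by
        calc ‖w ^ (M + 1) - 1‖ ≤ ‖w ^ (M + 1)‖ + ‖(1 : ℂ)‖ := norm_sub_le _ _
          _ ≤ 1 + 1 := by
            rw [norm_pow, norm_one]
            gcongr
            exact pow_le_one₀ (norm_nonneg _) hw
          _ = 2 := by norm_num
      have h3 : ‖w‖ ^ 2 ≤ 1 := pow_le_one₀ (norm_nonneg _) hw
      calc ‖w‖ ^ 2 * (‖w ^ (M + 1) - 1‖ / ‖w - 1‖) ≤ 1 * (2 / ‖w - 1‖) := by gcongr
        _ = 2 / ‖w - 1‖ := one_mul _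
    have h4 : ‖((M : ℂ) + 1)⁻¹‖ = 1 / ((M : ℝ) + 1) := by
      rw [norm_inv, one_div]
      congr 1
      have : ((M : ℂ) + 1) = (((M : ℝ) + 1 : ℝ) : ℂ) := by push_cast; ring
      rw [this, Complex.norm_real, Real.norm_of_nonneg (by positivity)]
    rw [norm_mul, norm_mul, h4]
    calc ‖c‖ * (1 / ((M : ℝ) + 1) * ‖∑ m ∈ Finset.range (M + 1), w ^ (m + 2)‖)
        ≤ ‖c‖ * (1 / ((M : ℝ) + 1) * (2 / ‖w - 1‖)) := by gcongr
      _ = (‖c‖ * (2 / ‖w - 1‖)) * (1 / ((M : ℝ) + 1)) := by ring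
  refine squeeze_zero_norm hbound ?_
  have := (tendsto_one_div_add_atTop_nhds_zero_nat (𝕜 := ℝ)).const_mul (‖c‖ * (2 / ‖w - 1‖))
  simpa using this

end Moment

theorem moment_lemma {ι : Type*} (t a : ι → ℂ) (ht : Summable fun i => ‖t i‖ ^ 2)
    (ha : ∃ C, ∀ i, ‖a i‖ ≤ C) (hfib : ∀ i j, t i = t j → a i = a j)
    (h0 : ∀ i, t i = 0 → a i = 0)
    (h : ∀ m : ℕ, 2 ≤ m → ∑' i, a i * t i ^ m = 0) : ∀ i, a i = 0 := by
  classical
  by_contra hcon
  push Not at hcon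
  obtain ⟨i₁, hi₁⟩ := hcon
  obtain ⟨C, hC⟩ := ha
  have hfin : ∀ ε : ℝ, 0 < ε → {i | ε ≤ ‖t i‖ ^ 2}.Finite := by
    intro ε hε
    have h1 := ht.tendsto_cofinite_zero
    have h2 : ∀ᶠ i in cofinite, ‖t i‖ ^ 2 < ε := h1.eventually (gt_mem_nhds hε)
    rw [Filter.eventually_cofinite] at h2
    refine h2.subset fun i hi => ?_
    simpa using hi
  -- choose `i₀` with `a i₀ ≠ 0` and `‖t i₀‖` maximal
  have ht₁ : t i₁ ≠ 0 := fun h' => hi₁ (h0 i₁ h')
  have hpos₁ : 0 < ‖t i₁‖ ^ 2 := by positivity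
  obtain ⟨i₀, hi₀, hmax⟩ : ∃ i₀, a i₀ ≠ 0 ∧ ∀ i, a i ≠ 0 → ‖t i‖ ≤ ‖t i₀‖ := by
    have hSfin : ({i | ‖t i₁‖ ^ 2 ≤ ‖t i‖ ^ 2} ∩ {i | a i ≠ 0}).Finite :=
      (hfin _ hpos₁).inter_of_left _
    have hSne : ({i | ‖t i₁‖ ^ 2 ≤ ‖t i‖ ^ 2} ∩ {i | a i ≠ 0}).Nonempty := ⟨i₁, show ‖t i₁‖ ^ 2 ≤ ‖t i₁‖ ^ 2 from le_refl _, hi₁⟩
    obtain ⟨i₀, hi₀mem, hi₀max⟩ := Set.exists_max_image _ (fun i => ‖t i‖) hSfin hSne
    refine ⟨i₀, hi₀mem.2, fun i hi => ?_⟩
    by_cases hc : ‖t i₁‖ ^ 2 ≤ ‖t i‖ ^ 2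
    · exact hi₀max i ⟨hc, hi⟩
    · rw [not_le] at hc
      have h3 : ‖t i‖ ^ 2 ≤ ‖t i₀‖ ^ 2 := le_trans hc.le hi₀mem.1
      exact (pow_le_pow_iff_left₀ (norm_nonneg _) (norm_nonneg _) two_ne_zero).mp h3
  set τ := t i₀ with hτ
  have hτ0 : τ ≠ 0 := fun h' => hi₀ (h0 i₀ h')
  have hτn : 0 < ‖τ‖ := norm_pos_iff.mpr hτ0
  have hC0 : 0 ≤ C := le_trans (norm_nonneg _) (hC i₀)
  set w : ι → ℂ := fun i => t i / τ with hw
  set bound : ι → ℝ := fun i => C * (‖t i‖ ^ 2 / ‖τ‖ ^ 2) with hbound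
  have hbsum : Summable bound := (ht.div_const _).mul_left C
  have hwle : ∀ i, a i ≠ 0 → ‖w i‖ ≤ 1 := by
    intro i hi
    rw [hw]
    simp only [norm_div]
    exact (div_le_one hτn).mpr (hmax i hi)
  have hterm : ∀ (m : ℕ) (i : ι), ‖a i * w i ^ (m + 2)‖ ≤ bound i := by
    intro m i
    by_cases hi : a i = 0
    · rw [hi, zero_mul, norm_zero]; positivity
    · rw [norm_mul, norm_pow]
      have h1 : ‖w i‖ ^ (m + 2) ≤ ‖w i‖ ^ 2 :=
        pow_le_pow_of_le_one (norm_nonneg _) (hwle i hi) (by omega)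
      have h2 : ‖w i‖ ^ 2 = ‖t i‖ ^ 2 / ‖τ‖ ^ 2 := by
        rw [hw]; simp only [norm_div, div_pow]
      calc ‖a i‖ * ‖w i‖ ^ (m + 2) ≤ C * ‖w i‖ ^ 2 := by gcongr; exact hC i
        _ = bound i := by rw [h2]
  have hsummable : ∀ m : ℕ, Summable fun i => a i * w i ^ (m + 2) := fun m =>
    Summable.of_norm_bounded hbsum (hterm m)
  have hzero : ∀ m : ℕ, ∑' i, a i * w i ^ (m + 2) = 0 := by
    intro m
    have h1 : ∀ i, a i * w i ^ (m + 2) = a i * t i ^ (m + 2) * (τ ^ (m + 2))⁻¹ := by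
      intro i
      rw [hw]; simp only [div_pow]; ring
    simp_rw [h1]
    rw [tsum_mul_right, h (m + 2) (by omega), zero_mul]
  set F : ℕ → ι → ℂ := fun M i =>
    a i * (((M : ℂ) + 1)⁻¹ * ∑ m ∈ Finset.range (M + 1), w i ^ (m + 2)) with hF
  set g : ι → ℂ := fun i => if t i = τ then a i else 0 with hg
  have hFzero : ∀ M : ℕ, ∑' i, F M i = 0 := by
    intro M
    have h1 : ∀ i, F M i = ((M : ℂ) + 1)⁻¹ * ∑ m ∈ Finset.range (M + 1), a i * w i ^ (m + 2) := by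
      intro i
      rw [hF]; simp only [Finset.mul_sum]
      refine Finset.sum_congr rfl fun m _ => ?_
      ring
    simp_rw [h1]
    rw [tsum_mul_left, Summable.tsum_finsetSum (fun m _ => hsummable m)]
    simp [hzero]
  have hlim : ∀ i, Tendsto (fun M => F M i) atTop (𝓝 (g i)) := by
    intro i
    by_cases hti : t i = τ
    · have hwi : w i = 1 := by rw [hw]; simp only [hti]; exact div_self hτ0
      have : ∀ M : ℕ, F M i = g i := by
        intro M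
        have hM : ((M : ℂ) + 1) ≠ 0 := by exact_mod_cast Nat.succ_ne_zero M
        rw [hF, hg]
        simp only [hwi, one_pow, Finset.sum_const, Finset.card_range, nsmul_eq_mul, mul_one, hti,
          if_true]
        push_cast
        rw [inv_mul_cancel₀ hM, mul_one]
      simp_rw [this]
      exact tendsto_const_nhds
    · have hgi : g i = 0 := by rw [hg]; simp only [hti, if_false]
      rw [hgi]
      by_cases hi : a i = 0
      · have : ∀ M : ℕ, F M i = 0 := fun M => by rw [hF]; simp only [hi, zero_mul]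
        simp_rw [this]
        exact tendsto_const_nhds
      · have hwi : w i ≠ 1 := by
          intro h'
          apply hti
          rw [hw] at h'
          exact (div_eq_one_iff_eq hτ0).mp h'
        exact Moment.tendsto_cesaro (hwle i hi) hwi (a i)
  have hFbound : ∀ M i, ‖F M i‖ ≤ bound i := by
    intro M i
    have h1 : F M i = ((M : ℂ) + 1)⁻¹ * ∑ m ∈ Finset.range (M + 1), a i * w i ^ (m + 2) := by
      rw [hF]; simp only [Finset.mul_sum]
      refine Finset.sum_congr rfl fun m _ => ?_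
      ring
    have h4 : ‖((M : ℂ) + 1)⁻¹‖ = ((M : ℝ) + 1)⁻¹ := by
      rw [norm_inv]
      congr 1
      have : ((M : ℂ) + 1) = (((M : ℝ) + 1 : ℝ) : ℂ) := by push_cast; ring
      rw [this, Complex.norm_real, Real.norm_of_nonneg (by positivity)]
    rw [h1, norm_mul, h4]
    have h5 : ‖∑ m ∈ Finset.range (M + 1), a i * w i ^ (m + 2)‖ ≤ ((M : ℝ) + 1) * bound i := by
      calc ‖∑ m ∈ Finset.range (M + 1), a i * w i ^ (m + 2)‖
          ≤ ∑ m ∈ Finset.range (M + 1), ‖a i * w i ^ (m + 2)‖ := norm_sum_le _ _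
        _ ≤ ∑ _m ∈ Finset.range (M + 1), bound i := Finset.sum_le_sum fun m _ => hterm m i
        _ = ((M : ℝ) + 1) * bound i := by simp
    have hM : (0 : ℝ) < (M : ℝ) + 1 := by positivity
    calc ((M : ℝ) + 1)⁻¹ * ‖∑ m ∈ Finset.range (M + 1), a i * w i ^ (m + 2)‖
        ≤ ((M : ℝ) + 1)⁻¹ * (((M : ℝ) + 1) * bound i) := by gcongr
      _ = bound i := by rw [← mul_assoc, inv_mul_cancel₀ hM.ne', one_mul]
  have hT : Tendsto (fun M => ∑' i, F M i) atTop (𝓝 (∑' i, g i)) :=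
    tendsto_tsum_of_dominated_convergence hbsum hlim (Eventually.of_forall fun M i => hFbound M i)
  simp_rw [hFzero] at hT
  have hgsum : ∑' i, g i = 0 := (tendsto_nhds_unique hT tendsto_const_nhds)
  -- the fibre is finite
  have hfibfin : {i | t i = τ}.Finite := by
    refine (hfin (‖τ‖ ^ 2) (by positivity)).subset fun i hi => ?_
    have hi' : t i = τ := hi
    show ‖τ‖ ^ 2 ≤ ‖t i‖ ^ 2
    rw [hi']
  have hsum2 : ∑' i, g i = (hfibfin.toFinset.card : ℂ) * a i₀ := by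
    rw [tsum_eq_sum (s := hfibfin.toFinset)]
    · have : ∀ i ∈ hfibfin.toFinset, g i = a i₀ := by
        intro i hi
        have hi' : t i = τ := by simpa using hi
        rw [hg]; simp only [hi', if_true]
        exact hfib i i₀ hi'
      rw [Finset.sum_congr rfl this]
      simp
    · intro i hi
      have hi' : ¬ t i = τ := by simpa using hi
      rw [hg]; simp only [hi', if_false]
  rw [hgsum] at hsum2
  have hcard : (hfibfin.toFinset.card : ℂ) ≠ 0 := by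
    have : hfibfin.toFinset.Nonempty := ⟨i₀, by simp [hτ]⟩
    exact_mod_cast this.card_pos.ne'
  exact hi₀ ((mul_eq_zero.mp hsum2.symm).resolve_left hcard)

end Fermat.Agent.ES
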