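/-
ES-P5 : Eisenstein series separate the conjugates.
-/
import Fermat.Agent.ES.Moment
import Fermat.Agent.ES.Defs2

set_option autoImplicit false

namespace Fermat.Agent.ES

open UpperHalfPlane ModularForm Matrix Matrix.SpecialLinearGroup Filter Topology ModularGroup
  CongruenceSubgroup EisensteinSeries
open scoped MatrixGroups Manifold

namespace Sep

variable {N : ℕ} [NeZero N]

/-- Sum of the Eisenstein series `E_{u • r}` over the units `u` of `ZMod N`. -/
noncomputable def eisOrbit (r : Fin 2 → ZMod N) (k : ℤ) : ℍ → ℂ :=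
  ∑ u : (ZMod N)ˣ, eisensteinSeries ((u : ZMod N) • r) k

lemma eisOrbit_apply (r : Fin 2 → ZMod N) (k : ℤ) (z : ℍ) :
    eisOrbit r k z = ∑ u : (ZMod N)ˣ, eisensteinSeries ((u : ZMod N) • r) k z := by
  simp [eisOrbit, Finset.sum_apply]

lemma eisOrbit_slash (r : Fin 2 → ZMod N) (k : ℤ) (γ : SL(2, ℤ)) :
    eisOrbit r k ∣[k] γ =
      eisOrbit (r ᵥ* (SpecialLinearGroup.map (Int.castRingHom (ZMod N)) γ).1) k := by
  unfold eisOrbit
  rw [SlashAction.sum_slash]
  refine Finset.sum_congr rfl fun u _ => ?_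
  rw [eisensteinSeries_slash_apply, Matrix.smul_vecMul]

lemma eisOrbit_units_smul (w : (ZMod N)ˣ) (r : Fin 2 → ZMod N) (k : ℤ) :
    eisOrbit ((w : ZMod N) • r) k = eisOrbit r k := by
  unfold eisOrbit
  refine Fintype.sum_equiv (Equiv.mulRight w) _ _ fun u => ?_
  simp [smul_smul]

lemma eisOrbit_mdiff (r : Fin 2 → ZMod N) {k : ℤ} (hk : 3 ≤ k) : MDiff (eisOrbit r k) := by
  unfold eisOrbit
  exact MDifferentiable.sum fun u _ => eisensteinSeriesSIF_mdifferentiable hk _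

lemma eisOrbit_bdd (r : Fin 2 → ZMod N) {k : ℤ} (hk : 3 ≤ k) :
    IsBoundedAtImInfty (eisOrbit r k) := by
  unfold eisOrbit
  have h : ∀ s : Finset (ZMod N)ˣ,
      IsBoundedAtImInfty (∑ u ∈ s, eisensteinSeries ((u : ZMod N) • r) k) := by
    intro s
    induction s using Finset.cons_induction with
    | empty => simpa using zero_form_isBoundedAtImInfty
    | cons a s ha ih =>
      rw [Finset.sum_cons]
      refine BoundedAtFilter.add ?_ ih
      have := isBoundedAtImInfty_eisensteinSeriesSIF ((a : ZMod N) • r) hk 1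
      rw [SlashAction.slash_one] at this
      exact this
  exact h _

omit [NeZero N] in
/-- The bottom row of `γ` reduced mod `N`. -/
lemma vecMul_map (γ : SL(2, ℤ)) :
    (![0, 1] : Fin 2 → ZMod N) ᵥ* (SpecialLinearGroup.map (Int.castRingHom (ZMod N)) γ).1 =
      ![((γ 1 0 : ℤ) : ZMod N), ((γ 1 1 : ℤ) : ZMod N)] := by
  ext i
  fin_cases i <;> simp [Matrix.vecMul, dotProduct, Fin.sum_univ_two]

/-- The form `A_k`. -/
noncomputable def A (N : ℕ) [NeZero N] (k : ℤ) : ℍ → ℂ := eisOrbit (![0, 1] : Fin 2 → ZMod N) k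

lemma A_mem {k : ℤ} (hk : 3 ≤ k) : A N k ∈ MF (Gamma0 N) k := by
  refine ⟨eisOrbit_mdiff _ hk, fun γ hγ => ?_, fun g => ?_⟩
  · unfold A
    rw [eisOrbit_slash, vecMul_map]
    rw [Gamma0_mem] at hγ
    have hdet : ((γ 0 0 : ℤ) : ZMod N) * ((γ 1 1 : ℤ) : ZMod N) = 1 := by
      have h1 := γ.det_coe
      rw [Matrix.det_fin_two] at h1
      have h2 := congrArg (Int.cast : ℤ → ZMod N) h1
      push_cast at h2
      rw [hγ] at h2
      simpa using h2
    let w : (ZMod N)ˣ := ⟨((γ 1 1 : ℤ) : ZMod N), ((γ 0 0 : ℤ) : ZMod N), by rw [mul_comm]; exact hdet, hdet⟩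
    have : (![((γ 1 0 : ℤ) : ZMod N), ((γ 1 1 : ℤ) : ZMod N)] : Fin 2 → ZMod N) =
        (w : ZMod N) • ![0, 1] := by
      ext i
      fin_cases i <;> simp [hγ, w]
    rw [this, eisOrbit_units_smul]
  · unfold A
    rw [eisOrbit_slash]
    exact eisOrbit_bdd _ hk


open Classical in
/-- The number of units `u` such that `v` lies in the gamma set of `u • r`. -/
noncomputable def coef (r : Fin 2 → ZMod N) (v : Fin 2 → ℤ) : ℂ :=
  ((Finset.univ.filter
    (fun u : (ZMod N)ˣ => v ∈ gammaSet N 1 ((u : ZMod N) • r))).card : ℂ)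

open Classical in
lemma coef_eq_sum (r : Fin 2 → ZMod N) (v : Fin 2 → ℤ) :
    coef r v = ∑ u : (ZMod N)ˣ, if v ∈ gammaSet N 1 ((u : ZMod N) • r) then (1 : ℂ) else 0 := by
  rw [coef, Finset.sum_boole]

lemma coef_ne_zero_iff (r : Fin 2 → ZMod N) (v : Fin 2 → ℤ) :
    coef r v ≠ 0 ↔ ∃ u : (ZMod N)ˣ, v ∈ gammaSet N 1 ((u : ZMod N) • r) := by
  classical
  rw [coef, Nat.cast_ne_zero, Finset.card_ne_zero, Finset.filter_nonempty_iff]
  simp

lemma norm_coef_le (r : Fin 2 → ZMod N) (v : Fin 2 → ℤ) :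
    ‖coef r v‖ ≤ Fintype.card (ZMod N)ˣ := by
  classical
  rw [coef, Complex.norm_natCast]
  exact_mod_cast Finset.card_le_univ _

lemma coef_zero (r : Fin 2 → ZMod N) : coef r 0 = 0 := by
  by_contra h
  obtain ⟨u, hu⟩ := (coef_ne_zero_iff r 0).1 h
  simpa using hu.2

omit [NeZero N] in
lemma neg_mem_gammaSet (r : Fin 2 → ZMod N) (v : Fin 2 → ℤ) :
    -v ∈ gammaSet N 1 r ↔ v ∈ gammaSet N 1 (-r) := by
  unfold gammaSet
  simp only [Set.mem_ofPred_eq, Pi.neg_apply, Int.gcd_neg, Int.neg_gcd]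
  refine and_congr_left fun _ => ?_
  constructor
  · intro h
    rw [← h]
    ext i
    simp
  · intro h
    rw [← neg_neg r, ← h]
    ext i
    simp

lemma coef_neg (r : Fin 2 → ZMod N) (v : Fin 2 → ℤ) : coef r (-v) = coef r v := by
  classical
  rw [coef_eq_sum, coef_eq_sum]
  refine Fintype.sum_equiv (Equiv.neg _) _ _ fun u => ?_
  have : -((u : ZMod N) • r) = (-(u : ZMod N)) • r := by
    ext i
    simp
  simp only [neg_mem_gammaSet, Equiv.neg_apply, Units.val_neg, this]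

lemma eisOrbit_eq_tsum (r : Fin 2 → ZMod N) {k : ℤ} (hk : 3 ≤ k) (z : ℍ) :
    eisOrbit r k z = ∑' v : Fin 2 → ℤ, coef r v * eisSummand k v z := by
  classical
  rw [eisOrbit_apply]
  have h1 : ∀ u : (ZMod N)ˣ, eisensteinSeries ((u : ZMod N) • r) k z =
      ∑' v : Fin 2 → ℤ,
        (if v ∈ gammaSet N 1 ((u : ZMod N) • r) then (1 : ℂ) else 0) * eisSummand k v z := by
    intro u
    unfold eisensteinSeries
    rw [tsum_subtype (gammaSet N 1 ((u : ZMod N) • r)) (fun v => eisSummand k v z)]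
    refine tsum_congr fun v => ?_
    by_cases hv : v ∈ gammaSet N 1 ((u : ZMod N) • r) <;> simp [hv]
  simp_rw [h1]
  rw [← Summable.tsum_finsetSum]
  · refine tsum_congr fun v => ?_
    rw [coef_eq_sum, Finset.sum_mul]
  · intro u _
    refine Summable.of_norm_bounded (summable_norm_eisSummand hk z) fun v => ?_
    by_cases hv : v ∈ gammaSet N 1 ((u : ZMod N) • r) <;> simp [hv]

omit [NeZero N] in
lemma lin_inj (z : ℍ) {a b c d : ℤ} (h : (a : ℂ) * z + b = c * z + d) : a = c ∧ b = d := by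
  have him := congrArg Complex.im h
  simp only [Complex.add_im, Complex.mul_im, Complex.intCast_re, Complex.intCast_im, zero_mul,
    add_zero, UpperHalfPlane.coe_im] at him
  have hac : (a : ℝ) = c := mul_right_cancel₀ z.im_ne_zero him
  have hac' : a = c := by exact_mod_cast hac
  subst hac'
  refine ⟨rfl, ?_⟩
  have := add_left_cancel h
  exact_mod_cast this

omit [NeZero N] in
lemma eisSummand_two_eq (z : ℍ) {v w : Fin 2 → ℤ}
    (h : eisSummand 2 v z = eisSummand 2 w z) : v = w ∨ v = -w := by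
  unfold eisSummand at h
  rw [_root_.zpow_neg, _root_.zpow_neg, _root_.inv_inj] at h
  have h2 : ((v 0 : ℂ) * z + v 1) ^ 2 = ((w 0 : ℂ) * z + w 1) ^ 2 := by exact_mod_cast h
  rcases sq_eq_sq_iff_eq_or_eq_neg.1 h2 with h3 | h3
  · left
    obtain ⟨h4, h5⟩ := lin_inj z h3
    ext i
    fin_cases i
    · exact h4
    · exact h5
  · right
    have h3' : (v 0 : ℂ) * z + v 1 = ((-w 0 : ℤ) : ℂ) * z + ((-w 1 : ℤ) : ℂ) := by
      rw [h3]; push_cast; ring
    obtain ⟨h4, h5⟩ := lin_inj z h3'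
    ext i
    fin_cases i
    · exact h4
    · exact h5

omit [NeZero N] in
lemma eisSummand_two_eq_zero (z : ℍ) {v : Fin 2 → ℤ} (h : eisSummand 2 v z = 0) : v = 0 := by
  unfold eisSummand at h
  rw [_root_.zpow_neg, inv_eq_zero] at h
  have h2 : (v 0 : ℂ) * z + v 1 = 0 := by
    by_contra hne
    exact zpow_ne_zero 2 hne h
  have h3 : (v 0 : ℂ) * z + v 1 = ((0 : ℤ) : ℂ) * z + ((0 : ℤ) : ℂ) := by
    rw [h2]; simp
  obtain ⟨h4, h5⟩ := lin_inj z h3
  ext i
  fin_cases i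
  · exact h4
  · exact h5

omit [NeZero N] in
lemma eisSummand_two_pow (z : ℍ) (v : Fin 2 → ℤ) (m : ℕ) :
    eisSummand 2 v z ^ m = eisSummand (2 * m) v z := by
  unfold eisSummand
  rw [← zpow_natCast, ← _root_.zpow_mul, neg_mul]

/-- The key analytic step: if all the `eisOrbit` agree at `z₀`, the coefficient functions agree. -/
lemma coef_eq_of_eisOrbit_eq (r r' : Fin 2 → ZMod N) (z₀ : ℍ)
    (h : ∀ m : ℕ, 2 ≤ m → eisOrbit r (2 * m) z₀ = eisOrbit r' (2 * m) z₀) (v : Fin 2 → ℤ) :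
    coef r v = coef r' v := by
  have key := moment_lemma (fun v : Fin 2 → ℤ => eisSummand 2 v z₀)
    (fun v => coef r v - coef r' v) ?_ ?_ ?_ ?_ ?_ v
  · exact sub_eq_zero.1 key
  · have := summable_norm_eisSummand (k := 4) (by norm_num) z₀
    refine this.congr fun v => ?_
    rw [← norm_pow, eisSummand_two_pow]
    norm_num
  · refine ⟨Fintype.card (ZMod N)ˣ + Fintype.card (ZMod N)ˣ, fun v => ?_⟩
    exact (norm_sub_le _ _).trans (add_le_add (norm_coef_le _ _) (norm_coef_le _ _))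
  · intro v w hvw
    rcases eisSummand_two_eq z₀ hvw with rfl | rfl
    · rfl
    · simp only [coef_neg]
  · intro v hv
    rw [eisSummand_two_eq_zero z₀ hv]
    simp [coef_zero]
  · intro m hm
    have hk : (3 : ℤ) ≤ 2 * (m : ℤ) := by omega
    have h1 := h m hm
    rw [eisOrbit_eq_tsum r hk, eisOrbit_eq_tsum r' hk] at h1
    have hs : ∀ s : Fin 2 → ZMod N,
        Summable fun v : Fin 2 → ℤ => coef s v * eisSummand (2 * m) v z₀ := by
      intro s
      refine Summable.of_norm_bounded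
        ((summable_norm_eisSummand hk z₀).mul_left (Fintype.card (ZMod N)ˣ : ℝ)) fun v => ?_
      rw [norm_mul]
      exact mul_le_mul_of_nonneg_right (norm_coef_le _ _) (norm_nonneg _)
    simp_rw [eisSummand_two_pow, sub_mul]
    rw [(hs r).tsum_sub (hs r'), h1, sub_self]

/-- The bottom row of `γ`. -/
def botRow (γ : SL(2, ℤ)) : Fin 2 → ℤ := ![γ 1 0, γ 1 1]

omit [NeZero N] in
lemma botRow_mem (γ : SL(2, ℤ)) :
    botRow γ ∈ gammaSet N 1 ![((γ 1 0 : ℤ) : ZMod N), ((γ 1 1 : ℤ) : ZMod N)] := by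
  refine ⟨?_, ?_⟩
  · ext i
    fin_cases i <;> simp [botRow]
  · have h1 := γ.det_coe
    rw [Matrix.det_fin_two] at h1
    have : IsCoprime (γ 1 0) (γ 1 1) := ⟨-γ 0 1, γ 0 0, by linarith⟩
    simpa [botRow] using Int.isCoprime_iff_gcd_eq_one.1 this

lemma conj_A (k : ℤ) (x : X (Gamma0 N)) :
    conj k (A N k) x =
      eisOrbit ![(((x.out)⁻¹ 1 0 : ℤ) : ZMod N), (((x.out)⁻¹ 1 1 : ℤ) : ZMod N)] k := by
  unfold conj A
  rw [eisOrbit_slash, vecMul_map]

omit [NeZero N] in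
lemma mul_inv_one_zero (g g' : SL(2, ℤ)) :
    (g * g'⁻¹) 1 0 = g 1 0 * g' 1 1 - g 1 1 * g' 1 0 := by
  simp only [Matrix.SpecialLinearGroup.coe_mul, Matrix.SpecialLinearGroup.coe_inv,
    Matrix.adjugate_fin_two, Matrix.mul_apply, Fin.sum_univ_two]
  simp
  ring

end Sep

open Fermat.Agent.ES.Sep in
theorem separates_Gamma0 (N : ℕ) [NeZero N] : Separates (Gamma0 N) := by
  intro z₀ x x' hxx'
  by_contra hcon
  push Not at hcon
  apply hxx'
  obtain ⟨g, hg⟩ : ∃ g : SL(2, ℤ), g = (x.out)⁻¹ := ⟨_, rfl⟩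
  obtain ⟨g', hg'⟩ : ∃ g : SL(2, ℤ), g = (x'.out)⁻¹ := ⟨_, rfl⟩
  have h1 : ∀ m : ℕ, 2 ≤ m →
      eisOrbit ![((g 1 0 : ℤ) : ZMod N), ((g 1 1 : ℤ) : ZMod N)] (2 * m) z₀ =
      eisOrbit ![((g' 1 0 : ℤ) : ZMod N), ((g' 1 1 : ℤ) : ZMod N)] (2 * m) z₀ := by
    intro m hm
    have hk : (3 : ℤ) ≤ 2 * (m : ℤ) := by omega
    have := hcon (2 * m) (A N (2 * m)) (A_mem hk)
    rwa [conj_A, conj_A, ← hg, ← hg'] at this
  have h2 := coef_eq_of_eisOrbit_eq _ _ z₀ h1 (botRow g)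
  have h3 : coef ![((g 1 0 : ℤ) : ZMod N), ((g 1 1 : ℤ) : ZMod N)] (botRow g) ≠ 0 := by
    rw [coef_ne_zero_iff]
    exact ⟨1, by simpa using botRow_mem g⟩
  rw [h2, coef_ne_zero_iff] at h3
  obtain ⟨u, hu⟩ := h3
  have h4 := hu.1
  have h50 : ((g 1 0 : ℤ) : ZMod N) = u * ((g' 1 0 : ℤ) : ZMod N) := by
    simpa [botRow] using congrFun h4 0
  have h51 : ((g 1 1 : ℤ) : ZMod N) = u * ((g' 1 1 : ℤ) : ZMod N) := by
    simpa [botRow] using congrFun h4 1
  rw [← QuotientGroup.out_eq' x, ← QuotientGroup.out_eq' x', QuotientGroup.eq]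
  have h6 : (x.out)⁻¹ * x'.out = g * g'⁻¹ := by simp [hg, hg']
  rw [h6, Gamma0_mem, mul_inv_one_zero]
  push_cast
  rw [h50, h51]
  ring

end Fermat.Agent.ES
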