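/-
Level one facts in the language of `MF ⊤ k` (package P-L1 of the ES effort).
-/
import Fermat.Agent.ES.Defs2

set_option autoImplicit false

namespace Fermat.Agent.ES

open UpperHalfPlane ModularForm EisensteinSeries Filter Asymptotics Topology
open scoped MatrixGroups Manifold

variable {Γ : Subgroup SL(2, ℤ)} {k l w : ℤ} {f g a : ℍ → ℂ}

lemma E4_mem : E4 ∈ MF ⊤ 4 := coe_mem_MF_top E₄
lemma E6_mem : E6 ∈ MF ⊤ 6 := coe_mem_MF_top E₆
lemma Δ_mem : Δ ∈ CF ⊤ 12 := coe_mem_CF_top CuspForm.discriminant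
lemma Δ_mem_MF : Δ ∈ MF ⊤ 12 := CF_le_MF Δ_mem
lemma Δ_ne_zero (z : ℍ) : Δ z ≠ 0 := discriminant_ne_zero z

lemma Δ_apply (z : ℍ) : Δ z = (E4 z ^ 3 - E6 z ^ 2) / 1728 :=
  discriminant_eq_E₄_cube_sub_E₆_sq z

lemma Δ_eq : (1728 : ℂ) • Δ = E4 ^ 3 - E6 ^ 2 := by
  ext z
  simp only [Pi.smul_apply, smul_eq_mul, Pi.sub_apply, Pi.pow_apply, Δ_apply]
  ring

lemma E4_or_E6_ne_zero (z : ℍ) : E4 z ≠ 0 ∨ E6 z ≠ 0 := by
  by_contra h
  push Not at h
  apply Δ_ne_zero z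
  rw [Δ_apply, h.1, h.2]
  simp

/-! ### membership transport -/

lemma MF_cast (h : k = l) (hf : f ∈ MF Γ k) : f ∈ MF Γ l := h ▸ hf
lemma CF_cast (h : k = l) (hf : f ∈ CF Γ k) : f ∈ CF Γ l := h ▸ hf

lemma MF_pow (hf : f ∈ MF Γ k) (n : ℕ) : f ^ n ∈ MF Γ (n * k) := by
  induction n with
  | zero => simpa using one_mem_MF
  | succ n ih =>
    rw [pow_succ]
    exact MF_cast (by push_cast; ring) (MF_mul ih hf)

/-! ### periodicity and the value at infinity -/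

lemma periodic_of_mem_MF_top (hf : f ∈ MF ⊤ k) : Function.Periodic (f ∘ ofComplex) (1 : ℝ) :=
  SlashInvariantFormClass.periodic_comp_ofComplex (toModularFormSL hf) one_mem_strictPeriods_SL

lemma bdd_of_mem_MF (hf : f ∈ MF Γ k) : IsBoundedAtImInfty f := by
  simpa using hf.2.2 1

lemma zero_of_mem_CF (hf : f ∈ CF Γ k) : IsZeroAtImInfty f := by
  simpa using hf.2.2 1

lemma analyticAt_cuspFunction_of_mem_MF_top (hf : f ∈ MF ⊤ k) :
    AnalyticAt ℂ (cuspFunction 1 f) 0 :=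
  analyticAt_cuspFunction_zero one_pos (periodic_of_mem_MF_top hf) hf.1 (bdd_of_mem_MF hf)

/-- A level one form has a limit at `i∞`. -/
lemma tendsto_of_mem_MF_top (hf : f ∈ MF ⊤ k) :
    Tendsto f atImInfty (𝓝 (valueAtInfty f)) := by
  have h1 := analyticAt_cuspFunction_of_mem_MF_top hf
  have h2 := cuspFunction_apply_zero one_pos h1 (periodic_of_mem_MF_top hf)
  have h3 : (cuspFunction 1 f ∘ fun τ : ℍ ↦ Function.Periodic.qParam 1 τ : ℍ → ℂ) = f := by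
    funext τ
    simpa using eq_cuspFunction τ one_ne_zero (periodic_of_mem_MF_top hf)
  have h4 := h1.continuousAt.tendsto.comp (qParam_tendsto_atImInfty one_pos)
  rw [h2] at h4
  rwa [h3] at h4

lemma coeff_zero_eq_valueAtInfty (hf : f ∈ MF ⊤ k) :
    (qExpansion 1 f).coeff 0 = valueAtInfty f :=
  qExpansion_coeff_zero one_pos (analyticAt_cuspFunction_of_mem_MF_top hf)
    (periodic_of_mem_MF_top hf)

lemma valueAtInfty_E4 : valueAtInfty E4 = 1 := by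
  rw [← coeff_zero_eq_valueAtInfty E4_mem]
  exact E_qExpansion_coeff_zero _ ⟨2, rfl⟩

lemma valueAtInfty_E6 : valueAtInfty E6 = 1 := by
  rw [← coeff_zero_eq_valueAtInfty E6_mem]
  exact E_qExpansion_coeff_zero _ ⟨3, rfl⟩

lemma E4_tendsto : Tendsto E4 atImInfty (𝓝 1) := by
  simpa [valueAtInfty_E4] using tendsto_of_mem_MF_top E4_mem

lemma E6_tendsto : Tendsto E6 atImInfty (𝓝 1) := by
  simpa [valueAtInfty_E6] using tendsto_of_mem_MF_top E6_mem

lemma Δ_tendsto : Tendsto Δ atImInfty (𝓝 0) := zero_of_mem_CF Δ_mem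

/-- A level one form tending to `0` at `i∞` is a cusp form. -/
lemma mem_CF_top_of_tendsto (hf : f ∈ MF ⊤ k) (h0 : Tendsto f atImInfty (𝓝 0)) : f ∈ CF ⊤ k :=
  ⟨hf.1, hf.2.1, fun g => by rw [hf.2.1 g trivial]; exact h0⟩

/-! ### small weights -/

lemma MF_top_eq_bot_of_neg (hk : k < 0) : MF ⊤ k = ⊥ := by
  rw [eq_bot_iff]
  intro f hf
  exact ModularFormClass.levelOne_neg_weight_eq_zero hk (toModularFormSL hf)

lemma MF_top_eq_bot_of_odd (hk : Odd k) : MF ⊤ k = ⊥ := by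
  rw [eq_bot_iff]
  intro f hf
  have := levelOne_odd_weight_eq_zero hk (toModularFormSL hf)
  have h2 : (⇑(toModularFormSL hf) : ℍ → ℂ) = 0 := by rw [this]; rfl
  simpa using h2

lemma MF_top_two : MF ⊤ 2 = ⊥ := by
  rw [eq_bot_iff]
  intro f hf
  have := rank_zero_iff_forall_zero.mp levelOne_weight_two_rank_zero (toModularFormSL hf)
  have h2 : (⇑(toModularFormSL hf) : ℍ → ℂ) = 0 := by rw [this]; rfl
  simpa using h2

lemma mem_MF_top_zero : f ∈ MF ⊤ 0 ↔ ∃ c : ℂ, f = fun _ => c := by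
  constructor
  · intro hf
    obtain ⟨c, hc⟩ := ModularFormClass.levelOne_weight_zero_const (toModularFormSL hf)
    exact ⟨c, hc⟩
  · rintro ⟨c, rfl⟩
    exact const_mem_MF c

theorem MF_top_zero (hf : f ∈ MF ⊤ 0) : ∃ c : ℂ, f = fun _ => c := mem_MF_top_zero.mp hf

/-- every level one form has a limit at `i∞`. -/
theorem MF_top_tendsto (hf : f ∈ MF ⊤ k) : ∃ c : ℂ, Tendsto f atImInfty (𝓝 c) :=
  ⟨_, tendsto_of_mem_MF_top hf⟩

/-! ### general level: small weights -/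

theorem MF_eq_bot_of_neg [Γ.FiniteIndex] (hk : k < 0) : MF Γ k = ⊥ := by
  rw [eq_bot_iff]
  intro f hf
  have := ModularForm.isZero_of_neg_weight hk (toModularForm hf)
  have h2 : (⇑(toModularForm hf) : ℍ → ℂ) = 0 := by rw [this]; rfl
  simpa using h2

theorem MF_eq_bot_of_odd (hneg : (-1 : SL(2, ℤ)) ∈ Γ) (hk : Odd k) : MF Γ k = ⊥ := by
  rw [eq_bot_iff]
  intro f hf
  have h1 := hf.2.1 _ hneg
  rw [Submodule.mem_bot]
  ext z
  have h2 := congrFun h1 z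
  rw [ModularForm.SL_slash_apply] at h2
  have h3 : (-1 : SL(2, ℤ)) • z = z := by
    ext
    simp
  have h4 : denom (Matrix.SpecialLinearGroup.toGL
      ((Matrix.SpecialLinearGroup.map (Int.castRingHom ℝ)) (-1 : SL(2, ℤ)))) (z : ℂ) = -1 := by
    simp [denom]
  rw [h3, h4, (Odd.neg hk).neg_one_zpow] at h2
  have h5 : (2 : ℂ) * f z = 0 := by linear_combination -h2
  simpa using h5

theorem MF_zero [Γ.FiniteIndex] (hf : f ∈ MF Γ 0) : ∃ c : ℂ, f = fun _ => c := by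
  obtain ⟨c, hc⟩ := ModularForm.eq_const_of_weight_zero (toModularForm hf)
  exact ⟨c, hc⟩

theorem CF_eq_bot_of_nonpos [Γ.FiniteIndex] (hk : k ≤ 0) : CF Γ k = ⊥ := by
  rw [eq_bot_iff]
  intro f hf
  rcases hk.lt_or_eq with hk | rfl
  · have := CF_le_MF hf
    rwa [MF_eq_bot_of_neg hk] at this
  · obtain ⟨c, rfl⟩ := MF_zero (CF_le_MF hf)
    have h0 : Tendsto (fun _ : ℍ => c) atImInfty (𝓝 0) := zero_of_mem_CF hf
    have : c = 0 := tendsto_nhds_unique tendsto_const_nhds h0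
    subst this
    rfl

/-- `ℍ → ℂ` restricted to holomorphic functions has no zero divisors. -/
theorem mul_eq_zero_of_mdiff (hf : MDiff f) (hg : MDiff g) (h : f * g = 0) :
    f = 0 ∨ g = 0 := (UpperHalfPlane.mul_eq_zero_iff hf hg).mp h

theorem E4_ne_zero : E4 ≠ 0 := by
  intro h
  have h1 := E4_tendsto
  rw [h] at h1
  have h2 : Tendsto (0 : ℍ → ℂ) atImInfty (𝓝 0) := tendsto_const_nhds
  exact one_ne_zero (tendsto_nhds_unique h1 h2)

theorem E6_ne_zero : E6 ≠ 0 := by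
  intro h
  have h1 := E6_tendsto
  rw [h] at h1
  have h2 : Tendsto (0 : ℍ → ℂ) atImInfty (𝓝 0) := tendsto_const_nhds
  exact one_ne_zero (tendsto_nhds_unique h1 h2)

theorem Δ_ne_zero' : Δ ≠ 0 := fun h => Δ_ne_zero I (by rw [h]; rfl)

/-! ### division by `Δ` -/

lemma exists_eq_Δ_mul_of_mem_CF_top (hf : f ∈ CF ⊤ k) : ∃ g ∈ MF ⊤ (k - 12), f = Δ * g := by
  refine ⟨_, coe_mem_MF_top (CuspForm.discriminantEquiv (toCuspFormSL hf)), ?_⟩
  exact (discriminant_mul_discriminantEquiv (toCuspFormSL hf)).symm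

lemma Δ_mul_mem_CF (hg : g ∈ MF Γ k) : Δ * g ∈ CF Γ (k + 12) :=
  CF_cast (by ring) (CF_mul_MF (CF_top_le Δ_mem) hg)

lemma absq_isBigO_Δ : absq =O[atImInfty] Δ :=
  exp_isBigO_discriminant

lemma Δ_isBigO_absq : Δ =O[atImInfty] absq := by
  have := CuspFormClass.exp_decay_atImInfty CuspForm.discriminant one_pos one_mem_strictPeriods_SL
  simp only [div_one] at this
  exact this

lemma div_slash_Δ (f : ℍ → ℂ) (g : SL(2, ℤ)) :
    (f / Δ) ∣[k - 12] g = (f ∣[k] g) / Δ := by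
  have h := Δ_mem_MF.2.1 g trivial
  rw [ModularForm.div_slash_SL2, h]

/-- **`Δ`-division.** If all the conjugates of `f ∈ MF Γ k` are `O(Δ)` at `i∞` then
`f / Δ ∈ MF Γ (k - 12)`. -/
lemma div_Δ_mem_MF (hf : f ∈ MF Γ k) (hO : ∀ g : SL(2, ℤ), (f ∣[k] g) =O[atImInfty] Δ) :
    f / Δ ∈ MF Γ (k - 12) := by
  refine ⟨hf.1.div Δ_mem_MF.1 Δ_ne_zero, fun γ hγ => ?_, fun g => ?_⟩
  · rw [div_slash_Δ, hf.2.1 γ hγ]
  · rw [div_slash_Δ, IsBoundedAtImInfty, BoundedAtFilter]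
    exact (div_isBoundedUnder_of_isBigO (hO g)).isBigO_one ℝ

/-- Version with `O(q)`. -/
lemma div_Δ_mem_MF' (hf : f ∈ MF Γ k)
    (hO : ∀ g : SL(2, ℤ), (f ∣[k] g) =O[atImInfty] absq) :
    f / Δ ∈ MF Γ (k - 12) :=
  div_Δ_mem_MF hf fun g => (hO g).trans absq_isBigO_Δ

lemma Δ_mul_div (f : ℍ → ℂ) : Δ * (f / Δ) = f := by
  ext z
  simp only [Pi.mul_apply, Pi.div_apply]
  rw [mul_div_cancel₀ _ (Δ_ne_zero z)]

lemma exists_eq_Δ_mul' (hf : f ∈ MF Γ k) (hO : ∀ g : SL(2, ℤ), (f ∣[k] g) =O[atImInfty] Δ) :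
    ∃ g ∈ MF Γ (k - 12), f = Δ * g :=
  ⟨_, div_Δ_mem_MF hf hO, (Δ_mul_div f).symm⟩

/-- `Δ`-division at general level. -/
theorem exists_eq_Δ_mul (hf : f ∈ MF Γ k)
    (h : ∀ x : X Γ, conj k f x =O[atImInfty] absq) : ∃ g ∈ MF Γ (k - 12), f = Δ * g := by
  refine ⟨_, div_Δ_mem_MF' hf fun g => ?_, (Δ_mul_div f).symm⟩
  have := h ((g⁻¹ : SL(2, ℤ)) : X Γ)
  rwa [conj_mk hf.2.1, inv_inv] at this

/-! ### monomials and the decomposition `a = E4 * b + E6 * c` -/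

/-- For every even `w ≥ 4` there is a level one form of weight `w` with value `1` at `i∞`,
which lies in `E4 * R + E6 * R`; it is a monomial `E4 ^ α * E6 ^ β`. -/
lemma exists_monomial (hw : 4 ≤ w) (hw2 : Even w) :
    ∃ α β : ℕ, 4 * (α : ℤ) + 6 * β = w ∧ 0 < α + β := by
  obtain ⟨m, rfl⟩ := hw2
  rcases Int.even_or_odd' m with ⟨n, rfl | rfl⟩
  · refine ⟨n.toNat, 0, ?_, ?_⟩ <;> omega
  · refine ⟨(n - 1).toNat, 1, ?_, ?_⟩ <;> omega

lemma monomial_mem (α β : ℕ) : E4 ^ α * E6 ^ β ∈ MF ⊤ (4 * (α : ℤ) + 6 * β) :=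
  MF_cast (by ring) (MF_mul (MF_pow E4_mem α) (MF_pow E6_mem β))

lemma monomial_tendsto (α β : ℕ) : Tendsto (E4 ^ α * E6 ^ β) atImInfty (𝓝 1) := by
  have := (E4_tendsto.pow α).mul (E6_tendsto.pow β)
  simp only [one_pow, mul_one] at this
  exact this

/-- level one forms with value `1` at `i∞` in every even weight `≥ 4`. -/
theorem exists_MF_top_tendsto_one (hw : 4 ≤ w) (hw2 : Even w) :
    ∃ A ∈ MF ⊤ w, Tendsto A atImInfty (𝓝 1) := by
  obtain ⟨α, β, hαβ, -⟩ := exists_monomial hw hw2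
  exact ⟨_, hαβ ▸ monomial_mem α β, monomial_tendsto α β⟩

/-- Every level one form of weight `w ≠ 0` lies in `E4 * R_{w-4} + E6 * R_{w-6}`. -/
theorem MF_top_decomp (hw : w ≠ 0) (ha : a ∈ MF ⊤ w) :
    ∃ b ∈ MF ⊤ (w - 4), ∃ c ∈ MF ⊤ (w - 6), a = E4 * b + E6 * c := by
  -- trivial cases: `a = 0`
  have triv : a = 0 → ∃ b ∈ MF ⊤ (w - 4), ∃ c ∈ MF ⊤ (w - 6), a = E4 * b + E6 * c := by
    rintro rfl
    exact ⟨0, zero_mem _, 0, zero_mem _, by simp⟩
  rcases lt_or_ge w 0 with h0 | h0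
  · exact triv (by simpa [MF_top_eq_bot_of_neg h0] using ha)
  rcases Int.even_or_odd w with hev | hodd
  swap
  · exact triv (by simpa [MF_top_eq_bot_of_odd hodd] using ha)
  have h4 : w = 2 ∨ 4 ≤ w := by
    obtain ⟨m, rfl⟩ := hev
    omega
  rcases h4 with rfl | h4
  · exact triv (by simpa [MF_top_two] using ha)
  obtain ⟨α, β, hαβ, hpos⟩ := exists_monomial h4 hev
  set m : ℍ → ℂ := E4 ^ α * E6 ^ β with hm
  have hm_mem : m ∈ MF ⊤ w := hαβ ▸ monomial_mem α β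
  -- the monomial is in the ideal
  have hm_dec : ∃ b ∈ MF ⊤ (w - 4), ∃ c ∈ MF ⊤ (w - 6), m = E4 * b + E6 * c := by
    rcases Nat.eq_zero_or_pos α with hα | hα
    · have hβ : 0 < β := by omega
      obtain ⟨β', rfl⟩ : ∃ β', β = β' + 1 := ⟨β - 1, by omega⟩
      refine ⟨0, zero_mem _, E4 ^ α * E6 ^ β', MF_cast (by push_cast at hαβ ⊢; omega)
        (monomial_mem α β'), ?_⟩
      rw [hm]; ring
    · obtain ⟨α', rfl⟩ : ∃ α', α = α' + 1 := ⟨α - 1, by omega⟩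
      refine ⟨E4 ^ α' * E6 ^ β, MF_cast (by push_cast at hαβ ⊢; omega) (monomial_mem α' β),
        0, zero_mem _, ?_⟩
      rw [hm]; ring
  -- `a - a(∞) m` is a cusp form
  set c₀ := valueAtInfty a
  have hcusp : a - c₀ • m ∈ CF ⊤ w := by
    refine mem_CF_top_of_tendsto (sub_mem ha (Submodule.smul_mem _ _ hm_mem)) ?_
    have h1 := tendsto_of_mem_MF_top ha
    have h2 : Tendsto (c₀ • m) atImInfty (𝓝 (c₀ • 1)) := (monomial_tendsto α β).const_smul c₀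
    have h3 := h1.sub h2
    simp only [smul_eq_mul, mul_one, c₀, sub_self] at h3
    exact h3
  obtain ⟨a', ha', hEq⟩ := exists_eq_Δ_mul_of_mem_CF_top hcusp
  obtain ⟨b, hb, c, hc, hbc⟩ := hm_dec
  refine ⟨c₀ • b + (1728 : ℂ)⁻¹ • (E4 ^ 2 * a'), ?_, c₀ • c - (1728 : ℂ)⁻¹ • (E6 * a'), ?_, ?_⟩
  · refine add_mem (Submodule.smul_mem _ _ hb) (Submodule.smul_mem _ _ ?_)
    exact MF_cast (by ring) (MF_mul (MF_pow E4_mem 2) ha')
  · refine sub_mem (Submodule.smul_mem _ _ hc) (Submodule.smul_mem _ _ ?_)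
    exact MF_cast (by ring) (MF_mul E6_mem ha')
  · have h1 : a = c₀ • m + Δ * a' := by rw [← hEq]; ring
    rw [h1, hbc]
    ext z
    simp only [Pi.add_apply, Pi.smul_apply, Pi.mul_apply, Pi.sub_apply, Pi.pow_apply, smul_eq_mul,
      Δ_apply]
    ring

/-! ### dimensions -/

lemma finrank_MF_top_eq (k : ℤ) :
    Module.finrank ℂ (MF ⊤ k) = Module.finrank ℂ (ModularForm 𝒮ℒ k) :=
  (MFequivSL k).finrank_eq.symm

instance (k : ℤ) : FiniteDimensional ℂ (MF ⊤ k) := (MFequivSL k).finiteDimensional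

/-- The level one dimension formula. -/
lemma finrank_MF_top (k : ℕ) (hk : Even k) :
    Module.finrank ℂ (MF ⊤ (k : ℤ)) = if k % 12 = 2 then k / 12 else k / 12 + 1 := by
  rw [finrank_MF_top_eq, Module.finrank, dimension_level_one k hk]
  simp only [Nat.ModEq, show 2 % 12 = 2 from rfl]
  split_ifs <;> simp

end Fermat.Agent.ES
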