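/-
The trace pairing `Tr(f g) = ∑ₓ fₓ gₓ` and its consequences for the upper bound in the
dimension formula (packages E1, E2, E3 of the S20 side of the ES effort).
-/
import Fermat.Agent.ES.LevelOne

set_option autoImplicit false

namespace Fermat.Agent.ES

open UpperHalfPlane ModularForm Filter Asymptotics Topology
open scoped MatrixGroups Manifold

variable {Γ : Subgroup SL(2, ℤ)} {k l : ℤ} {f g : ℍ → ℂ}

section trace

variable [Fintype (X Γ)]

/-- The trace of a function: the sum of its conjugates. -/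
noncomputable def tr (Γ : Subgroup SL(2, ℤ)) [Fintype (X Γ)] (k : ℤ) (f : ℍ → ℂ) : ℍ → ℂ :=
  ∑ x : X Γ, conj k f x

lemma tr_apply (z : ℍ) : tr Γ k f z = ∑ x : X Γ, conj k f x z := by
  simp [tr, Finset.sum_apply]

lemma tr_slash (hf : ∀ γ ∈ Γ, f ∣[k] γ = f) (g : SL(2, ℤ)) : tr Γ k f ∣[k] g = tr Γ k f := by
  unfold tr
  rw [SlashAction.sum_slash]
  simp_rw [conj_slash hf]
  exact Equiv.sum_comp (MulAction.toPerm (g⁻¹ : SL(2, ℤ))) (fun x : X Γ => conj k f x)

lemma tr_mem_MF (hf : f ∈ MF Γ k) : tr Γ k f ∈ MF ⊤ k := by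
  refine ⟨MDifferentiable.sum fun x _ => conj_mdiff hf.1 x, fun γ _ => tr_slash hf.2.1 γ,
    fun g => ?_⟩
  rw [tr_slash hf.2.1]
  unfold tr
  have : ∀ s : Finset (X Γ), IsBoundedAtImInfty (∑ x ∈ s, conj k f x) := by
    intro s
    induction s using Finset.cons_induction with
    | empty => simpa using zero_form_isBoundedAtImInfty
    | cons a s ha ih =>
      rw [Finset.sum_cons]
      exact (conj_mem_bdd hf a).add ih
  exact this _

lemma tr_mem_CF (hf : f ∈ CF Γ k) : tr Γ k f ∈ CF ⊤ k := by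
  refine mem_CF_top_of_tendsto (tr_mem_MF (CF_le_MF hf)) ?_
  have h : ∀ x : X Γ, Tendsto (conj k f x) atImInfty (𝓝 0) := fun x => hf.2.2 _
  have h2 := tendsto_finsetSum Finset.univ (fun x _ => h x)
  simp only [Finset.sum_const_zero] at h2
  have h3 : tr Γ k f = fun z => ∑ x : X Γ, conj k f x z := by
    ext z; exact tr_apply z
  rw [h3]
  exact h2

lemma tr_add (f g : ℍ → ℂ) : tr Γ k (f + g) = tr Γ k f + tr Γ k g := by
  simp [tr, conj_add, Finset.sum_add_distrib]

lemma tr_smul (c : ℂ) (f : ℍ → ℂ) : tr Γ k (c • f) = c • tr Γ k f := by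
  simp [tr, conj_smul, Finset.smul_sum]

lemma tr_mul_apply (f g : ℍ → ℂ) (z : ℍ) :
    tr Γ (k + l) (f * g) z = ∑ x : X Γ, conj k f x z * conj l g x z := by
  simp [tr_apply, conj_mul]

/-- level one factors come out of the trace -/
lemma tr_top_mul {a : ℍ → ℂ} (ha : a ∈ MF ⊤ k) (f : ℍ → ℂ) :
    tr Γ (k + l) (a * f) = a * tr Γ l f := by
  ext z
  rw [tr_mul_apply, Pi.mul_apply, tr_apply, Finset.mul_sum]
  exact Finset.sum_congr rfl fun x _ => by rw [conj_of_mem_top ha]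

end trace

/-! ### level one cusp forms of small weight -/

lemma CF_top_eq_bot_of_lt (hk : k < 12) : CF ⊤ k = ⊥ := by
  rw [eq_bot_iff]
  intro f hf
  obtain ⟨g, hg, rfl⟩ := exists_eq_Δ_mul_of_mem_CF_top hf
  rw [MF_top_eq_bot_of_neg (by omega)] at hg
  rw [Submodule.mem_bot] at hg ⊢
  rw [hg, mul_zero]

lemma CF_top_twelve (hf : f ∈ CF ⊤ 12) : ∃ c : ℂ, f = c • Δ := by
  obtain ⟨g, hg, rfl⟩ := exists_eq_Δ_mul_of_mem_CF_top hf
  obtain ⟨c, rfl⟩ := MF_top_zero (MF_cast (by norm_num) hg)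
  refine ⟨c, ?_⟩
  ext z
  simp [mul_comm]

/-! ### E2 : `dim S₂ ≤ n₁₀` -/

section E2

variable [Fintype (X Γ)] (B : HBasis Γ)

/-- If the trace of `f * F j` vanishes for every `j`, then `f = 0` (frame property). -/
lemma eq_zero_of_tr_eq_zero (hB : B.IsFrame) (hf : ∀ γ ∈ Γ, f ∣[k] γ = f)
    (h : ∀ j, tr Γ (k + B.wt j) (f * B.F j) = 0) : f = 0 := by
  ext z
  -- the functional `v ↦ ∑ₓ fₓ(z) vₓ` vanishes on a spanning set
  let φ : V Γ →ₗ[ℂ] ℂ :=
    { toFun := fun v => ∑ x : X Γ, conj k f x z * v x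
      map_add' := fun v w => by simp [mul_add, Finset.sum_add_distrib]
      map_smul' := fun c v => by
        simp only [Pi.smul_apply, smul_eq_mul, RingHom.id_apply, Finset.mul_sum]
        exact Finset.sum_congr rfl fun x _ => by ring }
  have hφ : φ = 0 := by
    apply LinearMap.ext_on (hB z).2
    rintro _ ⟨j, rfl⟩
    have := congrFun (h j) z
    rw [tr_mul_apply] at this
    simpa [φ, vec_apply] using this
  classical
  have h1 : φ (Pi.single (x₀ Γ) 1) = 0 := by rw [hφ]; rfl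
  simp only [φ, LinearMap.coe_mk, AddHom.coe_mk, Pi.single_apply, mul_ite, mul_one, mul_zero,
    Finset.sum_ite_eq', Finset.mem_univ, if_true] at h1
  rw [conj_x₀ hf] at h1
  simpa using h1

/-- **E2.** `dim S₂(Γ) ≤ #{j | wt j = 10}`. -/
theorem finrank_CF_two_le [Finite B.J] (hB : B.IsFrame) (hwt : ∀ j, B.wt j ≤ 10) :
    Module.finrank ℂ (CF Γ 2) ≤ Nat.card {j // B.wt j = 10} := by
  classical
  have : Fintype {j // B.wt j = 10} := Fintype.ofFinite _
  let Φ : CF Γ 2 →ₗ[ℂ] ({j // B.wt j = 10} → ℂ) :=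
    { toFun := fun f j => tr Γ (2 + B.wt j) ((f : ℍ → ℂ) * B.F j) I
      map_add' := fun f g => by
        ext j
        simp only [Submodule.coe_add, add_mul, tr_add, Pi.add_apply]
      map_smul' := fun c f => by
        ext j
        simp only [Submodule.coe_smul, smul_mul_assoc, tr_smul, Pi.smul_apply, RingHom.id_apply] }
  have hΦ : Function.Injective Φ := by
    rw [← LinearMap.ker_eq_bot, LinearMap.ker_eq_bot']
    rintro ⟨f, hf⟩ h0
    rw [Submodule.mk_eq_zero]
    refine eq_zero_of_tr_eq_zero B hB hf.2.1 fun j => ?_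
    have hmem : tr Γ (2 + B.wt j) (f * B.F j) ∈ CF ⊤ (2 + B.wt j) :=
      tr_mem_CF (CF_mul_MF hf (B.mem j))
    rcases (hwt j).lt_or_eq with hlt | heq
    · rw [CF_top_eq_bot_of_lt (by omega)] at hmem
      exact hmem
    · obtain ⟨c, hc⟩ := CF_top_twelve (CF_cast (by omega) hmem)
      have h1 : tr Γ (2 + B.wt j) (f * B.F j) I = 0 := congrFun h0 ⟨j, heq⟩
      rw [hc] at h1 ⊢
      simp only [Pi.smul_apply, smul_eq_mul, mul_eq_zero, Δ_ne_zero, or_false] at h1
      rw [h1, zero_smul]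
  calc Module.finrank ℂ (CF Γ 2) ≤ Module.finrank ℂ ({j // B.wt j = 10} → ℂ) :=
        LinearMap.finrank_le_finrank_of_injective hΦ
    _ = Nat.card {j // B.wt j = 10} := by
        rw [Module.finrank_fintype_fun_eq_card, Nat.card_eq_fintype_card]

end E2

/-! ### E3 : a lower bound for `dim S_K` from the dual family -/

section E3

lemma conj_top_mul {a : ℍ → ℂ} {K : ℤ} (ha : a ∈ MF ⊤ k) (h : k + l = K) (f : ℍ → ℂ) (x : X Γ) :
    conj K (a * f) x = a * conj l f x := by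
  subst h
  rw [conj_mul, conj_of_mem_top ha]

lemma conj_sum {ι : Type*} (s : Finset ι) (F : ι → ℍ → ℂ) (x : X Γ) :
    conj k (∑ i ∈ s, F i) x = ∑ i ∈ s, conj k (F i) x := by
  simp [conj, SlashAction.sum_slash]

variable [Fintype (X Γ)] (B : HBasis Γ) [Fintype B.J] [DecidableEq B.J]
  (G : B.J → ℍ → ℂ) (hG : ∀ j, G j ∈ CF Γ (12 - B.wt j))
  (hGF : ∀ (z : ℍ) (j j' : B.J),
    ∑ x : X Γ, conj (12 - B.wt j) (G j) x z * conj (B.wt j') (B.F j') x z
      = if j = j' then Δ z else 0)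

include hGF in
/-- The dual family is linearly independent over the level one forms. -/
lemma dual_indep (K : ℤ) (a : B.J → ℍ → ℂ) (ha : ∀ j, a j ∈ MF ⊤ (K - 12 + B.wt j))
    (h : ∑ j, a j * G j = 0) : ∀ j, a j = 0 := by
  intro j'
  ext z
  have h1 : ∀ x : X Γ, ∑ j, a j z * conj (12 - B.wt j) (G j) x z = 0 := by
    intro x
    have h2 : conj K (∑ j, a j * G j) x z = 0 := by
      rw [h]; simp [conj]
    rw [conj_sum, Finset.sum_apply] at h2
    rw [← h2]
    refine Finset.sum_congr rfl fun j _ => ?_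
    rw [conj_top_mul (ha j) (by ring : K - 12 + B.wt j + (12 - B.wt j) = K)]
    rfl
  have h3 : ∑ x : X Γ, (∑ j, a j z * conj (12 - B.wt j) (G j) x z) *
      conj (B.wt j') (B.F j') x z = 0 := by
    simp [h1]
  simp_rw [Finset.sum_mul] at h3
  rw [Finset.sum_comm] at h3
  have h4 : ∀ j, ∑ x : X Γ, a j z * conj (12 - B.wt j) (G j) x z * conj (B.wt j') (B.F j') x z
      = a j z * (if j = j' then Δ z else 0) := by
    intro j
    rw [← hGF z j j', Finset.mul_sum]
    exact Finset.sum_congr rfl fun x _ => by ring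
  simp_rw [h4] at h3
  simp only [mul_ite, mul_zero, Finset.sum_ite_eq', Finset.mem_univ, if_true, mul_eq_zero,
    Δ_ne_zero, or_false] at h3
  simpa using h3

include hG hGF in
/-- **E3.** `∑ⱼ dim M_{K-12+wt j}(SL₂ℤ) ≤ dim S_K(Γ)`. -/
theorem sum_finrank_le_finrank_CF (K : ℤ) [Module.Finite ℂ (CF Γ K)] :
    ∑ j, Module.finrank ℂ (MF ⊤ (K - 12 + B.wt j)) ≤ Module.finrank ℂ (CF Γ K) := by
  let Ψ : (∀ j, MF ⊤ (K - 12 + B.wt j)) →ₗ[ℂ] CF Γ K :=
    { toFun := fun a => ⟨∑ j, (a j : ℍ → ℂ) * G j, by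
        refine Submodule.sum_mem _ fun j _ => ?_
        rw [mul_comm]
        exact CF_cast (by ring) (CF_mul_MF (hG j) (MF_top_le (a j).2))⟩
      map_add' := fun a b => by
        ext1
        simp [add_mul, Finset.sum_add_distrib]
      map_smul' := fun c a => by
        ext1
        simp [Finset.smul_sum] }
  have hΨ : Function.Injective Ψ := by
    rw [← LinearMap.ker_eq_bot, LinearMap.ker_eq_bot']
    intro a h0
    have h1 : ∑ j, (a j : ℍ → ℂ) * G j = 0 := congrArg Subtype.val h0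
    have h2 := dual_indep B G hGF K (fun j => (a j : ℍ → ℂ)) (fun j => (a j).2) h1
    ext1 j
    exact Subtype.ext (h2 j)
  rw [← Module.finrank_pi_fintype ℂ]
  exact LinearMap.finrank_le_finrank_of_injective hΨ

lemma finrank_MF_top_values :
    Module.finrank ℂ (MF ⊤ 0) = 1 ∧ Module.finrank ℂ (MF ⊤ 2) = 0 ∧
    Module.finrank ℂ (MF ⊤ 4) = 1 ∧ Module.finrank ℂ (MF ⊤ 6) = 1 ∧
    Module.finrank ℂ (MF ⊤ 8) = 1 ∧ Module.finrank ℂ (MF ⊤ 10) = 1 ∧
    Module.finrank ℂ (MF ⊤ 12) = 2 ∧ Module.finrank ℂ (MF ⊤ 14) = 1 := by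
  refine ⟨?_, ?_, ?_, ?_, ?_, ?_, ?_, ?_⟩
  · simpa using finrank_MF_top 0 (by decide)
  · simpa using finrank_MF_top 2 (by decide)
  · simpa using finrank_MF_top 4 (by decide)
  · simpa using finrank_MF_top 6 (by decide)
  · simpa using finrank_MF_top 8 (by decide)
  · simpa using finrank_MF_top 10 (by decide)
  · simpa using finrank_MF_top 12 (by decide)
  · simpa using finrank_MF_top 14 (by decide)

omit [Fintype (X Γ)] [DecidableEq B.J] in
/-- bookkeeping: a sum over `j` of a function of the weight. -/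
lemma sum_wt_eq (hwt : ∀ j, B.wt j ∈ ({0, 2, 4, 6, 8, 10} : Finset ℤ)) (φ : ℤ → ℕ) :
    ∑ j, φ (B.wt j) = ∑ w ∈ ({0, 2, 4, 6, 8, 10} : Finset ℤ), Nat.card {j // B.wt j = w} * φ w := by
  classical
  rw [← Finset.sum_fiberwise_of_maps_to (s := Finset.univ) (t := ({0, 2, 4, 6, 8, 10} : Finset ℤ))
    (g := B.wt) (fun j _ => hwt j)]
  refine Finset.sum_congr rfl fun w _ => ?_
  rw [Finset.sum_congr rfl (g := fun _ => φ w) (fun j hj => by
    rw [(Finset.mem_filter.mp hj).2]), Finset.sum_const, smul_eq_mul, Nat.card_eq_fintype_card,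
    Fintype.card_subtype]

include hG hGF in
/-- **E3 at weight 14.** -/
theorem card_le_finrank_CF_fourteen (hwt : ∀ j, B.wt j ∈ ({0, 2, 4, 6, 8, 10} : Finset ℤ))
    [Module.Finite ℂ (CF Γ 14)] :
    Nat.card {j // B.wt j = 2} + Nat.card {j // B.wt j = 4} + Nat.card {j // B.wt j = 6}
      + Nat.card {j // B.wt j = 8} + 2 * Nat.card {j // B.wt j = 10}
      ≤ Module.finrank ℂ (CF Γ 14) := by
  have h := sum_finrank_le_finrank_CF B G hG hGF 14
  rw [sum_wt_eq B hwt (fun w => Module.finrank ℂ (MF ⊤ (14 - 12 + w)))] at h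
  obtain ⟨h0, h2, h4, h6, h8, h10, h12, h14⟩ := finrank_MF_top_values
  rw [Finset.sum_insert (by decide), Finset.sum_insert (by decide), Finset.sum_insert (by decide),
    Finset.sum_insert (by decide), Finset.sum_insert (by decide), Finset.sum_singleton] at h
  rw [show Module.finrank ℂ (MF ⊤ (14 - 12 + 0)) = 0 from h2,
    show Module.finrank ℂ (MF ⊤ (14 - 12 + 2)) = 1 from h4,
    show Module.finrank ℂ (MF ⊤ (14 - 12 + 4)) = 1 from h6,
    show Module.finrank ℂ (MF ⊤ (14 - 12 + 6)) = 1 from h8,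
    show Module.finrank ℂ (MF ⊤ (14 - 12 + 8)) = 1 from h10,
    show Module.finrank ℂ (MF ⊤ (14 - 12 + 10)) = 2 from h12] at h
  omega

end E3

end Fermat.Agent.ES
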