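/-
Dimension count from a homogeneous basis: `dim M_K(Γ) = ∑ⱼ dim M_{K - wt j}(SL₂ℤ)`.
-/
import Fermat.Agent.ES.TracePairing

set_option autoImplicit false

namespace Fermat.Agent.ES

open UpperHalfPlane ModularForm Filter Asymptotics Topology
open scoped MatrixGroups Manifold

variable {Γ : Subgroup SL(2, ℤ)} (B : HBasis Γ) [Fintype B.J]

/-- The linear equivalence `∏ⱼ M_{K - wt j}(SL₂ℤ) ≃ M_K(Γ)` given by a homogeneous basis. -/
noncomputable def HBasis.equivPi (K : ℤ) : (∀ j, MF ⊤ (K - B.wt j)) ≃ₗ[ℂ] MF Γ K := by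
  classical
  let Ψ : (∀ j, MF ⊤ (K - B.wt j)) →ₗ[ℂ] MF Γ K :=
    { toFun := fun a => ⟨∑ j, (a j : ℍ → ℂ) * B.F j, by
        refine Submodule.sum_mem _ fun j _ => ?_
        exact MF_cast (by ring) (MF_mul (MF_top_le (a j).2) (B.mem j))⟩
      map_add' := fun a b => by
        ext1
        simp [add_mul, Finset.sum_add_distrib]
      map_smul' := fun c a => by
        ext1
        simp [Finset.smul_sum] }
  refine LinearEquiv.ofBijective Ψ ⟨?_, ?_⟩
  · rw [← LinearMap.ker_eq_bot, LinearMap.ker_eq_bot']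
    intro a h0
    have h1 : ∑ j, (a j : ℍ → ℂ) * B.F j = 0 := congrArg Subtype.val h0
    let a' : B.J →₀ (ℍ → ℂ) := Finsupp.equivFunOnFinite.symm (fun j => (a j : ℍ → ℂ))
    have h2 : a' = 0 := by
      apply B.indep K a' (fun j => (a j).2)
      rw [Finsupp.sum_fintype _ _ (fun j => by simp)]
      exact h1
    ext1 j
    apply Subtype.ext
    have := DFunLike.congr_fun h2 j
    simpa [a'] using this
  · rintro ⟨G, hG⟩
    obtain ⟨a, ha, hGa⟩ := B.gen K G hG
    refine ⟨fun j => ⟨a j, ha j⟩, ?_⟩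
    apply Subtype.ext
    show ∑ j, a j * B.F j = G
    rw [hGa, Finsupp.sum_fintype _ _ (fun j => by simp)]

theorem HBasis.finrank_MF_eq_sum (K : ℤ) :
    Module.finrank ℂ (MF Γ K) = ∑ j, Module.finrank ℂ (MF ⊤ (K - B.wt j)) := by
  rw [← (B.equivPi K).finrank_eq, Module.finrank_pi_fintype ℂ]

include B in
theorem HBasis.finite_MF (K : ℤ) : Module.Finite ℂ (MF Γ K) :=
  Module.Finite.equiv (B.equivPi K)

include B in
theorem HBasis.finite_CF (K : ℤ) : Module.Finite ℂ (CF Γ K) := by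
  have := B.finite_MF K
  exact Module.Finite.of_injective (Submodule.inclusion (CF_le_MF (Γ := Γ) (k := K)))
    (Submodule.inclusion_injective _)

/-- `d₁₄ = n₀ + 2 n₂ + n₄ + n₆ + n₈ + n₁₀`. -/
theorem HBasis.finrank_MF_fourteen (hwt : ∀ j, B.wt j ∈ ({0, 2, 4, 6, 8, 10} : Finset ℤ)) :
    Module.finrank ℂ (MF Γ 14) =
      Nat.card {j // B.wt j = 0} + 2 * Nat.card {j // B.wt j = 2} + Nat.card {j // B.wt j = 4}
      + Nat.card {j // B.wt j = 6} + Nat.card {j // B.wt j = 8} + Nat.card {j // B.wt j = 10} := by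
  rw [B.finrank_MF_eq_sum, sum_wt_eq B hwt (fun w => Module.finrank ℂ (MF ⊤ (14 - w)))]
  obtain ⟨h0, h2, h4, h6, h8, h10, h12, h14⟩ := finrank_MF_top_values
  rw [Finset.sum_insert (by decide), Finset.sum_insert (by decide), Finset.sum_insert (by decide),
    Finset.sum_insert (by decide), Finset.sum_insert (by decide), Finset.sum_singleton]
  rw [show Module.finrank ℂ (MF ⊤ (14 - 0)) = 1 from h14,
    show Module.finrank ℂ (MF ⊤ (14 - 2)) = 2 from h12,
    show Module.finrank ℂ (MF ⊤ (14 - 4)) = 1 from h10,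
    show Module.finrank ℂ (MF ⊤ (14 - 6)) = 1 from h8,
    show Module.finrank ℂ (MF ⊤ (14 - 8)) = 1 from h6,
    show Module.finrank ℂ (MF ⊤ (14 - 10)) = 1 from h4]
  omega

/-- `d₂ = n₂`. -/
theorem HBasis.finrank_MF_two (hwt : ∀ j, B.wt j ∈ ({0, 2, 4, 6, 8, 10} : Finset ℤ)) :
    Module.finrank ℂ (MF Γ 2) = Nat.card {j // B.wt j = 2} := by
  rw [B.finrank_MF_eq_sum, sum_wt_eq B hwt (fun w => Module.finrank ℂ (MF ⊤ (2 - w)))]
  obtain ⟨h0, h2, h4, h6, h8, h10, h12, h14⟩ := finrank_MF_top_values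
  rw [Finset.sum_insert (by decide), Finset.sum_insert (by decide), Finset.sum_insert (by decide),
    Finset.sum_insert (by decide), Finset.sum_insert (by decide), Finset.sum_singleton]
  have hneg : ∀ k : ℤ, k < 0 → Module.finrank ℂ (MF ⊤ k) = 0 := by
    intro k hk
    rw [MF_top_eq_bot_of_neg hk]
    exact finrank_bot ℂ _
  rw [show Module.finrank ℂ (MF ⊤ (2 - 0)) = 0 from h2,
    show Module.finrank ℂ (MF ⊤ (2 - 2)) = 1 from h0,
    hneg (2 - 4) (by norm_num), hneg (2 - 6) (by norm_num), hneg (2 - 8) (by norm_num),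
    hneg (2 - 10) (by norm_num)]
  omega

end Fermat.Agent.ES
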