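/-
Package ES-P10: finite dimensionality of `MF Γ k`, and the map `M₂ → V^T`.
-/
import Fermat.Agent.ES.LevelOne
import Fermat.Prelude.Thm_ModularForm_eq_zero_of_lt_order_qExpansion_of_isArithmetic
import Fermat.Prelude.Thm_Subgroup_IsArithmetic_exists_nat_mem_strictPeriods_conj

set_option autoImplicit false

namespace Fermat.Agent.ES

open UpperHalfPlane ModularForm Matrix.SpecialLinearGroup Filter Topology ModularGroup
  CongruenceSubgroup
open scoped MatrixGroups Manifold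

variable {Γ : Subgroup SL(2, ℤ)} {k : ℤ} {f : ℍ → ℂ}

namespace WeightTwo

/-! ### a common period of all the conjugates -/

lemma exists_period (Γ : Subgroup SL(2, ℤ)) [Γ.FiniteIndex] :
    ∃ n : ℕ, 0 < n ∧ ∀ g : SL(2, ℤ), g * T ^ n * g⁻¹ ∈ Γ := by
  have : Γ.normalCore.FiniteIndex := inferInstance
  refine ⟨Γ.normalCore.index, Nat.pos_of_ne_zero Subgroup.FiniteIndex.index_ne_zero, fun g => ?_⟩
  apply Subgroup.normalCore_le
  exact (inferInstance : Γ.normalCore.Normal).conj_mem _ (Γ.normalCore.pow_index_mem T) g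

lemma slash_T_pow_apply (φ : ℍ → ℂ) (n : ℕ) (z : ℍ) :
    (φ ∣[k] (T ^ n : SL(2, ℤ))) z = φ ((n : ℝ) +ᵥ z) := by
  rw [ModularForm.SL_slash_apply]
  have h1 : (T ^ n : SL(2, ℤ)) • z = (n : ℝ) +ᵥ z := by
    have := modular_T_zpow_smul z n
    simpa using this
  have h2 : denom (toGL ((Matrix.SpecialLinearGroup.map (Int.castRingHom ℝ)) (T ^ n : SL(2, ℤ))))
      (z : ℂ) = 1 := by
    have h3 := coe_T_zpow (n : ℤ)
    rw [zpow_natCast] at h3
    generalize (T ^ n : SL(2, ℤ)) = A at h3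
    simp [denom, h3]
  rw [h1, h2, one_zpow, mul_one]

lemma slash_slash_T_pow (hf : ∀ γ ∈ Γ, f ∣[k] γ = f) {n : ℕ}
    (hn : ∀ g : SL(2, ℤ), g * T ^ n * g⁻¹ ∈ Γ) (g : SL(2, ℤ)) :
    (f ∣[k] g) ∣[k] (T ^ n : SL(2, ℤ)) = f ∣[k] g := by
  have h1 : g * T ^ n = (g * T ^ n * g⁻¹) * g := by group
  rw [← SlashAction.slash_mul, h1, SlashAction.slash_mul, hf _ (hn g)]

lemma periodic_slash (hf : ∀ γ ∈ Γ, f ∣[k] γ = f) {n : ℕ}
    (hn : ∀ g : SL(2, ℤ), g * T ^ n * g⁻¹ ∈ Γ) (g : SL(2, ℤ)) :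
    Function.Periodic ((f ∣[k] g) ∘ ofComplex) (n : ℝ) := by
  intro w
  by_cases hw : 0 < w.im
  · have hw' : 0 < (w + ((n : ℝ) : ℂ)).im := by simpa using hw
    rw [Function.comp_apply, Function.comp_apply, ofComplex_apply_of_im_pos hw',
      ofComplex_apply_of_im_pos hw]
    have h := congrFun (slash_slash_T_pow hf hn g) ⟨w, hw⟩
    rw [slash_T_pow_apply] at h
    rw [← h]
    refine congrArg (f ∣[k] g) (UpperHalfPlane.ext ?_)
    simp [add_comm]
  · have hw1 : w.im ≤ 0 := not_lt.mp hw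
    have hw' : (w + ((n : ℝ) : ℂ)).im ≤ 0 := by simpa using hw1
    rw [Function.comp_apply, Function.comp_apply, ofComplex_apply_of_im_nonpos hw',
      ofComplex_apply_of_im_nonpos hw1]

/-! ### limits at `i∞` of all the conjugates -/

lemma analyticAt_cuspFunction_slash (hf : f ∈ MF Γ k) {n : ℕ} (hn0 : 0 < n)
    (hn : ∀ g : SL(2, ℤ), g * T ^ n * g⁻¹ ∈ Γ) (g : SL(2, ℤ)) :
    AnalyticAt ℂ (cuspFunction (n : ℝ) (f ∣[k] g)) 0 :=
  analyticAt_cuspFunction_zero (by exact_mod_cast hn0) (periodic_slash hf.2.1 hn g)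
    (hf.1.slash k _) (hf.2.2 g)

/-- Every `f ∣[k] g`, `f ∈ MF Γ k`, has a limit at `i∞`. -/
lemma tendsto_slash_of_mem_MF [Γ.FiniteIndex] (hf : f ∈ MF Γ k) (g : SL(2, ℤ)) :
    Tendsto (f ∣[k] g) atImInfty (𝓝 (valueAtInfty (f ∣[k] g))) := by
  obtain ⟨n, hn0, hn⟩ := exists_period Γ
  have hn0' : (0 : ℝ) < n := by exact_mod_cast hn0
  have h1 := analyticAt_cuspFunction_slash hf hn0 hn g
  have hper := periodic_slash hf.2.1 hn g
  have h2 := cuspFunction_apply_zero hn0' h1 hper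
  have h3 : (cuspFunction (n : ℝ) (f ∣[k] g) ∘
      fun τ : ℍ ↦ Function.Periodic.qParam (n : ℝ) τ : ℍ → ℂ) = f ∣[k] g := by
    funext τ
    simpa using eq_cuspFunction τ hn0'.ne' hper
  have h4 := h1.continuousAt.tendsto.comp (qParam_tendsto_atImInfty hn0')
  rw [h2] at h4
  rwa [h3] at h4

lemma tendsto_conj_of_mem_MF [Γ.FiniteIndex] (hf : f ∈ MF Γ k) (x : X Γ) :
    Tendsto (conj k f x) atImInfty (𝓝 (valueAtInfty (conj k f x))) :=
  tendsto_slash_of_mem_MF hf _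

/-- The vector of the values at `i∞` of the conjugates, as a linear map. -/
noncomputable def cuspValue (Γ : Subgroup SL(2, ℤ)) [Γ.FiniteIndex] (k : ℤ) :
    MF Γ k →ₗ[ℂ] V Γ where
  toFun f := fun x => valueAtInfty (conj k (f : ℍ → ℂ) x)
  map_add' f g := by
    funext x
    have h1 := (tendsto_conj_of_mem_MF f.2 x).add (tendsto_conj_of_mem_MF g.2 x)
    have h2 := tendsto_conj_of_mem_MF (f + g).2 x
    have h3 : conj k ((f + g : MF Γ k) : ℍ → ℂ) x
        = conj k (f : ℍ → ℂ) x + conj k (g : ℍ → ℂ) x := by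
      rw [Submodule.coe_add, conj_add]
    rw [h3] at h2
    rw [h3]
    exact tendsto_nhds_unique h2 h1
  map_smul' c f := by
    funext x
    have h1 := (tendsto_conj_of_mem_MF f.2 x).const_smul c
    have h2 := tendsto_conj_of_mem_MF (c • f).2 x
    have h3 : conj k ((c • f : MF Γ k) : ℍ → ℂ) x = c • conj k (f : ℍ → ℂ) x := by
      rw [Submodule.coe_smul, conj_smul]
    rw [h3] at h2
    rw [h3]
    exact tendsto_nhds_unique h2 h1

lemma cuspValue_apply [Γ.FiniteIndex] (f : MF Γ k) (x : X Γ) :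
    cuspValue Γ k f x = valueAtInfty (conj k (f : ℍ → ℂ) x) := rfl

lemma tendsto_cuspValue [Γ.FiniteIndex] (f : MF Γ k) (x : X Γ) :
    Tendsto (conj k (f : ℍ → ℂ) x) atImInfty (𝓝 (cuspValue Γ k f x)) :=
  tendsto_conj_of_mem_MF f.2 x

lemma slash_eq_conj (hf : ∀ γ ∈ Γ, f ∣[k] γ = f) (g : SL(2, ℤ)) :
    f ∣[k] g = conj k f ((g⁻¹ : SL(2, ℤ)) : X Γ) := by
  rw [conj_mk hf, inv_inv]

/-- The kernel of `cuspValue` is the space of cusp forms. -/
lemma ker_cuspValue [Γ.FiniteIndex] :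
    LinearMap.ker (cuspValue Γ k) = (CF Γ k).comap (MF Γ k).subtype := by
  ext f
  rw [LinearMap.mem_ker, Submodule.mem_comap, Submodule.subtype_apply]
  constructor
  · intro h
    refine ⟨f.2.1, f.2.2.1, fun g => ?_⟩
    rw [slash_eq_conj f.2.2.1 g]
    have h1 := tendsto_cuspValue f ((g⁻¹ : SL(2, ℤ)) : X Γ)
    rw [h] at h1
    exact h1
  · intro h
    funext x
    rw [cuspValue_apply]
    exact IsZeroAtImInfty.valueAtInfty_eq_zero (h.2.2 _)

lemma tendsto_vadd_atImInfty (r : ℝ) : Tendsto (fun z : ℍ => r +ᵥ z) atImInfty atImInfty := by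
  simp only [atImInfty, tendsto_comap_iff, Function.comp_def, vadd_im]
  exact tendsto_comap

/-- The values at `i∞` are `T`-invariant. -/
lemma rho_T_cuspValue [Γ.FiniteIndex] (f : MF Γ k) :
    rho Γ T (cuspValue Γ k f) = cuspValue Γ k f := by
  funext x
  rw [rho_apply]
  have h1 := tendsto_cuspValue f (T⁻¹ • x)
  rw [← conj_slash f.2.2.1 T x] at h1
  have h2 : (conj k (f : ℍ → ℂ) x ∣[k] T) = fun z => conj k (f : ℍ → ℂ) x ((1 : ℝ) +ᵥ z) := by
    funext z
    have := slash_T_pow_apply (k := k) (conj k (f : ℍ → ℂ) x) 1 z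
    simpa using this
  rw [h2] at h1
  have h3 := (tendsto_cuspValue f x).comp (tendsto_vadd_atImInfty 1)
  exact tendsto_nhds_unique h1 h3

/-- The trace `Σ_x F_x` is a level one form. -/
lemma sum_conj_mem_MF_top [Fintype (X Γ)] (hf : f ∈ MF Γ k) :
    ∑ x : X Γ, conj k f x ∈ MF ⊤ k := by
  have hinv : ∀ g : SL(2, ℤ), (∑ x : X Γ, conj k f x) ∣[k] g = ∑ x : X Γ, conj k f x := by
    intro g
    rw [SlashAction.sum_slash]
    simp_rw [conj_slash hf.2.1 g]
    exact Equiv.sum_comp (MulAction.toPerm g⁻¹) (fun x : X Γ => conj k f x)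
  have hp : MDiff (∑ x : X Γ, conj k f x) ∧ IsBoundedAtImInfty (∑ x : X Γ, conj k f x) := by
    refine Finset.sum_induction (fun x : X Γ => conj k f x)
      (fun φ : ℍ → ℂ => MDiff φ ∧ IsBoundedAtImInfty φ) ?_ ?_ ?_
    · rintro a b ⟨ha1, ha2⟩ ⟨hb1, hb2⟩
      exact ⟨ha1.add hb1, ha2.add hb2⟩
    · exact ⟨mdifferentiable_const, zero_form_isBoundedAtImInfty⟩
    · intro x _
      exact ⟨conj_mdiff hf.1 x, conj_mem_bdd hf x⟩
  refine ⟨hp.1, fun g _ => hinv g, fun g => ?_⟩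
  rw [hinv g]
  exact hp.2

/-- In weight two the values at the cusps sum to zero. -/
lemma sum_cuspValue_two [Γ.FiniteIndex] [Fintype (X Γ)] (f : MF Γ 2) :
    ∑ x : X Γ, cuspValue Γ 2 f x = 0 := by
  have h0 : ∑ x : X Γ, conj 2 (f : ℍ → ℂ) x = 0 := by
    have := sum_conj_mem_MF_top f.2
    rw [MF_top_two] at this
    simpa using this
  have h1 : Tendsto (fun z => ∑ x : X Γ, conj 2 (f : ℍ → ℂ) x z) atImInfty
      (𝓝 (∑ x : X Γ, cuspValue Γ 2 f x)) :=
    tendsto_finsetSum _ fun x _ => tendsto_cuspValue f x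
  have h2 : (fun z => ∑ x : X Γ, conj 2 (f : ℍ → ℂ) x z) = fun _ => 0 := by
    funext z
    have := congrFun h0 z
    simpa using this
  rw [h2] at h1
  exact tendsto_nhds_unique h1 tendsto_const_nhds


/-- pure linear algebra -/
lemma finrank_fix_inf_ker_sum [Fintype (X Γ)] (g : SL(2, ℤ)) :
    Module.finrank ℂ ↥(LinearMap.ker (rho Γ g - 1) ⊓
      LinearMap.ker (∑ x : X Γ, (LinearMap.proj x : V Γ →ₗ[ℂ] ℂ))) + 1 ≤ fixDim Γ g := by
  have : Finite (X Γ) := Finite.of_fintype _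
  unfold fixDim
  apply Nat.succ_le_of_lt
  apply Submodule.finrank_lt_finrank_of_lt
  refine lt_of_le_of_ne inf_le_left fun h => ?_
  have h1 : (fun _ => 1 : V Γ) ∈ LinearMap.ker (rho Γ g - 1) := by
    rw [LinearMap.mem_ker]
    funext x
    simp
  rw [← h] at h1
  have h2 := (Submodule.mem_inf.mp h1).2
  rw [LinearMap.mem_ker] at h2
  simp only [LinearMap.coe_sum, Finset.sum_apply, LinearMap.proj_apply, Finset.sum_const,
    Finset.card_univ, nsmul_eq_mul, mul_one] at h2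
  have h3 : Fintype.card (X Γ) ≠ 0 := Fintype.card_ne_zero (α := X Γ)
  exact h3 (by exact_mod_cast h2)

/-! ### finite dimensionality -/

theorem finite_MF' [Γ.FiniteIndex] (k : ℤ) : Module.Finite ℂ (MF Γ k) := by
  obtain ⟨M, hM, hconj⟩ :=
    Subgroup.IsArithmetic.exists_nat_mem_strictPeriods_conj (Γ : Subgroup (GL (Fin 2) ℝ))
  have hM' : (0 : ℝ) < M := by exact_mod_cast hM
  have hΓ : (M : ℝ) ∈ (Γ : Subgroup (GL (Fin 2) ℝ)).strictPeriods := by simpa using hconj 1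
  have han : ∀ f : MF Γ k, AnalyticAt ℂ (cuspFunction (M : ℝ) (f : ℍ → ℂ)) 0 := fun f =>
    ModularFormClass.analyticAt_cuspFunction_zero (toModularForm f.2) hM' hΓ
  set B : ℕ := M * ((k * (Γ : Subgroup (GL (Fin 2) ℝ)).relIndex 𝒮ℒ).toNat / 12) with hB
  let Φ : MF Γ k →ₗ[ℂ] (Fin (B + 1) → ℂ) :=
    { toFun := fun f i => (qExpansion (M : ℝ) (f : ℍ → ℂ)).coeff (i : ℕ)
      map_add' := fun f g => by
        funext i
        rw [Submodule.coe_add, qExpansion_add (han f) (han g)]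
        simp
      map_smul' := fun c f => by
        funext i
        rw [Submodule.coe_smul, qExpansion_smul (han f)]
        simp }
  refine Module.Finite.of_injective Φ ?_
  rw [← LinearMap.ker_eq_bot, eq_bot_iff]
  intro f hf
  rw [LinearMap.mem_ker] at hf
  have h1 : ((B : ℕ) : ℕ∞) < (qExpansion (M : ℝ) (toModularForm f.2)).order := by
    refine lt_of_lt_of_le (b := ((B + 1 : ℕ) : ℕ∞)) (by exact_mod_cast Nat.lt_succ_self B) ?_
    refine PowerSeries.le_order _ _ fun i hi => ?_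
    have hi' : i < B + 1 := by exact_mod_cast hi
    exact congrFun hf ⟨i, hi'⟩
  have h2 := ModularForm.eq_zero_of_lt_order_qExpansion_of_isArithmetic (toModularForm f.2) hM hconj h1
  rw [Submodule.mem_bot]
  apply Subtype.ext
  have h3 : (⇑(toModularForm f.2) : ℍ → ℂ) = 0 := by rw [h2]; rfl
  simpa using h3


end WeightTwo

open WeightTwo

/-! ### the two theorems of the package -/

theorem finite_MF [Γ.FiniteIndex] (_hneg : (-1 : SL(2, ℤ)) ∈ Γ) (k : ℤ) :
    Module.Finite ℂ (MF Γ k) :=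
  finite_MF' k

theorem finite_CF [Γ.FiniteIndex] (k : ℤ) : Module.Finite ℂ (CF Γ k) :=
  have := finite_MF' (Γ := Γ) k
  Module.Finite.of_injective (Submodule.inclusion (CF_le_MF (Γ := Γ) (k := k)))
    (Submodule.inclusion_injective _)

theorem finrank_MF_two_le [Γ.FiniteIndex] :
    Module.finrank ℂ (MF Γ 2) + 1 ≤ Module.finrank ℂ (CF Γ 2) + fixDim Γ T := by
  have := finite_MF' (Γ := Γ) 2
  cases nonempty_fintype (X Γ)
  have hrn := LinearMap.finrank_range_add_finrank_ker (cuspValue Γ 2)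
  have hker : Module.finrank ℂ (LinearMap.ker (cuspValue Γ 2)) = Module.finrank ℂ (CF Γ 2) := by
    rw [ker_cuspValue]
    exact (Submodule.comapSubtypeEquivOfLe CF_le_MF).finrank_eq
  have hrange : LinearMap.range (cuspValue Γ 2) ≤ LinearMap.ker (rho Γ T - 1) ⊓
      LinearMap.ker (∑ x : X Γ, (LinearMap.proj x : V Γ →ₗ[ℂ] ℂ)) := by
    rintro _ ⟨f, rfl⟩
    refine Submodule.mem_inf.mpr ⟨?_, ?_⟩
    · rw [LinearMap.mem_ker, LinearMap.sub_apply, rho_T_cuspValue]
      simp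
    · rw [LinearMap.mem_ker]
      simpa using sum_cuspValue_two f
  have h1 := Submodule.finrank_mono hrange
  have h2 := finrank_fix_inf_ker_sum (Γ := Γ) T
  have h3 : Module.finrank ℂ (LinearMap.range (cuspValue Γ 2)) + 1 ≤ fixDim Γ T :=
    le_trans (Nat.succ_le_succ h1) h2
  omega

end Fermat.Agent.ES
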