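/-
ES-P12: upper bound for the dimension of the space of parabolic homomorphisms `Γ → ℂ`
(via Shapiro's lemma made explicit and the generators `S`, `T` of `SL(2,ℤ)`).
-/
import Fermat.Agent.ES.Defs2
import Fermat.Prelude.Def_ModularCurve_PeriodMap

set_option autoImplicit false

namespace Fermat.Agent.ES

open UpperHalfPlane ModularForm Matrix.SpecialLinearGroup Filter Topology ModularGroup
  CongruenceSubgroup
open scoped MatrixGroups Manifold

namespace Coh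

/-! ### Abstract linear algebra: norm operators -/

section LinAlg

variable {W : Type*} [AddCommGroup W] [Module ℂ W]

/-- The norm operator `1 + A + ⋯ + A^(n-1)`. -/
def Nm (A : Module.End ℂ W) (n : ℕ) : Module.End ℂ W := ∑ i ∈ Finset.range n, A ^ i

lemma Nm_succ (A : Module.End ℂ W) (n : ℕ) : Nm A (n + 1) = Nm A n + A ^ n := by
  simp [Nm, Finset.sum_range_succ]

lemma Nm_zero (A : Module.End ℂ W) : Nm A 0 = 0 := by simp [Nm]

lemma pow_apply_fixed (A : Module.End ℂ W) {e : W} (he : A e = e) (i : ℕ) : (A ^ i) e = e := by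
  rw [Module.End.pow_apply]
  exact Function.iterate_fixed he i

lemma Nm_apply_fixed (A : Module.End ℂ W) (n : ℕ) {e : W} (he : A e = e) :
    Nm A n e = (n : ℂ) • e := by
  induction n with
  | zero => simp [Nm_zero]
  | succ n ih =>
    rw [Nm_succ, LinearMap.add_apply, ih, pow_apply_fixed A he]
    push_cast
    rw [add_smul, one_smul]

lemma Nm_sub (A : Module.End ℂ W) (n : ℕ) (hA : A ^ n = 1) (v : W) : Nm A n (A v - v) = 0 := by
  have h := geom_sum_mul A n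
  have h2 := congrArg (fun f : Module.End ℂ W => f v) h
  simpa [Nm, hA] using h2

lemma finrank_ker_Nm_add_le [FiniteDimensional ℂ W] (A : Module.End ℂ W) (n : ℕ) (hn : n ≠ 0) :
    Module.finrank ℂ (LinearMap.ker (Nm A n)) + Module.finrank ℂ (LinearMap.ker (A - 1))
      ≤ Module.finrank ℂ W := by
  apply Submodule.finrank_add_finrank_le_of_disjoint
  rw [Submodule.disjoint_def]
  intro v h1 h2
  have hv : A v = v := by simpa [sub_eq_zero] using h2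
  have h3 := Nm_apply_fixed A n hv
  rw [LinearMap.mem_ker.1 h1] at h3
  have hn' : (n : ℂ) ≠ 0 := by exact_mod_cast hn
  exact (smul_eq_zero.1 h3.symm).resolve_left hn'

lemma finrank_le_inf_ker_add_one [FiniteDimensional ℂ W] (A : Submodule ℂ W) (σ : W →ₗ[ℂ] ℂ) :
    Module.finrank ℂ A ≤ Module.finrank ℂ (A ⊓ LinearMap.ker σ : Submodule ℂ W) + 1 := by
  have h1 := Submodule.finrank_sup_add_finrank_inf_eq A (LinearMap.ker σ)
  have h2 := LinearMap.finrank_range_add_finrank_ker σ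
  have h3 : Module.finrank ℂ (LinearMap.range σ) ≤ 1 := by
    have := Submodule.finrank_le (LinearMap.range σ)
    simpa using this
  have h4 := Submodule.finrank_le (A ⊔ LinearMap.ker σ)
  omega

end LinAlg

/-! ### The permutation representation -/

section Rho

variable {Γ : Subgroup SL(2, ℤ)}

lemma rho_mul (g h : SL(2, ℤ)) : rho Γ (g * h) = rho Γ g * rho Γ h := by
  refine LinearMap.ext fun v => funext fun x => ?_
  simp [rho_apply, mul_smul]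

lemma rho_mul_apply (g h : SL(2, ℤ)) (v : V Γ) : rho Γ (g * h) v = rho Γ g (rho Γ h v) := by
  rw [rho_mul]; rfl

lemma rho_one : rho Γ 1 = 1 := by
  refine LinearMap.ext fun v => funext fun x => ?_
  simp [rho_apply]

lemma rho_pow (g : SL(2, ℤ)) (n : ℕ) : rho Γ (g ^ n) = rho Γ g ^ n := by
  induction n with
  | zero => simp [rho_one]
  | succ n ih => rw [pow_succ, rho_mul, ih, pow_succ]

lemma rho_inv_apply (g : SL(2, ℤ)) (v : V Γ) : rho Γ g⁻¹ (rho Γ g v) = v := by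
  rw [← rho_mul_apply, inv_mul_cancel, rho_one]; rfl

lemma rho_apply_inv (g : SL(2, ℤ)) (v : V Γ) : rho Γ g (rho Γ g⁻¹ v) = v := by
  rw [← rho_mul_apply, mul_inv_cancel, rho_one]; rfl

lemma rho_eq_one_of_smul {g : SL(2, ℤ)} (hg : ∀ x : X Γ, g • x = x) : rho Γ g = 1 := by
  refine LinearMap.ext fun v => funext fun x => ?_
  have : g⁻¹ • x = x := by rw [inv_smul_eq_iff, hg]
  simp [rho_apply, this]

lemma neg_one_smul_X (hneg : (-1 : SL(2, ℤ)) ∈ Γ) (x : X Γ) : (-1 : SL(2, ℤ)) • x = x := by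
  induction x using QuotientGroup.induction_on with
  | H h =>
    show (((-1 : SL(2, ℤ)) * h : SL(2, ℤ)) : X Γ) = (h : X Γ)
    rw [eq_comm, QuotientGroup.eq]
    have : h⁻¹ * (-1 * h) = -1 := by simp
    rw [this]; exact hneg

lemma S_sq : (S : SL(2, ℤ)) ^ 2 = -1 := by
  ext i j
  fin_cases i <;> fin_cases j <;> simp [pow_two, coe_S, Matrix.mul_apply, Fin.sum_univ_two]

lemma ST_cube : ((S * T : SL(2, ℤ))) ^ 3 = -1 := by
  ext i j
  fin_cases i <;> fin_cases j <;>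
    simp [pow_succ, coe_S, coe_T, Matrix.mul_apply, Fin.sum_univ_two]

end Rho

/-! ### Cocycles -/

section Cocycle

variable {Γ : Subgroup SL(2, ℤ)}

/-- `z : SL(2,ℤ) → V` is a 1-cocycle. -/
def IsCoc (z : SL(2, ℤ) → V Γ) : Prop := ∀ g h, z (g * h) = z g + rho Γ g (z h)

lemma IsCoc.one {z : SL(2, ℤ) → V Γ} (hz : IsCoc z) : z 1 = 0 := by
  have h := hz 1 1
  rw [mul_one, rho_one] at h
  simpa using h

lemma IsCoc.pow {z : SL(2, ℤ) → V Γ} (hz : IsCoc z) (g : SL(2, ℤ)) (n : ℕ) :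
    z (g ^ n) = Nm (rho Γ g) n (z g) := by
  induction n with
  | zero => simp [Nm_zero, hz.one]
  | succ n ih => rw [pow_succ, hz, ih, Nm_succ, rho_pow]; rfl

/-- The subgroup on which a cocycle vanishes. -/
def IsCoc.zeroSubgroup {z : SL(2, ℤ) → V Γ} (hz : IsCoc z) : Subgroup SL(2, ℤ) where
  carrier := {g | z g = 0}
  one_mem' := hz.one
  mul_mem' := by
    intro a b ha hb
    show z (a * b) = 0
    rw [hz, show z a = 0 from ha, show z b = 0 from hb]; simp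
  inv_mem' := by
    intro a ha
    show z a⁻¹ = 0
    have h := hz a⁻¹ a
    rw [inv_mul_cancel, hz.one, show z a = 0 from ha] at h
    simpa using h.symm

lemma IsCoc.eq_zero {z : SL(2, ℤ) → V Γ} (hz : IsCoc z) (hS : z S = 0) (hT : z T = 0)
    (g : SL(2, ℤ)) : z g = 0 := by
  have h : Subgroup.closure {S, T} ≤ hz.zeroSubgroup := by
    rw [Subgroup.closure_le]
    rintro x (rfl | rfl)
    · exact hS
    · exact hT
  rw [_root_.SpecialLinearGroup.SL2Z_generators] at h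
  exact h (Subgroup.mem_top g)

/-- The element `x.out⁻¹ * g * (g⁻¹ • x).out` of `Γ`. -/
noncomputable def cocEl (g : SL(2, ℤ)) (x : X Γ) : Γ :=
  ⟨x.out⁻¹ * g * (g⁻¹ • x).out, by
    rw [mul_assoc, ← QuotientGroup.eq]
    have h1 : ((g * (g⁻¹ • x).out : SL(2, ℤ)) : X Γ) = g • (((g⁻¹ • x).out : SL(2, ℤ)) : X Γ) := rfl
    rw [h1, QuotientGroup.out_eq', QuotientGroup.out_eq', smul_inv_smul]⟩

lemma cocEl_mul (g h : SL(2, ℤ)) (x : X Γ) :
    cocEl (g * h) x = cocEl g x * cocEl h (g⁻¹ • x) := by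
  apply Subtype.ext
  simp only [cocEl, Subgroup.coe_mul, mul_inv_rev, mul_smul]
  group

/-- The cocycle attached to a homomorphism `φ : Γ → ℂ`, linear in `φ`. -/
noncomputable def cocL (g : SL(2, ℤ)) : (Additive Γ →+ ℂ) →ₗ[ℂ] V Γ where
  toFun φ := fun x => φ (Additive.ofMul (cocEl g x))
  map_add' _ _ := rfl
  map_smul' _ _ := rfl

lemma cocL_apply (g : SL(2, ℤ)) (φ : Additive Γ →+ ℂ) (x : X Γ) :
    cocL g φ x = φ (Additive.ofMul (cocEl g x)) := rfl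

lemma cocL_mul (g h : SL(2, ℤ)) (φ : Additive Γ →+ ℂ) :
    cocL (g * h) φ = cocL g φ + rho Γ g (cocL h φ) := by
  funext x
  simp only [cocL_apply, Pi.add_apply, rho_apply, cocEl_mul, ofMul_mul, map_add]

lemma trace_conj (a g : SL(2, ℤ)) :
    ((a⁻¹ * g * a : SL(2, ℤ)) : Matrix (Fin 2) (Fin 2) ℤ).trace
      = (g : Matrix (Fin 2) (Fin 2) ℤ).trace := by
  rw [Matrix.SpecialLinearGroup.coe_mul, Matrix.SpecialLinearGroup.coe_mul,
    Matrix.trace_mul_cycle, ← Matrix.SpecialLinearGroup.coe_mul, mul_inv_cancel]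
  simp

lemma cocL_eq_zero_of_trace {φ : Additive Γ →+ ℂ}
    (hφ : φ ∈ ModularCurve.Period.parabolicHoms ℂ Γ ℂ) {g : SL(2, ℤ)}
    (hg : ∀ x : X Γ, g • x = x) (htr : (g : Matrix (Fin 2) (Fin 2) ℤ).trace ^ 2 = 4) :
    cocL g φ = 0 := by
  funext x
  rw [cocL_apply]
  apply hφ
  have hx : g⁻¹ • x = x := by rw [inv_smul_eq_iff, hg]
  show ((x.out⁻¹ * g * (g⁻¹ • x).out : SL(2, ℤ)) : Matrix (Fin 2) (Fin 2) ℤ).trace ^ 2 = 4
  rw [hx, trace_conj, htr]

/-- The cocycle `g ↦ c_φ(g) + (ρ(g) v - v)`, linear in `(φ, v)`. -/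
noncomputable def zmap (Γ : Subgroup SL(2, ℤ)) (g : SL(2, ℤ)) :
    (ModularCurve.Period.parabolicHoms ℂ Γ ℂ × V Γ) →ₗ[ℂ] V Γ :=
  (cocL g ∘ₗ (ModularCurve.Period.parabolicHoms ℂ Γ ℂ).subtype) ∘ₗ LinearMap.fst ℂ _ _
    + (rho Γ g - 1) ∘ₗ LinearMap.snd ℂ _ _

lemma zmap_apply (g : SL(2, ℤ)) (p : ModularCurve.Period.parabolicHoms ℂ Γ ℂ × V Γ) :
    zmap Γ g p = cocL g (p.1 : Additive Γ →+ ℂ) + (rho Γ g p.2 - p.2) := rfl

lemma zmap_isCoc (p : ModularCurve.Period.parabolicHoms ℂ Γ ℂ × V Γ) :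
    IsCoc (fun g => zmap Γ g p) := by
  intro g h
  simp only [zmap_apply, cocL_mul, rho_mul_apply, map_add, map_sub]
  abel

lemma zmap_eq_zero_of_trace (p : ModularCurve.Period.parabolicHoms ℂ Γ ℂ × V Γ) {g : SL(2, ℤ)}
    (hg : ∀ x : X Γ, g • x = x) (htr : (g : Matrix (Fin 2) (Fin 2) ℤ).trace ^ 2 = 4) :
    zmap Γ g p = 0 := by
  rw [zmap_apply, cocL_eq_zero_of_trace p.1.2 hg htr, rho_eq_one_of_smul hg]
  simp

end Cocycle

/-! ### The two linear maps -/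

section Main

variable {Γ : Subgroup SL(2, ℤ)}

/-- `W_S = ker (1 + ρ(S))`. -/
abbrev WS (Γ : Subgroup SL(2, ℤ)) : Submodule ℂ (V Γ) := LinearMap.ker (Nm (rho Γ S) 2)

/-- `W_U = ker (1 + ρ(U) + ρ(U)^2)`, `U = S * T`. -/
abbrev WU (Γ : Subgroup SL(2, ℤ)) : Submodule ℂ (V Γ) := LinearMap.ker (Nm (rho Γ (S * T)) 3)

lemma trace_neg_one : ((-1 : SL(2, ℤ)) : Matrix (Fin 2) (Fin 2) ℤ).trace ^ 2 = 4 := by
  simp

lemma trace_T_pow (n : ℕ) : ((T ^ n : SL(2, ℤ)) : Matrix (Fin 2) (Fin 2) ℤ).trace ^ 2 = 4 := by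
  rw [← zpow_natCast, coe_T_zpow]
  simp [Matrix.trace_fin_two]

lemma rho_S_sq (hneg : (-1 : SL(2, ℤ)) ∈ Γ) : rho Γ S ^ 2 = 1 := by
  rw [← rho_pow, S_sq, rho_eq_one_of_smul (neg_one_smul_X hneg)]

lemma rho_U_cube (hneg : (-1 : SL(2, ℤ)) ∈ Γ) : rho Γ (S * T) ^ 3 = 1 := by
  rw [← rho_pow, ST_cube, rho_eq_one_of_smul (neg_one_smul_X hneg)]

lemma zmap_S_mem (hneg : (-1 : SL(2, ℤ)) ∈ Γ)
    (p : ModularCurve.Period.parabolicHoms ℂ Γ ℂ × V Γ) : zmap Γ S p ∈ WS Γ := by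
  rw [LinearMap.mem_ker, ← (zmap_isCoc p).pow S 2, S_sq]
  exact zmap_eq_zero_of_trace p (neg_one_smul_X hneg) trace_neg_one

lemma zmap_U_mem (hneg : (-1 : SL(2, ℤ)) ∈ Γ)
    (p : ModularCurve.Period.parabolicHoms ℂ Γ ℂ × V Γ) : zmap Γ (S * T) p ∈ WU Γ := by
  rw [LinearMap.mem_ker, ← (zmap_isCoc p).pow (S * T) 3, ST_cube]
  exact zmap_eq_zero_of_trace p (neg_one_smul_X hneg) trace_neg_one

/-- `(φ, v) ↦ (z(S), z(U))`. -/
noncomputable def Phi (hneg : (-1 : SL(2, ℤ)) ∈ Γ) :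
    (ModularCurve.Period.parabolicHoms ℂ Γ ℂ × V Γ) →ₗ[ℂ] (WS Γ × WU Γ) :=
  LinearMap.prod ((zmap Γ S).codRestrict (WS Γ) (zmap_S_mem hneg))
    ((zmap Γ (S * T)).codRestrict (WU Γ) (zmap_U_mem hneg))

/-- `(a, w) ↦ N_T (ρ(S)⁻¹ (w - a))`. -/
noncomputable def Psi (Γ : Subgroup SL(2, ℤ)) (n : ℕ) : (WS Γ × WU Γ) →ₗ[ℂ] V Γ :=
  (Nm (rho Γ T) n ∘ₗ rho Γ S⁻¹) ∘ₗ
    ((WU Γ).subtype ∘ₗ LinearMap.snd ℂ _ _ - (WS Γ).subtype ∘ₗ LinearMap.fst ℂ _ _)

lemma Psi_apply (n : ℕ) (q : WS Γ × WU Γ) :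
    Psi Γ n q = Nm (rho Γ T) n (rho Γ S⁻¹ ((q.2 : V Γ) - (q.1 : V Γ))) := rfl

lemma Psi_Phi (hneg : (-1 : SL(2, ℤ)) ∈ Γ) {n : ℕ} (hn : ∀ x : X Γ, (T ^ n : SL(2, ℤ)) • x = x)
    (p : ModularCurve.Period.parabolicHoms ℂ Γ ℂ × V Γ) : Psi Γ n (Phi hneg p) = 0 := by
  rw [Psi_apply]
  show Nm (rho Γ T) n (rho Γ S⁻¹ (zmap Γ (S * T) p - zmap Γ S p)) = 0
  have h := zmap_isCoc p S T
  simp only at h
  rw [h, add_sub_cancel_left, rho_inv_apply, ← (zmap_isCoc p).pow T n]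
  exact zmap_eq_zero_of_trace p hn (trace_T_pow n)

lemma out_x₀_mem : (x₀ Γ).out ∈ Γ := by
  have h : (((x₀ Γ).out : SL(2, ℤ)) : X Γ) = ((1 : SL(2, ℤ)) : X Γ) := QuotientGroup.out_eq' _
  rw [QuotientGroup.eq] at h
  simpa using h

lemma smul_x₀_of_mem {γ : SL(2, ℤ)} (hγ : γ ∈ Γ) : γ • x₀ Γ = x₀ Γ := by
  show ((γ * 1 : SL(2, ℤ)) : X Γ) = ((1 : SL(2, ℤ)) : X Γ)
  rw [eq_comm, QuotientGroup.eq]
  simpa using hγ

lemma cocL_x₀ (φ : Additive Γ →+ ℂ) (γ : Γ) :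
    cocL (γ : SL(2, ℤ)) φ (x₀ Γ) = φ (Additive.ofMul γ) := by
  rw [cocL_apply]
  have h : cocEl (γ : SL(2, ℤ)) (x₀ Γ)
      = (⟨(x₀ Γ).out, out_x₀_mem⟩ : Γ)⁻¹ * γ * ⟨(x₀ Γ).out, out_x₀_mem⟩ := by
    apply Subtype.ext
    have hx : (γ : SL(2, ℤ))⁻¹ • x₀ Γ = x₀ Γ := smul_x₀_of_mem (Γ.inv_mem γ.2)
    simp only [cocEl, hx, Subgroup.coe_mul, Subgroup.coe_inv]
  rw [h]
  simp only [ofMul_mul, ofMul_inv, map_add, map_neg]
  ring

lemma ker_Phi_aux (p : ModularCurve.Period.parabolicHoms ℂ Γ ℂ × V Γ)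
    (hS : zmap Γ S p = 0) (hU : zmap Γ (S * T) p = 0) :
    p.1 = 0 ∧ ∀ x, p.2 x = p.2 (x₀ Γ) := by
  have hz := zmap_isCoc p
  have hT : zmap Γ T p = 0 := by
    have h := hz S T
    simp only [hS, hU, zero_add] at h
    have h2 := rho_inv_apply S (zmap Γ T p)
    rw [← h] at h2
    simpa using h2.symm
  have hall := hz.eq_zero hS hT
  have hφ : p.1 = 0 := by
    apply Subtype.ext
    apply AddMonoidHom.ext
    intro γ
    have h := congrFun (hall (Additive.toMul γ : Γ)) (x₀ Γ)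
    simp only [zmap_apply, Pi.add_apply, Pi.sub_apply, rho_apply, cocL_x₀, Pi.zero_apply] at h
    rw [smul_x₀_of_mem (Γ.inv_mem (Additive.toMul γ : Γ).2)] at h
    simpa using h
  refine ⟨hφ, fun x => ?_⟩
  induction x using QuotientGroup.induction_on with
  | H h =>
    have h1 := congrFun (hall h) (h : X Γ)
    simp only [zmap_apply, hφ, Pi.add_apply, Pi.sub_apply, rho_apply, Pi.zero_apply] at h1
    have h2 : h⁻¹ • (h : X Γ) = x₀ Γ := by
      show ((h⁻¹ * h : SL(2, ℤ)) : X Γ) = ((1 : SL(2, ℤ)) : X Γ)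
      rw [inv_mul_cancel]
    rw [h2] at h1
    have h3 : p.2 (x₀ Γ) - p.2 (h : X Γ) = 0 := by simpa using h1
    exact (sub_eq_zero.1 h3).symm

/-- The sum map `V → ℂ`. -/
def sumMap (Γ : Subgroup SL(2, ℤ)) [Fintype (X Γ)] : V Γ →ₗ[ℂ] ℂ where
  toFun v := ∑ x, v x
  map_add' _ _ := by simp [Finset.sum_add_distrib]
  map_smul' _ _ := by simp [Finset.mul_sum]

lemma sumMap_apply [Fintype (X Γ)] (v : V Γ) : sumMap Γ v = ∑ x, v x := rfl

lemma sumMap_rho [Fintype (X Γ)] (g : SL(2, ℤ)) (v : V Γ) :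
    sumMap Γ (rho Γ g v) = sumMap Γ v := by
  simp only [sumMap_apply, rho_apply]
  exact Equiv.sum_comp (MulAction.toPerm g⁻¹) v

lemma rho_single [DecidableEq (X Γ)] (g : SL(2, ℤ)) (x : X Γ) (c : ℂ) :
    rho Γ g (Pi.single x c) = Pi.single (g • x) c := by
  funext y
  simp only [rho_apply, Pi.single_apply, inv_smul_eq_iff]

lemma ker_sumMap_le [Fintype (X Γ)] (M : Submodule ℂ (V Γ))
    (hM : ∀ (g : SL(2, ℤ)) (v : V Γ), rho Γ g v - v ∈ M) : LinearMap.ker (sumMap Γ) ≤ M := by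
  classical
  intro v hv
  have hv' : ∑ x, v x = 0 := hv
  have h1 : v = ∑ x, (Pi.single x (v x) - Pi.single (x₀ Γ) (v x) : V Γ) := by
    rw [Finset.sum_sub_distrib, Finset.univ_sum_single]
    have : ∑ x, (Pi.single (x₀ Γ) (v x) : V Γ) = Pi.single (x₀ Γ) (∑ x, v x) := by
      funext y
      simp only [Finset.sum_apply, Pi.single_apply]
      split_ifs <;> simp
    rw [this, hv']
    simp
  rw [h1]
  refine Submodule.sum_mem _ fun x _ => ?_
  induction x using QuotientGroup.induction_on with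
  | H h =>
    have h2 := hM h (Pi.single (x₀ Γ) (v (h : X Γ)))
    rw [rho_single] at h2
    have h3 : h • x₀ Γ = (h : X Γ) := by
      show ((h * 1 : SL(2, ℤ)) : X Γ) = (h : X Γ)
      rw [mul_one]
    rwa [h3] at h2

/-- The subgroup of `g` with `(ρ(g) - 1) V ≤ M`. -/
def subSubgroup (M : Submodule ℂ (V Γ)) : Subgroup SL(2, ℤ) where
  carrier := {g | ∀ v : V Γ, rho Γ g v - v ∈ M}
  one_mem' := by
    intro v
    rw [rho_one]
    simp
  mul_mem' := by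
    intro a b ha hb v
    have h : rho Γ (a * b) v - v = (rho Γ a (rho Γ b v) - rho Γ b v) + (rho Γ b v - v) := by
      rw [rho_mul_apply]; abel
    rw [h]
    exact M.add_mem (ha _) (hb _)
  inv_mem' := by
    intro a ha v
    have h : rho Γ a⁻¹ v - v = -(rho Γ a (rho Γ a⁻¹ v) - rho Γ a⁻¹ v) := by
      rw [rho_apply_inv]; abel
    rw [h]
    exact M.neg_mem (ha _)

lemma rho_sub_mem_sup (hneg : (-1 : SL(2, ℤ)) ∈ Γ) (g : SL(2, ℤ)) (v : V Γ) :
    rho Γ g v - v ∈ WS Γ ⊔ WU Γ := by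
  have hS : S ∈ subSubgroup (WS Γ ⊔ WU Γ) := fun v =>
    Submodule.mem_sup_left (LinearMap.mem_ker.2 (Nm_sub _ 2 (rho_S_sq hneg) v))
  have hU : S * T ∈ subSubgroup (WS Γ ⊔ WU Γ) := fun v =>
    Submodule.mem_sup_right (LinearMap.mem_ker.2 (Nm_sub _ 3 (rho_U_cube hneg) v))
  have hT : T ∈ subSubgroup (WS Γ ⊔ WU Γ) := by
    have := (subSubgroup (WS Γ ⊔ WU Γ)).mul_mem ((subSubgroup (WS Γ ⊔ WU Γ)).inv_mem hS) hU
    simpa using this
  have h : Subgroup.closure {S, T} ≤ subSubgroup (WS Γ ⊔ WU Γ) := by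
    rw [Subgroup.closure_le]
    rintro x (rfl | rfl)
    · exact hS
    · exact hT
  rw [_root_.SpecialLinearGroup.SL2Z_generators] at h
  exact h (Subgroup.mem_top g) v

lemma inf_le_range_Psi [Fintype (X Γ)] (hneg : (-1 : SL(2, ℤ)) ∈ Γ) {n : ℕ} (hn0 : n ≠ 0) :
    LinearMap.ker (rho Γ T - 1) ⊓ LinearMap.ker (sumMap Γ) ≤ LinearMap.range (Psi Γ n) := by
  rintro e ⟨he1, he2⟩
  have heT : rho Γ T e = e := by simpa [sub_eq_zero] using he1
  have heσ : sumMap Γ e = 0 := he2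
  have hn' : (n : ℂ) ≠ 0 := by exact_mod_cast hn0
  set e' : V Γ := (n : ℂ)⁻¹ • e with he'
  have h1 : rho Γ S e' ∈ LinearMap.ker (sumMap Γ) := by
    rw [LinearMap.mem_ker, sumMap_rho, he', map_smul, heσ, smul_zero]
  have h2 := ker_sumMap_le (WS Γ ⊔ WU Γ) (rho_sub_mem_sup hneg) h1
  obtain ⟨a, ha, w, hw, haw⟩ := Submodule.mem_sup.1 h2
  refine ⟨(⟨-a, (WS Γ).neg_mem ha⟩, ⟨w, hw⟩), ?_⟩
  rw [Psi_apply]
  have h3 : (w - -a : V Γ) = rho Γ S e' := by rw [← haw]; abel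
  show Nm (rho Γ T) n (rho Γ S⁻¹ (w - -a)) = e
  rw [h3, rho_inv_apply]
  have h4 : rho Γ T e' = e' := by rw [he', map_smul, heT]
  rw [Nm_apply_fixed _ n h4, he', smul_smul, mul_inv_cancel₀ hn', one_smul]

end Main

end Coh

open Coh in
/-- **ES-P12.** The space of parabolic homomorphisms `Γ → ℂ` is finite-dimensional, and
`dim + dim V^S + dim V^T + dim V^{ST} ≤ [SL(2,ℤ) : Γ] + 2`. -/
theorem finrank_parabolicHoms_add_le (Γ : Subgroup SL(2, ℤ)) [Γ.FiniteIndex]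
    (hneg : (-1 : SL(2, ℤ)) ∈ Γ) :
    Module.Finite ℂ (ModularCurve.Period.parabolicHoms ℂ Γ ℂ) ∧
    Module.finrank ℂ (ModularCurve.Period.parabolicHoms ℂ Γ ℂ)
      + fixDim Γ S + fixDim Γ T + fixDim Γ (S * T) ≤ Γ.index + 2 := by
  classical
  have : Fintype (X Γ) := Fintype.ofFinite _
  -- finite-dimensionality
  have hfin : Module.Finite ℂ (ModularCurve.Period.parabolicHoms ℂ Γ ℂ) := by
    let f : ModularCurve.Period.parabolicHoms ℂ Γ ℂ →ₗ[ℂ] (WS Γ × WU Γ) :=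
      Phi hneg ∘ₗ LinearMap.inl ℂ _ _
    have hf : Function.Injective f := by
      rw [← LinearMap.ker_eq_bot, LinearMap.ker_eq_bot']
      intro φ hφ
      have h1 : zmap Γ S (φ, 0) = 0 := congrArg (fun q : WS Γ × WU Γ => (q.1 : V Γ)) hφ
      have h2 : zmap Γ (S * T) (φ, 0) = 0 := congrArg (fun q : WS Γ × WU Γ => (q.2 : V Γ)) hφ
      exact (ker_Phi_aux (φ, 0) h1 h2).1
    exact Module.Finite.of_injective f hf
  refine ⟨hfin, ?_⟩
  obtain ⟨n, hn0, hn⟩ : ∃ n : ℕ, n ≠ 0 ∧ ∀ x : X Γ, (T ^ n : SL(2, ℤ)) • x = x := by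
    have h := isOfFinOrder_of_finite (MulAction.toPermHom SL(2, ℤ) (X Γ) T)
    obtain ⟨n, hn0, hn⟩ := isOfFinOrder_iff_pow_eq_one.1 h
    refine ⟨n, hn0.ne', fun x => ?_⟩
    rw [← map_pow] at hn
    have h2 := congrArg (fun σ : Equiv.Perm (X Γ) => σ x) hn
    simpa using h2
  -- counts
  have c1 := LinearMap.finrank_range_add_finrank_ker (Phi hneg)
  have c2 : Module.finrank ℂ (LinearMap.ker (Phi hneg)) ≤ 1 := by
    have hle : LinearMap.ker (Phi hneg) ≤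
        Submodule.span ℂ {((0, fun _ => 1) : ModularCurve.Period.parabolicHoms ℂ Γ ℂ × V Γ)} := by
      intro p hp
      have h1 : zmap Γ S p = 0 := congrArg (fun q : WS Γ × WU Γ => (q.1 : V Γ)) hp
      have h2 : zmap Γ (S * T) p = 0 := congrArg (fun q : WS Γ × WU Γ => (q.2 : V Γ)) hp
      obtain ⟨h3, h4⟩ := ker_Phi_aux p h1 h2
      rw [Submodule.mem_span_singleton]
      refine ⟨p.2 (x₀ Γ), ?_⟩
      refine Prod.ext ?_ ?_
      · simp [h3]
      · funext x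
        simp [h4 x]
    refine (Submodule.finrank_mono hle).trans ?_
    refine (finrank_span_le_card _).trans ?_
    simp
  have c3 : Module.finrank ℂ (LinearMap.range (Phi hneg))
      ≤ Module.finrank ℂ (LinearMap.ker (Psi Γ n)) :=
    Submodule.finrank_mono (by rintro _ ⟨p, rfl⟩; exact Psi_Phi hneg hn p)
  have c4 := LinearMap.finrank_range_add_finrank_ker (Psi Γ n)
  have c5 : Module.finrank ℂ (WS Γ) + Module.finrank ℂ (LinearMap.ker (rho Γ S - 1))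
      ≤ Module.finrank ℂ (V Γ) := finrank_ker_Nm_add_le (rho Γ S) 2 two_ne_zero
  have c6 : Module.finrank ℂ (WU Γ) + Module.finrank ℂ (LinearMap.ker (rho Γ (S * T) - 1))
      ≤ Module.finrank ℂ (V Γ) := finrank_ker_Nm_add_le (rho Γ (S * T)) 3 three_ne_zero
  have c7 := finrank_le_inf_ker_add_one (LinearMap.ker (rho Γ T - 1)) (sumMap Γ)
  have c8 := Submodule.finrank_mono (inf_le_range_Psi hneg hn0)
  have c9 : Module.finrank ℂ (V Γ) = Γ.index := by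
    rw [Module.finrank_fintype_fun_eq_card, Subgroup.index, Nat.card_eq_fintype_card]
  rw [Module.finrank_prod] at c1 c4
  unfold fixDim
  omega

end Fermat.Agent.ES
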