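import Fermat.Agent.ES.LevelOne

set_option autoImplicit false

namespace Fermat.Agent.ES

open UpperHalfPlane ModularForm Matrix.SpecialLinearGroup Filter Topology ModularGroup
  CongruenceSubgroup Asymptotics
open scoped MatrixGroups Manifold Real

namespace Cusp

theorem periodic_comp_ofComplex_of {G : ℍ → ℂ} {h : ℝ} (hG : ∀ w : ℍ, G (h +ᵥ w) = G w) :
    Function.Periodic (G ∘ ofComplex) h := by
  intro w
  by_cases hw : 0 < w.im
  · have hw' : 0 < (w + h).im := by simpa using hw
    simp only [Function.comp_apply, ofComplex_apply_of_im_pos hw', ofComplex_apply_of_im_pos hw]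
    rw [← hG ⟨w, hw⟩]
    congr 1
    ext
    simp [add_comm]
  · have hw1 : w.im ≤ 0 := not_lt.mp hw
    have hw' : (w + h).im ≤ 0 := by simpa using hw1
    simp [ofComplex_apply_of_im_nonpos hw', ofComplex_apply_of_im_nonpos hw1]

/-- `z ↦ exp (c z)` on the upper half plane is holomorphic. -/
theorem mdiff_cexp_mul (c : ℂ) : MDiff (fun z : ℍ => Complex.exp (c * (z : ℂ))) := by
  rw [UpperHalfPlane.mdifferentiable_iff]
  have h : DifferentiableOn ℂ (fun w : ℂ => Complex.exp (c * w)) {z | 0 < z.im} :=
    (by fun_prop : Differentiable ℂ (fun w : ℂ => Complex.exp (c * w))).differentiableOn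
  refine h.congr fun w hw => ?_
  simp [Function.comp_apply, ofComplex_apply_of_im_pos hw]

theorem norm_cexp_two_pi_I_mul (a : ℝ) (z : ℍ) :
    ‖Complex.exp (2 * π * Complex.I * a * (z : ℂ))‖ = Real.exp (-2 * π * a * z.im) := by
  rw [Complex.norm_exp]
  congr 1
  simp [Complex.mul_re, Complex.mul_im]

end Cusp

open Cusp

/-- scalar removable singularity lemma -/
theorem cusp_scalar {h : ℍ → ℂ} (hh : MDiff h) (hper : ∀ z : ℍ, h ((1 : ℝ) +ᵥ z) = h z)
    {α : ℝ} (hα : α < 1) (hgrowth : h =O[atImInfty] fun z => Real.exp (2 * Real.pi * α * z.im)) :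
    ∃ L : ℂ, (fun z => h z - L) =O[atImInfty] absq := by
  set q : ℍ → ℂ := fun z => Complex.exp (2 * π * Complex.I * (1 : ℝ) * (z : ℂ)) with hq
  have hqn : ∀ z, ‖q z‖ = absq z := fun z => by
    rw [hq, norm_cexp_two_pi_I_mul, absq]; ring_nf
  have hqd : MDiff q := by
    have := mdiff_cexp_mul (2 * π * Complex.I * (1 : ℝ))
    exact this
  have hqper : ∀ z : ℍ, q ((1 : ℝ) +ᵥ z) = q z := fun z => by
    simp only [hq, coe_vadd]
    rw [mul_add, Complex.exp_add]
    have : Complex.exp (2 * π * Complex.I * (1 : ℝ) * ((1 : ℝ) : ℂ)) = 1 := by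
      simp
    rw [this, one_mul]
  -- `g = h q` tends to zero
  set g : ℍ → ℂ := fun z => h z * q z with hg
  have hgO : g =O[atImInfty] fun z : ℍ => Real.exp (-(2 * π * (1 - α)) * z.im) := by
    have h1 : g =O[atImInfty] fun z : ℍ => Real.exp (2 * π * α * z.im) * absq z :=
      hgrowth.mul (IsBigO.of_norm_eventuallyLE (Eventually.of_forall fun z => (hqn z).le))
    refine h1.congr_right fun z => ?_
    rw [absq, ← Real.exp_add]; ring_nf
  have hlim : Tendsto (fun z : ℍ => Real.exp (-(2 * π * (1 - α)) * z.im)) atImInfty (𝓝 0) := by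
    have hc : 0 < 2 * π * (1 - α) := by have := Real.pi_pos; have : 0 < 1 - α := by linarith
                                        positivity
    have : Tendsto (fun y : ℝ => Real.exp (-(2 * π * (1 - α)) * y)) atTop (𝓝 0) := by
      refine Real.tendsto_exp_atBot.comp ?_
      exact tendsto_id.const_mul_atTop_of_neg (by linarith)
    exact this.comp tendsto_comap
  have hg0 : IsZeroAtImInfty g := hgO.trans_tendsto hlim
  have hgd : MDiff g := hh.mul hqd
  have hgper : Function.Periodic (g ∘ ofComplex) (1 : ℝ) :=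
    periodic_comp_ofComplex_of fun z => by simp only [hg, hper, hqper]
  have hgdecay := hg0.exp_decay_atImInfty one_pos hgper hgd hg0.boundedAtFilter
  -- hence `h` is bounded
  have hbdd : IsBoundedAtImInfty h := by
    have h1 : g =O[atImInfty] q := by
      refine hgdecay.trans (isBigO_of_le _ fun z => ?_)
      rw [hqn, absq, Real.norm_eq_abs, abs_of_pos (Real.exp_pos _)]
      apply le_of_eq; ring_nf
    have h2 : (fun z => g z / q z) =O[atImInfty] (fun z => q z / q z) :=
      h1.mul (isBigO_refl (fun z => (q z)⁻¹) _)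
    have hq0 : ∀ z, q z ≠ 0 := fun z => Complex.exp_ne_zero _
    have h3 : (fun z => g z / q z) = h := by
      funext z; simp only [hg]; field_simp [hq0 z]
    have h4 : (fun z => q z / q z) = fun _ => (1 : ℂ) := by
      funext z; exact div_self (hq0 z)
    rw [h3, h4] at h2
    exact h2.trans (isBigO_of_le _ fun _ => by simp)
  refine ⟨valueAtInfty h, ?_⟩
  have := exp_decay_sub_atImInfty one_pos (periodic_comp_ofComplex_of hper) hh hbdd
  refine this.congr_right fun z => ?_
  rw [absq]; ring_nf

end Fermat.Agent.ES
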