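/-
ES-P7 : analysis at the cusp (`HBasis.finite_card_le`, `HBasis.dual_decay`; `cusp_scalar` is in `ES/CuspScalar.lean`).
All auxiliary declarations live in the sub-namespace `Fermat.Agent.ES.CuspAux`.
-/
import Fermat.Agent.ES.CuspScalar

set_option autoImplicit false

namespace Fermat.Agent.ES

open UpperHalfPlane ModularForm Matrix.SpecialLinearGroup Filter Topology ModularGroup CongruenceSubgroup Asymptotics
open scoped MatrixGroups Manifold

variable {Γ : Subgroup SL(2, ℤ)} {k : ℤ}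

namespace CuspAux

section Projectors

variable {E : Type*} [Ring E] [Algebra ℂ E]

/-- `ζ = exp(2πi/n)` -/
noncomputable def zt (n : ℕ) : ℂ := Complex.exp (2 * Real.pi * Complex.I / n)

lemma zt_prim {n : ℕ} (hn : n ≠ 0) : IsPrimitiveRoot (zt n) n := Complex.isPrimitiveRoot_exp n hn

lemma zt_ne_zero (n : ℕ) : zt n ≠ 0 := Complex.exp_ne_zero _

lemma zt_pow_self {n : ℕ} (hn : n ≠ 0) : zt n ^ n = 1 := (zt_prim hn).pow_eq_one

lemma geom_zero {w : ℂ} {n : ℕ} (hw : w ^ n = 1) (hw1 : w ≠ 1) :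
    ∑ s ∈ Finset.range n, w ^ s = 0 := by
  rw [geom_sum_eq hw1, hw, sub_self, zero_div]

/-- the spectral projector of `A` (with `A ^ n = 1`) for the eigenvalue `ζ ^ r`. -/
noncomputable def pr (A : E) (n r : ℕ) : E :=
  (n : ℂ)⁻¹ • ∑ s ∈ Finset.range n, ((zt n)⁻¹ ^ (r * s)) • A ^ s

variable {A : E} {n : ℕ}

lemma commute_pr (A : E) (n r : ℕ) : Commute A (pr A n r) := by
  unfold pr
  refine Commute.smul_right (Commute.sum_right _ _ _ fun s _ => ?_) _
  exact Commute.smul_right (Commute.pow_right (Commute.refl A) s) _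

lemma mul_pr (hn : n ≠ 0) (hA : A ^ n = 1) (r : ℕ) : A * pr A n r = zt n ^ r • pr A n r := by
  unfold pr
  rw [mul_smul_comm, smul_comm (zt n ^ r)]
  congr 1
  rw [Finset.mul_sum, Finset.smul_sum]
  set t : ℕ → E := fun s => (zt n ^ r * (zt n)⁻¹ ^ (r * s)) • A ^ s with ht
  have h1 : ∀ s, A * ((zt n)⁻¹ ^ (r * s) • A ^ s) = t (s + 1) := by
    intro s
    simp only [ht]
    rw [mul_smul_comm, ← pow_succ']
    congr 1
    rw [mul_add, mul_one, pow_add, mul_comm ((zt n)⁻¹ ^ (r * s)), ← mul_assoc, ← mul_pow,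
      mul_inv_cancel₀ (zt_ne_zero n), one_pow, one_mul]
  have h2 : ∀ s, zt n ^ r • ((zt n)⁻¹ ^ (r * s) • A ^ s) = t s := by
    intro s
    simp only [ht]
    rw [smul_smul]
  simp only [h1, h2]
  have h3 : t n = t 0 := by
    simp only [ht]
    rw [hA, mul_zero, pow_zero, pow_zero, mul_comm r n, pow_mul, inv_pow, zt_pow_self hn, inv_one,
      one_pow]
  have := (Finset.sum_range_succ t n).symm.trans (Finset.sum_range_succ' t n)
  rw [h3] at this
  exact (add_right_cancel this).symm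

lemma pow_mul_pr (hn : n ≠ 0) (hA : A ^ n = 1) (r s : ℕ) :
    A ^ s * pr A n r = zt n ^ (r * s) • pr A n r := by
  induction s with
  | zero => simp
  | succ s ih =>
    rw [pow_succ, mul_assoc, mul_pr hn hA, mul_smul_comm, ih, smul_smul, mul_add, mul_one, pow_add,
      mul_comm]

lemma pr_mul_pr (hn : n ≠ 0) (hA : A ^ n = 1) {r r' : ℕ} (hr : r < n) (hr' : r' < n) :
    pr A n r * pr A n r' = if r = r' then pr A n r' else 0 := by
  conv_lhs => rw [pr]
  rw [smul_mul_assoc, Finset.sum_mul]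
  have h1 : ∀ s, ((zt n)⁻¹ ^ (r * s) • A ^ s) * pr A n r' =
      (((zt n)⁻¹ ^ r * zt n ^ r') ^ s) • pr A n r' := by
    intro s
    rw [smul_mul_assoc, pow_mul_pr hn hA, smul_smul, mul_pow, ← pow_mul, ← pow_mul]
  simp only [h1]
  rw [← Finset.sum_smul, smul_smul]
  split_ifs with h
  · subst h
    rw [← mul_pow, inv_mul_cancel₀ (zt_ne_zero n)]
    simp only [one_pow, Finset.sum_const, Finset.card_range, nsmul_eq_mul, mul_one]
    rw [inv_mul_cancel₀ (Nat.cast_ne_zero.mpr hn), one_smul]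
  · rw [geom_zero, mul_zero, zero_smul]
    · rw [mul_pow, ← pow_mul, ← pow_mul, mul_comm r n, mul_comm r' n, pow_mul, pow_mul, inv_pow,
        zt_pow_self hn]
      simp
    · intro h1
      apply h
      have h2 : zt n ^ r' = zt n ^ r := by
        have := congrArg (fun x => zt n ^ r * x) h1
        simp only [mul_one] at this
        rwa [← mul_assoc, ← mul_pow, mul_inv_cancel₀ (zt_ne_zero n), one_pow, one_mul] at this
      exact ((zt_prim hn).pow_inj hr' hr h2).symm

lemma sum_pr (hn : n ≠ 0) (A : E) : ∑ r ∈ Finset.range n, pr A n r = 1 := by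
  unfold pr
  rw [← Finset.smul_sum, Finset.sum_comm]
  have h1 : ∀ s ∈ Finset.range n, ∑ r ∈ Finset.range n, ((zt n)⁻¹ ^ (r * s)) • A ^ s =
      if s = 0 then (n : ℂ) • (1 : E) else 0 := by
    intro s hs
    rw [← Finset.sum_smul]
    split_ifs with h
    · subst h; simp
    · have : ∀ r, (zt n)⁻¹ ^ (r * s) = ((zt n)⁻¹ ^ s) ^ r := fun r => by rw [mul_comm, pow_mul]
      simp only [this]
      rw [geom_zero, zero_smul]
      · rw [← pow_mul, mul_comm, pow_mul, inv_pow, zt_pow_self hn]; simp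
      · rw [inv_pow]
        intro h2
        rw [inv_eq_one] at h2
        exact (zt_prim hn).pow_ne_one_of_pos_of_lt h (Finset.mem_range.mp hs) h2
  rw [Finset.sum_congr rfl h1, Finset.sum_ite_eq' (Finset.range n) 0]
  rw [if_pos (Finset.mem_range.mpr (Nat.pos_of_ne_zero hn)), smul_smul,
    inv_mul_cancel₀ (Nat.cast_ne_zero.mpr hn), one_smul]

/-- `P(z) = ∑ exp(2πi r z/n) π_r`. -/
noncomputable def Pm (A : E) (n : ℕ) (z : ℂ) : E :=
  ∑ r ∈ Finset.range n, Complex.exp (2 * Real.pi * Complex.I * r * z / n) • pr A n r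

/-- `Q(z) = ∑ exp(-2πi r z/n) π_r`. -/
noncomputable def Qm (A : E) (n : ℕ) (z : ℂ) : E :=
  ∑ r ∈ Finset.range n, Complex.exp (-(2 * Real.pi * Complex.I * r * z / n)) • pr A n r

lemma Pm_mul_Qm (hn : n ≠ 0) (hA : A ^ n = 1) (z : ℂ) : Pm A n z * Qm A n z = 1 := by
  unfold Pm Qm
  rw [Finset.sum_mul_sum]
  rw [← sum_pr hn A]
  refine Finset.sum_congr rfl fun r hr => ?_
  have h1 : ∀ r' ∈ Finset.range n,
      (Complex.exp (2 * Real.pi * Complex.I * r * z / n) • pr A n r) *
        (Complex.exp (-(2 * Real.pi * Complex.I * r' * z / n)) • pr A n r') =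
      if r = r' then pr A n r else 0 := by
    intro r' hr'
    rw [smul_mul_smul_comm, pr_mul_pr hn hA (Finset.mem_range.mp hr) (Finset.mem_range.mp hr')]
    split_ifs with h
    · subst h
      rw [← Complex.exp_add, add_neg_cancel, Complex.exp_zero, one_smul]
    · rw [smul_zero]
  rw [Finset.sum_congr rfl h1, Finset.sum_ite_eq (Finset.range n) r, if_pos hr]

lemma Qm_add_one_mul (hn : n ≠ 0) (hA : A ^ n = 1) (z : ℂ) : Qm A n (z + 1) * A = Qm A n z := by
  unfold Qm
  rw [Finset.sum_mul]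
  refine Finset.sum_congr rfl fun r _ => ?_
  rw [smul_mul_assoc, ← (commute_pr A n r).eq, mul_pr hn hA, smul_smul]
  congr 1
  rw [zt, ← Complex.exp_nat_mul, ← Complex.exp_add]
  congr 1
  have : (n : ℂ) ≠ 0 := Nat.cast_ne_zero.mpr hn
  field_simp
  ring

end Projectors


lemma rho_one' : rho Γ 1 = 1 := by
  ext v x; simp

lemma rho_mul' (g h : SL(2, ℤ)) : rho Γ (g * h) = rho Γ g * rho Γ h := by
  apply LinearMap.ext; intro v; funext x
  simp [mul_smul]

lemma rho_pow' (g : SL(2, ℤ)) (s : ℕ) : rho Γ (g ^ s) = rho Γ g ^ s := by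
  induction s with
  | zero => simp [rho_one']
  | succ s ih => rw [pow_succ, rho_mul', ih, pow_succ]

lemma exists_period (Γ : Subgroup SL(2, ℤ)) [Γ.FiniteIndex] : ∃ n : ℕ, n ≠ 0 ∧ rho Γ T ^ n = 1 := by
  classical
  have : Finite (X Γ) := Subgroup.finite_quotient_of_finiteIndex
  let φ := MulAction.toPermHom SL(2, ℤ) (X Γ)
  refine ⟨orderOf (φ T), (orderOf_pos _).ne', ?_⟩
  rw [← rho_pow']
  apply LinearMap.ext; intro v; funext x
  have h1 : φ (T ^ orderOf (φ T)) = 1 := by rw [map_pow, pow_orderOf_eq_one]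
  have h2 : ∀ y : X Γ, (T ^ orderOf (φ T)) • y = y := fun y => by
    have := congrArg (fun e : Equiv.Perm (X Γ) => e y) h1
    simpa [φ] using this
  have h3 : ((T ^ orderOf (φ T))⁻¹ : SL(2, ℤ)) • x = x := by
    rw [inv_smul_eq_iff, h2]
  simp [h3]

lemma vec_vadd {f : ℍ → ℂ} (hf : ∀ γ ∈ Γ, f ∣[k] γ = f) (z : ℍ) :
    vec Γ k f ((1 : ℝ) +ᵥ z) = rho Γ T (vec Γ k f z) := by
  have h := vec_smul hf T z
  rw [modular_T_smul] at h
  rw [h]
  have : denom (T : SL(2, ℤ)) z = 1 := by
    simp [denom, coe_T]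
  rw [this, one_zpow, one_smul]


/-- holomorphic functions as a submodule -/
def mdiffSub : Submodule ℂ (ℍ → ℂ) where
  carrier := {f | MDiff f}
  zero_mem' := mdifferentiable_const
  add_mem' := fun hf hg => hf.add hg
  smul_mem' := fun c _ hf => hf.const_smul c

/-- `O(g)` functions as a submodule -/
def bigOSub (g : ℍ → ℝ) : Submodule ℂ (ℍ → ℂ) where
  carrier := {f | f =O[atImInfty] g}
  zero_mem' := isBigO_zero _ _
  add_mem' := fun hf hg => hf.add hg
  smul_mem' := fun c _ hf => hf.const_smul_left c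

lemma lin_coord_mem [Finite (X Γ)] (S : Submodule ℂ (ℍ → ℂ)) {Φ : ℍ → V Γ}
    (h : ∀ x, (fun z => Φ z x) ∈ S) (L : Module.End ℂ (V Γ)) (x : X Γ) :
    (fun z => L (Φ z) x) ∈ S := by
  classical
  have := Fintype.ofFinite (X Γ)
  have h1 : (fun z => L (Φ z) x) = ∑ x', (L (Pi.single x' 1) x) • (fun z => Φ z x') := by
    funext z
    rw [LinearMap.pi_apply_eq_sum_univ L (Φ z)]
    simp only [Finset.sum_apply, Pi.smul_apply, smul_eq_mul]
    refine Finset.sum_congr rfl fun x' _ => ?_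
    rw [mul_comm]
    have : (fun j => if x' = j then (1 : ℂ) else 0) = Pi.single x' 1 := by
      funext j
      simp [Pi.single_apply, eq_comm]
    rw [this]
  rw [h1]
  exact Submodule.sum_mem _ fun x' _ => Submodule.smul_mem _ _ (h x')

/-- the twisted vector `Q(z) Φ(z)`. -/
noncomputable def tw (Γ : Subgroup SL(2, ℤ)) (n : ℕ) (Φ : ℍ → V Γ) (z : ℍ) : V Γ :=
  Qm (rho Γ T) n (z : ℂ) (Φ z)

lemma tw_apply (n : ℕ) (Φ : ℍ → V Γ) (z : ℍ) (x : X Γ) :
    tw Γ n Φ z x = ∑ r ∈ Finset.range n,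
      Complex.exp (-(2 * Real.pi * Complex.I * r * z / n)) * (pr (rho Γ T) n r (Φ z)) x := by
  simp [tw, Qm, LinearMap.sum_apply, Finset.sum_apply]

lemma Pm_apply (n : ℕ) (v : V Γ) (z : ℂ) (x : X Γ) :
    (Pm (rho Γ T) n z v) x = ∑ r ∈ Finset.range n,
      Complex.exp (2 * Real.pi * Complex.I * r * z / n) * (pr (rho Γ T) n r v) x := by
  simp [Pm, LinearMap.sum_apply, Finset.sum_apply]

lemma Pm_tw {n : ℕ} (hn : n ≠ 0) (hA : rho Γ T ^ n = 1) (Φ : ℍ → V Γ) (z : ℍ) :
    Pm (rho Γ T) n (z : ℂ) (tw Γ n Φ z) = Φ z := by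
  rw [tw, ← Module.End.mul_apply, Pm_mul_Qm hn hA, Module.End.one_apply]

lemma tw_vadd {n : ℕ} (hn : n ≠ 0) (hA : rho Γ T ^ n = 1) {Φ : ℍ → V Γ}
    (hΦ : ∀ z, Φ ((1 : ℝ) +ᵥ z) = rho Γ T (Φ z)) (z : ℍ) :
    tw Γ n Φ ((1 : ℝ) +ᵥ z) = tw Γ n Φ z := by
  rw [tw, tw, hΦ, ← Module.End.mul_apply]
  have : (((1 : ℝ) +ᵥ z : ℍ) : ℂ) = (z : ℂ) + 1 := by simp [add_comm]
  rw [this, Qm_add_one_mul hn hA]

lemma mdiff_exp (c : ℂ) : MDiff (fun z : ℍ => Complex.exp (c * z)) := by
  have h : Differentiable ℂ (fun w : ℂ => Complex.exp (c * w)) := by fun_prop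
  exact h.mdifferentiable.comp mdifferentiable_coe

lemma norm_exp_mul_I (a : ℝ) (z : ℍ) :
    ‖Complex.exp (a * Complex.I * z)‖ = Real.exp (-a * z.im) := by
  rw [Complex.norm_exp]
  congr 1
  simp [mul_assoc]

lemma exists_tw_limit [Finite (X Γ)] {n : ℕ} (hn : n ≠ 0) (hA : rho Γ T ^ n = 1) {Φ : ℍ → V Γ}
    (hΦ : ∀ z, Φ ((1 : ℝ) +ᵥ z) = rho Γ T (Φ z))
    (hmd : ∀ x, MDiff (fun z => Φ z x)) (hbd : ∀ x, IsBoundedAtImInfty (fun z => Φ z x)) :
    ∃ L : V Γ, ∀ x, (fun z => tw Γ n Φ z x - L x) =O[atImInfty] absq := by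
  have hn' : (0 : ℝ) < n := Nat.cast_pos.mpr (Nat.pos_of_ne_zero hn)
  have key : ∀ x, ∃ L : ℂ, (fun z => tw Γ n Φ z x - L) =O[atImInfty] absq := by
    intro x
    have hexp : ∀ (r : ℕ) (z : ℍ), Complex.exp (-(2 * Real.pi * Complex.I * r * z / n)) =
        Complex.exp ((-(2 * Real.pi * r / n) : ℝ) * Complex.I * z) := by
      intro r z
      congr 1
      push_cast
      ring
    refine cusp_scalar (α := ((n : ℝ) - 1) / n) ?_ ?_ ?_ ?_
    · change (fun z => tw Γ n Φ z x) ∈ mdiffSub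
      have : (fun z => tw Γ n Φ z x) = ∑ r ∈ Finset.range n, fun z : ℍ =>
          Complex.exp (-(2 * Real.pi * Complex.I * r * z / n)) * (pr (rho Γ T) n r (Φ z)) x := by
        funext z; rw [tw_apply, Finset.sum_apply]
      rw [this]
      refine Submodule.sum_mem _ fun r _ => ?_
      simp only [hexp]
      exact (mdiff_exp _).mul (lin_coord_mem mdiffSub hmd _ x)
    · intro z
      rw [tw_vadd hn hA hΦ]
    · rw [div_lt_one hn']; linarith
    · change (fun z => tw Γ n Φ z x) ∈ bigOSub _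
      have : (fun z => tw Γ n Φ z x) = ∑ r ∈ Finset.range n, fun z : ℍ =>
          Complex.exp (-(2 * Real.pi * Complex.I * r * z / n)) * (pr (rho Γ T) n r (Φ z)) x := by
        funext z; rw [tw_apply, Finset.sum_apply]
      rw [this]
      refine Submodule.sum_mem _ fun r hr => ?_
      have h1 : (fun z : ℍ => Complex.exp (-(2 * Real.pi * Complex.I * r * z / n))) =O[atImInfty]
          fun z : ℍ => Real.exp (2 * Real.pi * (((n : ℝ) - 1) / n) * z.im) := by
        refine IsBigO.of_norm_le fun z => ?_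
        rw [hexp, norm_exp_mul_I, Real.exp_le_exp]
        have hr' : (r : ℝ) ≤ (n : ℝ) - 1 := by
          have := Finset.mem_range.mp hr
          have h2 : (r : ℝ) + 1 ≤ n := by exact_mod_cast this
          linarith
        have hz := z.im_pos.le
        have hpi := Real.pi_pos.le
        have : (r : ℝ) / n ≤ ((n : ℝ) - 1) / n := by gcongr
        calc - -(2 * Real.pi * r / n) * z.im = 2 * Real.pi * ((r : ℝ) / n) * z.im := by ring
          _ ≤ 2 * Real.pi * (((n : ℝ) - 1) / n) * z.im := by gcongr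
      have h2 : (fun z => (pr (rho Γ T) n r (Φ z)) x) =O[atImInfty] (1 : ℍ → ℝ) :=
        lin_coord_mem (bigOSub 1) hbd _ x
      have h3 := h1.mul h2
      simp only [Pi.one_apply, mul_one] at h3
      exact h3
  choose L hL using key
  exact ⟨L, hL⟩

lemma absq_tendsto : Tendsto absq atImInfty (𝓝 0) := by
  unfold absq
  refine Real.tendsto_exp_atBot.comp ?_
  have h : Tendsto (fun y : ℝ => (-2 * Real.pi) * y) atTop atBot :=
    tendsto_id.const_mul_atTop_of_neg (by have := Real.pi_pos; linarith)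
  exact h.comp tendsto_comap

lemma tendsto_of_sub_isBigO_absq {h : ℍ → ℂ} {L : ℂ}
    (hL : (fun z => h z - L) =O[atImInfty] absq) : Tendsto h atImInfty (𝓝 L) := by
  have := hL.trans_tendsto absq_tendsto
  have h2 := this.add_const L
  simpa using h2

/-- recovering `Φ` from `tw Φ`. -/
lemma isBigO_of_tw_isBigO [Finite (X Γ)] {n : ℕ} (hn : n ≠ 0) (hA : rho Γ T ^ n = 1) {Φ : ℍ → V Γ}
    (h : ∀ x, (fun z => tw Γ n Φ z x) =O[atImInfty] absq) (x : X Γ) :
    (fun z => Φ z x) =O[atImInfty] absq := by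
  have h0 : (fun z => Φ z x) = ∑ r ∈ Finset.range n, fun z : ℍ =>
      Complex.exp (2 * Real.pi * Complex.I * r * z / n) *
        (pr (rho Γ T) n r (tw Γ n Φ z)) x := by
    funext z
    rw [Finset.sum_apply, ← Pm_apply, Pm_tw hn hA]
  change (fun z => Φ z x) ∈ bigOSub absq
  rw [h0]
  refine Submodule.sum_mem _ fun r _ => ?_
  have h1 : (fun z : ℍ => Complex.exp (2 * Real.pi * Complex.I * r * z / n)) =O[atImInfty]
      (1 : ℍ → ℝ) := by
    refine IsBigO.of_norm_le fun z => ?_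
    have : Complex.exp (2 * Real.pi * Complex.I * r * z / n) =
        Complex.exp (((2 * Real.pi * r / n) : ℝ) * Complex.I * z) := by
      congr 1
      push_cast
      ring
    rw [this, norm_exp_mul_I, Pi.one_apply, Real.exp_le_one_iff]
    have hz := z.im_pos.le
    have hpi := Real.pi_pos.le
    have : 0 ≤ 2 * Real.pi * r / n * z.im := by positivity
    linarith
  have h2 : (fun z => (pr (rho Γ T) n r (tw Γ n Φ z)) x) =O[atImInfty] absq :=
    lin_coord_mem (bigOSub absq) h _ x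
  have h3 := h1.mul h2
  simp only [Pi.one_apply, one_mul] at h3
  exact h3


lemma conj_top_mul {w l K : ℤ} (hK : K = w + l) {a : ℍ → ℂ} (f : ℍ → ℂ) (ha : a ∈ MF ⊤ w)
    (x : X Γ) : conj K (a * f) x = a * conj l f x := by
  subst hK; rw [conj_mul, conj_of_mem_top ha]

lemma MF_cast' {l : ℤ} {f : ℍ → ℂ} (h : k = l) (hf : f ∈ MF Γ k) : f ∈ MF Γ l := h ▸ hf

lemma Δ_tendsto_zero : Tendsto Δ atImInfty (𝓝 0) := Δ_isBigO_absq.trans_tendsto absq_tendsto

lemma F_ne_zero' (B : HBasis Γ) (j : B.J) : B.F j ≠ 0 := by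
  classical
  intro h
  have h1 := B.indep (B.wt j) (Finsupp.single j 1) (fun i => by
    by_cases hij : i = j
    · subst hij
      simpa using (one_mem_MF : (1 : ℍ → ℂ) ∈ MF ⊤ 0)
    · rw [Finsupp.single_eq_of_ne hij]; exact zero_mem _) (by
    rw [Finsupp.sum_single_index (by simp), h, mul_zero])
  have h2 := congrArg (fun a => a j) h1
  simp at h2

lemma wt_even' (hneg : (-1 : SL(2, ℤ)) ∈ Γ) (B : HBasis Γ) (j : B.J) : Even (B.wt j) := by
  by_contra h
  rw [Int.not_even_iff_odd] at h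
  have h1 := B.mem j
  rw [MF_eq_bot_of_odd hneg h] at h1
  exact F_ne_zero' B j (by simpa using h1)

lemma tw_sum_smul {ι : Type*} (n : ℕ) (s : Finset ι) (co : ι → ℍ → ℂ) (Φ : ι → ℍ → V Γ) (z : ℍ) :
    tw Γ n (fun z => ∑ j ∈ s, co j z • Φ j z) z = ∑ j ∈ s, co j z • tw Γ n (Φ j) z := by
  simp only [tw, map_sum, map_smul]

/-- The cusp data of a homogeneous basis: limits of the twisted vectors are linearly independent. -/
theorem exists_lam [Γ.FiniteIndex] (hneg : (-1 : SL(2, ℤ)) ∈ Γ) (B : HBasis Γ) :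
    ∃ n : ℕ, n ≠ 0 ∧ rho Γ T ^ n = 1 ∧ ∃ L : B.J → V Γ, LinearIndependent ℂ L ∧
      ∀ j x, (fun z => tw Γ n (vec Γ (B.wt j) (B.F j)) z x - L j x) =O[atImInfty] absq := by
  classical
  obtain ⟨n, hn, hA⟩ := exists_period Γ
  have hfin : Finite (X Γ) := Subgroup.finite_quotient_of_finiteIndex
  have hexG : ∀ (K : ℤ) (G : ℍ → ℂ), G ∈ MF Γ K →
      ∃ L : V Γ, ∀ x, (fun z => tw Γ n (vec Γ K G) z x - L x) =O[atImInfty] absq :=
    fun K G hG => exists_tw_limit hn hA (vec_vadd hG.2.1) (fun x => conj_mdiff hG.1 x)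
      (fun x => conj_mem_bdd hG x)
  choose L hL using fun j => hexG (B.wt j) (B.F j) (B.mem j)
  refine ⟨n, hn, hA, L, ?_, hL⟩
  rw [linearIndependent_iff']
  intro s c hc i hi
  -- the weight `K`
  set K : ℤ := 4 + 2 * ∑ j ∈ s, |B.wt j| with hKdef
  have hK4 : ∀ j ∈ s, 4 ≤ K - B.wt j := by
    intro j hj
    have h1 : |B.wt j| ≤ ∑ j ∈ s, |B.wt j| :=
      Finset.single_le_sum (f := fun j => |B.wt j|) (fun _ _ => abs_nonneg _) hj
    have h2 := le_abs_self (B.wt j)
    have h3 := abs_nonneg (B.wt j)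
    omega
  have hKev : ∀ j, Even (K - B.wt j) := by
    intro j
    refine Even.sub ?_ (wt_even' hneg B j)
    exact Even.add (by decide) (even_two_mul _)
  have hAex : ∀ j, ∃ Aj : ℍ → ℂ, j ∈ s → (Aj ∈ MF ⊤ (K - B.wt j) ∧ Tendsto Aj atImInfty (𝓝 1)) := by
    intro j
    by_cases hj : j ∈ s
    · obtain ⟨A, h1, h2⟩ := exists_MF_top_tendsto_one (hK4 j hj) (hKev j)
      exact ⟨A, fun _ => ⟨h1, h2⟩⟩
    · exact ⟨0, fun h => absurd h hj⟩
  choose Aj hAj using hAex
  set G : ℍ → ℂ := ∑ j ∈ s, c j • (Aj j * B.F j) with hG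
  have hGmem : G ∈ MF Γ K := by
    refine Submodule.sum_mem _ fun j hj => Submodule.smul_mem _ _ ?_
    exact MF_cast' (by ring) (MF_mul (MF_top_le (hAj j hj).1) (B.mem j))
  have hvec : vec Γ K G = fun z => ∑ j ∈ s, (c j * Aj j z) • vec Γ (B.wt j) (B.F j) z := by
    funext z x
    have h1 : conj K G x = ∑ j ∈ s, c j • (Aj j * conj (B.wt j) (B.F j) x) := by
      rw [hG]
      have : ∀ (t : Finset B.J), t ⊆ s → conj K (∑ j ∈ t, c j • (Aj j * B.F j)) x =
          ∑ j ∈ t, c j • (Aj j * conj (B.wt j) (B.F j) x) := by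
        intro t
        induction t using Finset.induction_on with
        | empty => intro _; simp [conj]
        | insert a t ha ih =>
          intro hts
          rw [Finset.sum_insert ha, Finset.sum_insert ha, conj_add, conj_smul,
            ih (fun y hy => hts (Finset.mem_insert_of_mem hy)),
            conj_top_mul (w := K - B.wt a) (l := B.wt a) (by ring) _
              (hAj a (hts (Finset.mem_insert_self a t))).1]
      exact this s (Finset.Subset.refl s)
    rw [vec_apply, h1]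
    simp [Finset.sum_apply, vec_apply, mul_assoc]
  -- the limit of `tw G` is `0`
  obtain ⟨LG, hLG⟩ := hexG K G hGmem
  have hLG0 : ∀ x, LG x = 0 := by
    intro x
    have h1 := tendsto_of_sub_isBigO_absq (hLG x)
    have h2 : Tendsto (fun z => tw Γ n (vec Γ K G) z x) atImInfty
        (𝓝 (∑ j ∈ s, (c j * 1) * L j x)) := by
      have h3 : (fun z => tw Γ n (vec Γ K G) z x) = fun z => ∑ j ∈ s,
          (c j * Aj j z) * tw Γ n (vec Γ (B.wt j) (B.F j)) z x := by
        funext z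
        rw [hvec, tw_sum_smul]
        simp [Finset.sum_apply]
      rw [h3]
      refine tendsto_finsetSum _ fun j hj => ?_
      exact ((hAj j hj).2.const_mul (c j)).mul (tendsto_of_sub_isBigO_absq (hL j x))
    have h4 : ∑ j ∈ s, (c j * 1) * L j x = 0 := by
      have := congrFun hc x
      simpa [Finset.sum_apply] using this
    rw [h4] at h2
    exact tendsto_nhds_unique h1 h2
  have htwG : ∀ x, (fun z => tw Γ n (vec Γ K G) z x) =O[atImInfty] absq := by
    intro x
    have := hLG x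
    simpa [hLG0 x] using this
  have hconjG : ∀ x : X Γ, conj K G x =O[atImInfty] absq :=
    fun x => isBigO_of_tw_isBigO hn hA htwG x
  obtain ⟨g, hg, hGg⟩ := exists_eq_Δ_mul hGmem hconjG
  obtain ⟨b, hb, hgb⟩ := B.gen (K - 12) g hg
  -- the relation
  let a1 : B.J →₀ (ℍ → ℂ) := Finsupp.onFinset s (fun j => if j ∈ s then c j • Aj j else 0)
    (fun j hj => by by_contra h; simp [h] at hj)
  let a2 : B.J →₀ (ℍ → ℂ) := b.mapRange (fun r => Δ * r) (mul_zero _)
  have ha : a1 - a2 = 0 := by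
    refine B.indep K (a1 - a2) (fun j => ?_) ?_
    · rw [Finsupp.sub_apply]
      refine sub_mem ?_ ?_
      · simp only [a1, Finsupp.onFinset_apply]
        split_ifs with hj
        · exact Submodule.smul_mem _ _ (hAj j hj).1
        · exact zero_mem _
      · simp only [a2, Finsupp.mapRange_apply]
        exact MF_cast' (by ring) (MF_mul (CF_le_MF Δ_mem) (hb j))
    · rw [Finsupp.sum_sub_index (fun _ _ _ => sub_mul _ _ _)]
      have h1 : a1.sum (fun j r => r * B.F j) = G := by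
        rw [Finsupp.onFinset_sum _ (fun _ => zero_mul _), hG]
        refine Finset.sum_congr rfl fun j hj => ?_
        rw [if_pos hj, smul_mul_assoc]
      have h2 : a2.sum (fun j r => r * B.F j) = Δ * g := by
        rw [Finsupp.sum_mapRange_index (fun _ => zero_mul _), hgb, Finsupp.mul_sum]
        simp only [mul_assoc]
      rw [h1, h2, hGg, sub_self]
  have hai : c i • Aj i = Δ * b i := by
    have := congrArg (fun a => a i) ha
    simp only [Finsupp.sub_apply, a1, a2, Finsupp.onFinset_apply, Finsupp.mapRange_apply, if_pos hi,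
      Finsupp.zero_apply] at this
    exact sub_eq_zero.mp this
  obtain ⟨β, hβ⟩ := MF_top_tendsto (hb i)
  have h1 : Tendsto (c i • Aj i) atImInfty (𝓝 (c i • 1)) := (hAj i hi).2.const_smul (c i)
  have h2 : Tendsto (Δ * b i) atImInfty (𝓝 (0 * β)) := Δ_tendsto_zero.mul hβ
  rw [hai] at h1
  have := tendsto_nhds_unique h1 h2
  simpa using this

lemma Δ_mul_exp_tendsto {n r : ℕ} (hr : r < n) :
    Tendsto (fun z : ℍ => Δ z * Complex.exp (-(2 * Real.pi * Complex.I * r * z / n)))
      atImInfty (𝓝 0) := by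
  have hn' : (0 : ℝ) < n := Nat.cast_pos.mpr (by omega)
  have h2 : (fun z : ℍ => Complex.exp (-(2 * Real.pi * Complex.I * r * z / n))) =O[atImInfty]
      fun z : ℍ => Real.exp (2 * Real.pi * r / n * z.im) := by
    refine IsBigO.of_norm_le fun z => ?_
    have : Complex.exp (-(2 * Real.pi * Complex.I * r * z / n)) =
        Complex.exp ((-(2 * Real.pi * r / n) : ℝ) * Complex.I * z) := by
      congr 1
      push_cast
      ring
    rw [this, norm_exp_mul_I, neg_neg]
  refine (Δ_isBigO_absq.mul h2).trans_tendsto ?_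
  have h3 : Tendsto (fun y : ℝ => Real.exp (-(2 * Real.pi * (1 - r / n)) * y)) atTop (𝓝 0) := by
    refine Real.tendsto_exp_atBot.comp ?_
    refine tendsto_id.const_mul_atTop_of_neg ?_
    have h4 : (r : ℝ) / n < 1 := by
      rw [div_lt_one hn']; exact_mod_cast hr
    have : 0 < 2 * Real.pi * (1 - r / n) := by
      have := Real.pi_pos
      have : 0 < 1 - (r : ℝ) / n := by linarith
      positivity
    linarith
  refine (h3.comp tendsto_comap).congr fun z => ?_
  simp only [Function.comp_apply, absq]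
  rw [← Real.exp_add]
  congr 1
  ring


end CuspAux

open CuspAux


/-- `#J ≤ μ`. -/
theorem HBasis.finite_card_le [Γ.FiniteIndex] (hneg : (-1 : SL(2, ℤ)) ∈ Γ) (B : HBasis Γ) :
    Finite B.J ∧ Nat.card B.J ≤ Γ.index := by
  classical
  obtain ⟨n, hn, hA, L, hLI, -⟩ := exists_lam hneg B
  have hfin : Finite (X Γ) := Subgroup.finite_quotient_of_finiteIndex
  have := Fintype.ofFinite (X Γ)
  have hJ : Finite B.J := hLI.finite
  refine ⟨hJ, ?_⟩
  have := Fintype.ofFinite B.J
  have h := hLI.fintype_card_le_finrank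
  rw [Module.finrank_fintype_fun_eq_card] at h
  rw [Nat.card_eq_fintype_card, Subgroup.index_eq_card, Nat.card_eq_fintype_card]
  exact h

/-- decay of the dual family at `i∞`. -/
theorem HBasis.dual_decay [Γ.FiniteIndex] (hneg : (-1 : SL(2, ℤ)) ∈ Γ) (B : HBasis Γ)
    [Fintype B.J] [DecidableEq B.J] [Fintype (X Γ)] (hcard : Fintype.card B.J = Fintype.card (X Γ))
    (H : B.J → X Γ → ℍ → ℂ)
    (hH : ∀ z j j', ∑ x, H j x z * conj (B.wt j') (B.F j') x z = if j = j' then 1 else 0) :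
    ∀ j x, Tendsto (fun z => Δ z * H j x z) atImInfty (𝓝 0) := by
  classical
  intro j₀ x
  have hne : Nonempty B.J := ⟨j₀⟩
  obtain ⟨n, hn, hA, L, hLI, hL⟩ := exists_lam hneg B
  have hcard' : Fintype.card B.J = Module.finrank ℂ (V Γ) := by
    rw [Module.finrank_fintype_fun_eq_card, hcard]
  let b : Module.Basis B.J ℂ (V Γ) := basisOfLinearIndependentOfCardEqFinrank hLI hcard'
  have hb : ∀ j, b j = L j := fun j => by simp [b]
  let et : B.J → ℍ → (V Γ →ₗ[ℂ] ℂ) := fun j z => ∑ x, H j x z • LinearMap.proj x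
  have het : ∀ j z v, et j z v = ∑ x, H j x z * v x := by
    intro j z v
    simp [et, LinearMap.sum_apply]
  let tF : B.J → ℍ → V Γ := fun j z => tw Γ n (vec Γ (B.wt j) (B.F j)) z
  let C : ℍ → Matrix B.J B.J ℂ := fun z => Matrix.of fun i j' => b.repr (tF j' z) i
  let D : ℍ → Matrix B.J B.J ℂ :=
    fun z => Matrix.of fun j i => et j z (Pm (rho Γ T) n (z : ℂ) (L i))
  have hDC : ∀ z, D z * C z = 1 := by
    intro z
    ext j j'
    rw [Matrix.mul_apply]
    simp only [D, C, Matrix.of_apply]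
    have h1 : ∑ i, et j z (Pm (rho Γ T) n (z : ℂ) (L i)) * b.repr (tF j' z) i =
        et j z (Pm (rho Γ T) n (z : ℂ) (∑ i, b.repr (tF j' z) i • b i)) := by
      simp only [map_sum, map_smul, smul_eq_mul, hb]
      exact Finset.sum_congr rfl fun i _ => mul_comm _ _
    rw [h1, b.sum_repr, Pm_tw hn hA, het]
    simp only [vec_apply]
    rw [hH, Matrix.one_apply]
  have htF : ∀ j, Tendsto (tF j) atImInfty (𝓝 (L j)) := fun j =>
    tendsto_pi_nhds.mpr fun x => tendsto_of_sub_isBigO_absq (hL j x)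
  have hC : Tendsto C atImInfty (𝓝 1) := by
    refine tendsto_pi_nhds.mpr fun i => tendsto_pi_nhds.mpr fun j' => ?_
    have h1 : Continuous (b.coord i) := LinearMap.continuous_of_finiteDimensional _
    have h2 := (h1.tendsto (L j')).comp (htF j')
    have h3 : b.coord i (L j') = (1 : Matrix B.J B.J ℂ) i j' := by
      rw [← hb, Module.Basis.coord_apply, Module.Basis.repr_self, Matrix.one_apply,
        Finsupp.single_apply]
      simp [eq_comm]
    rw [h3] at h2
    exact h2
  have hD : Tendsto D atImInfty (𝓝 1) := by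
    have h1 : ContinuousAt Inv.inv (1 : Matrix B.J B.J ℂ) := by
      apply continuousAt_matrix_inv
      rw [Matrix.det_one]
      exact NormedRing.inverse_continuousAt (1 : ℂˣ)
    have h2 := h1.tendsto.comp hC
    rw [inv_one] at h2
    refine h2.congr fun z => ?_
    exact Matrix.inv_eq_left_inv (hDC z)
  have hHform : ∀ z : ℍ, H j₀ x z =
      ∑ i, D z j₀ i * b.repr (Qm (rho Γ T) n (z : ℂ) (Pi.single x 1)) i := by
    intro z
    have h1 : H j₀ x z = et j₀ z (Pi.single x 1) := by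
      rw [het]
      simp [Pi.single_apply]
    have h2 : (Pi.single x 1 : V Γ) =
        Pm (rho Γ T) n (z : ℂ) (∑ i, b.repr (Qm (rho Γ T) n (z : ℂ) (Pi.single x 1)) i • b i) := by
      rw [b.sum_repr, ← Module.End.mul_apply, Pm_mul_Qm hn hA, Module.End.one_apply]
    rw [h1]
    conv_lhs => rw [h2]
    simp only [map_sum, map_smul, smul_eq_mul, hb, D, Matrix.of_apply]
    exact Finset.sum_congr rfl fun i _ => mul_comm _ _
  have hQ : ∀ (z : ℍ) (i : B.J), b.repr (Qm (rho Γ T) n (z : ℂ) (Pi.single x 1)) i =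
      ∑ r ∈ Finset.range n, Complex.exp (-(2 * Real.pi * Complex.I * r * z / n)) *
        b.repr (pr (rho Γ T) n r (Pi.single x 1)) i := by
    intro z i
    simp [Qm, LinearMap.sum_apply, map_sum, Finsupp.finsetSum_apply]
  have hfin : (fun z => Δ z * H j₀ x z) = fun z => ∑ i, D z j₀ i * ∑ r ∈ Finset.range n,
      (Δ z * Complex.exp (-(2 * Real.pi * Complex.I * r * z / n))) *
        b.repr (pr (rho Γ T) n r (Pi.single x 1)) i := by
    funext z
    rw [hHform, Finset.mul_sum]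
    refine Finset.sum_congr rfl fun i _ => ?_
    rw [hQ, mul_left_comm, Finset.mul_sum]
    simp only [mul_assoc]
  rw [hfin]
  have h0 : (0 : ℂ) = ∑ i : B.J, (1 : Matrix B.J B.J ℂ) j₀ i * ∑ r ∈ Finset.range n,
      0 * b.repr (pr (rho Γ T) n r (Pi.single x 1)) i := by simp
  rw [h0]
  refine tendsto_finsetSum _ fun i _ => ?_
  refine Tendsto.mul ?_ ?_
  · exact (tendsto_pi_nhds.mp (tendsto_pi_nhds.mp hD j₀) i)
  · refine tendsto_finsetSum _ fun r hr => ?_
    exact (Δ_mul_exp_tendsto (Finset.mem_range.mp hr)).mul_const _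


end Fermat.Agent.ES
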