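/-
ES-P6 : evaluation is onto.
-/
import Fermat.Agent.ES.Defs2

set_option autoImplicit false

namespace Fermat.Agent.ES

open UpperHalfPlane ModularForm Matrix.SpecialLinearGroup Filter Topology ModularGroup
  CongruenceSubgroup
open scoped MatrixGroups Manifold

variable {Γ : Subgroup SL(2, ℤ)} {k : ℤ}

/-- A subalgebra of `X → ℂ` (`X` finite) separating points is everything. -/
theorem subalgebra_eq_top_of_separates {ι : Type*} [Finite ι] (A : Subalgebra ℂ (ι → ℂ))
    (h : ∀ x x' : ι, x ≠ x' → ∃ v ∈ A, v x ≠ v x') : A = ⊤ := by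
  classical
  cases nonempty_fintype ι
  have hδ : ∀ x : ι, Pi.single x (1 : ℂ) ∈ A := by
    intro x
    choose! v hvA hv using h x
    have hprod : (∏ x' ∈ Finset.univ.erase x,
        ((v x' x - v x' x')⁻¹ • (v x' - algebraMap ℂ (ι → ℂ) (v x' x')))) ∈ A := by
      refine Subalgebra.prod_mem _ fun x' hx' => ?_
      have hne : x ≠ x' := (Finset.ne_of_mem_erase hx').symm
      exact A.smul_mem (A.sub_mem (hvA x' hne) (A.algebraMap_mem _)) _
    convert hprod using 1
    ext y
    rw [Finset.prod_apply]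
    by_cases hy : y = x
    · subst hy
      rw [Pi.single_eq_same]
      symm
      refine Finset.prod_eq_one fun x' hx' => ?_
      have hne : y ≠ x' := (Finset.ne_of_mem_erase hx').symm
      have : v x' y - v x' x' ≠ 0 := sub_ne_zero.mpr (hv x' hne)
      simp [Pi.smul_apply, Pi.sub_apply, Pi.algebraMap_apply, inv_mul_cancel₀ this]
    · rw [Pi.single_eq_of_ne hy]
      symm
      refine Finset.prod_eq_zero (Finset.mem_erase.mpr ⟨hy, Finset.mem_univ y⟩) ?_
      simp [Pi.smul_apply, Pi.sub_apply, Pi.algebraMap_apply]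
  rw [eq_top_iff]
  intro w _
  have : w = ∑ x, w x • Pi.single x (1 : ℂ) := by
    ext y
    simp [Finset.sum_apply, Pi.single_apply]
  rw [this]
  exact A.sum_mem fun x _ => A.smul_mem (hδ x) _

/-- The multiplicative monoid of all values `vec Γ k f z₀`. -/
def vecMonoid (Γ : Subgroup SL(2, ℤ)) (z₀ : ℍ) : Submonoid (V Γ) where
  carrier := {v | ∃ k : ℤ, ∃ f ∈ MF Γ k, v = vec Γ k f z₀}
  one_mem' := by
    refine ⟨0, 1, one_mem_MF, ?_⟩
    ext x
    have h : ∀ g : SL(2, ℤ), (1 : ℍ → ℂ) ∣[(0 : ℤ)] g = 1 := by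
      intro g; ext z; simp [ModularForm.SL_slash_apply]
    simp [vec_apply, conj, h]
  mul_mem' := by
    rintro _ _ ⟨k, f, hf, rfl⟩ ⟨l, g, hg, rfl⟩
    refine ⟨k + l, f * g, MF_mul hf hg, ?_⟩
    ext x
    simp [vec_apply, conj_mul]

theorem vec_mem_span (B : HBasis Γ) (z₀ : ℍ) {K : ℤ} {G : ℍ → ℂ} (hG : G ∈ MF Γ K) :
    vec Γ K G z₀ ∈ Submodule.span ℂ (Set.range fun j => vec Γ (B.wt j) (B.F j) z₀) := by
  classical
  obtain ⟨a, ha, rfl⟩ := B.gen K G hG
  have key : vec Γ K (a.sum fun j r => r * B.F j) z₀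
      = a.sum fun j r => r z₀ • vec Γ (B.wt j) (B.F j) z₀ := by
    ext x
    have hsum : ∀ (s : Finset B.J) (φ : B.J → ℍ → ℂ),
        conj K (∑ j ∈ s, φ j) x = ∑ j ∈ s, conj K (φ j) x := by
      intro s φ
      induction s using Finset.induction_on with
      | empty => simp [conj]
      | insert j s hj ih => rw [Finset.sum_insert hj, Finset.sum_insert hj, conj_add, ih]
    rw [vec_apply, Finsupp.sum, hsum, Finsupp.sum, Finset.sum_apply, Finset.sum_apply]
    refine Finset.sum_congr rfl fun j _ => ?_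
    have hK : K = (K - B.wt j) + B.wt j := by ring
    have h1 : conj K (a j * B.F j) x = conj (K - B.wt j) (a j) x * conj (B.wt j) (B.F j) x := by
      conv_lhs => rw [hK]
      exact conj_mul _ _ _
    rw [h1, conj_of_mem_top (ha j)]
    simp [vec_apply]
  rw [key]
  exact Submodule.sum_mem _ fun j _ =>
    Submodule.smul_mem _ _ (Submodule.subset_span ⟨j, rfl⟩)

theorem span_vec_eq_top [Γ.FiniteIndex] (hsep : Separates Γ) (B : HBasis Γ) (z₀ : ℍ) :
    Submodule.span ℂ (Set.range fun j => vec Γ (B.wt j) (B.F j) z₀) = ⊤ := by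
  have hfin : Finite (X Γ) := Subgroup.finite_quotient_of_finiteIndex
  have htop : Algebra.adjoin ℂ (vecMonoid Γ z₀ : Set (V Γ)) = ⊤ := by
    refine subalgebra_eq_top_of_separates _ fun x x' hx => ?_
    obtain ⟨k, f, hf, hne⟩ := hsep z₀ x x' hx
    exact ⟨vec Γ k f z₀, Algebra.subset_adjoin ⟨k, f, hf, rfl⟩, hne⟩
  rw [eq_top_iff]
  intro w _
  have hw : w ∈ Subalgebra.toSubmodule (Algebra.adjoin ℂ (vecMonoid Γ z₀ : Set (V Γ))) := by
    rw [htop]; trivial
  rw [Algebra.adjoin_eq_span, Submonoid.closure_eq] at hw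
  refine Submodule.span_le.mpr ?_ hw
  rintro _ ⟨k, f, hf, rfl⟩
  exact vec_mem_span B z₀ hf

end Fermat.Agent.ES
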