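/-
ES-P8 : duality.  The values of a homogeneous basis form a frame; the dual frame gives cusp forms
of weight `12 - wt j`.
-/
import Fermat.Agent.ES.Evaluation
import Fermat.Agent.ES.Cusp

set_option autoImplicit false

namespace Fermat.Agent.ES

open UpperHalfPlane ModularForm Matrix.SpecialLinearGroup Filter Topology ModularGroup CongruenceSubgroup
open scoped MatrixGroups Manifold

variable {Γ : Subgroup SL(2, ℤ)} {k : ℤ}

namespace Duality

lemma finrank_V [Γ.FiniteIndex] : Module.finrank ℂ (V Γ) = Γ.index := by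
  have : Finite (X Γ) := Subgroup.finite_quotient_of_finiteIndex
  let _ := Fintype.ofFinite (X Γ)
  rw [Module.finrank_fintype_fun_eq_card, ← Nat.card_eq_fintype_card]
  rfl

lemma mdiff_det {n : Type} [Fintype n] [DecidableEq n] (A : n → n → ℍ → ℂ)
    (hA : ∀ i j, MDiff (A i j)) :
    MDiff (fun z => Matrix.det (Matrix.of fun i j => A i j z)) := by
  have : (fun z => Matrix.det (Matrix.of fun i j => A i j z)) =
      ∑ σ : Equiv.Perm n, (fun _ => ((Equiv.Perm.sign σ : ℤ) : ℂ)) * ∏ i, A (σ i) i := by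
    ext z
    simp [Matrix.det_apply', Finset.sum_apply, Finset.prod_apply]
  rw [this]
  exact MDifferentiable.sum fun σ _ =>
    mdifferentiable_const.mul (MDifferentiable.prod fun i _ => hA _ _)

lemma mdiff_adjugate {n : Type} [Fintype n] [DecidableEq n] (A : n → n → ℍ → ℂ)
    (hA : ∀ i j, MDiff (A i j)) (i j : n) :
    MDiff (fun z => Matrix.adjugate (Matrix.of fun i j => A i j z) i j) := by
  have h := mdiff_det (fun a b => if a = j then (fun _ => (Pi.single i 1 : n → ℂ) b) else A a b)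
    (fun a b => by
      by_cases hab : a = j
      · simp only [hab, if_true]; exact mdifferentiable_const
      · simp only [hab, if_false]; exact hA a b)
  convert h using 2 with z
  rw [Matrix.adjugate_apply]
  congr 1
  ext a b
  by_cases hab : a = j
  · subst hab; simp
  · simp [hab]

lemma mdiff_inv {n : Type} [Fintype n] [DecidableEq n] (A : n → n → ℍ → ℂ)
    (hA : ∀ i j, MDiff (A i j)) (hdet : ∀ z, Matrix.det (Matrix.of fun i j => A i j z) ≠ 0)
    (i j : n) :
    MDiff (fun z => (Matrix.of fun i j => A i j z)⁻¹ i j) := by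
  have h := ((mdiff_det A hA).inv hdet).mul (mdiff_adjugate A hA i j)
  have he : (fun z => (Matrix.of fun i j => A i j z)⁻¹ i j) =
      ((fun z => (Matrix.of fun i j => A i j z).det)⁻¹ *
        fun z => (Matrix.of fun i j => A i j z).adjugate i j) := by
    ext z
    simp [Matrix.inv_def, Ring.inverse_eq_inv']
  rw [he]
  exact h

lemma Δ_slash (g : SL(2, ℤ)) : Δ ∣[(12 : ℤ)] g = Δ :=
  (coe_mem_CF_top CuspForm.discriminant).2.1 g trivial

lemma Δ_mdiff : MDiff Δ := (coe_mem_CF_top CuspForm.discriminant).1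

lemma Δ_ne (z : ℍ) : Δ z ≠ 0 := discriminant_ne_zero z

lemma smul_x₀_of_mem {γ : SL(2, ℤ)} (hγ : γ ∈ Γ) : γ⁻¹ • x₀ Γ = x₀ Γ := by
  have h : γ⁻¹ • x₀ Γ = ((γ⁻¹ * 1 : SL(2, ℤ)) : X Γ) := rfl
  rw [h, x₀, QuotientGroup.eq]
  simpa using hγ

lemma exists_inv_smul_x₀ (x : X Γ) : ∃ g : SL(2, ℤ), g⁻¹ • x₀ Γ = x := by
  induction x using QuotientGroup.induction_on with
  | H h =>
    refine ⟨h⁻¹, ?_⟩
    have : (h⁻¹)⁻¹ • x₀ Γ = (((h⁻¹)⁻¹ * 1 : SL(2, ℤ)) : X Γ) := rfl
    rw [this]; simp

/-- conjugates at `g • x`, `g • z`. -/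
lemma conj_smul_smul {f : ℍ → ℂ} (hf : ∀ γ ∈ Γ, f ∣[k] γ = f) (g : SL(2, ℤ)) (x : X Γ) (z : ℍ) :
    conj k f (g • x) (g • z) = denom g z ^ k * conj k f x z := by
  have h := congrFun (conj_slash hf g (g • x)) z
  rw [ModularForm.SL_slash_apply, inv_smul_smul] at h
  rw [← h, mul_comm, mul_assoc, ← zpow_add₀ (denom_ne_zero _ _)]
  simp

/-- a vector is determined by its pairings with a spanning family -/
lemma eq_of_forall_sum_eq [Fintype (X Γ)] {ι : Type*} (v : ι → V Γ)
    (hv : Submodule.span ℂ (Set.range v) = ⊤) (K K' : X Γ → ℂ)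
    (h : ∀ i, ∑ x, K x * v i x = ∑ x, K' x * v i x) : K = K' := by
  classical
  let φ : (X Γ → ℂ) → V Γ →ₗ[ℂ] ℂ := fun K => ∑ x, K x • LinearMap.proj x
  have hφ : ∀ K w, φ K w = ∑ x, K x * w x := by
    intro K w
    simp [φ, LinearMap.sum_apply]
  have heq : φ K = φ K' := by
    refine LinearMap.ext_on hv ?_
    rintro _ ⟨i, rfl⟩
    rw [hφ, hφ, h i]
  ext x
  have := congrArg (fun ψ : V Γ →ₗ[ℂ] ℂ => ψ (Pi.single x 1)) heq
  simpa [hφ, Pi.single_apply] using this

end Duality

open Duality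

theorem HBasis.isFrame [Γ.FiniteIndex] (hneg : (-1 : SL(2, ℤ)) ∈ Γ) (hsep : Separates Γ)
    (B : HBasis Γ) : B.IsFrame ∧ Finite B.J ∧ Nat.card B.J = Γ.index := by
  obtain ⟨hfin, hle⟩ := B.finite_card_le hneg
  let _ := Fintype.ofFinite B.J
  have hspan := fun z => span_vec_eq_top hsep B z
  have hge : Γ.index ≤ Nat.card B.J := by
    have h := finrank_range_le_card (R := ℂ) (fun j => vec Γ (B.wt j) (B.F j) I)
    rw [Set.finrank, hspan I, finrank_top, finrank_V] at h
    rwa [Nat.card_eq_fintype_card]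
  have hcard : Nat.card B.J = Γ.index := le_antisymm hle hge
  refine ⟨fun z => ⟨?_, hspan z⟩, hfin, hcard⟩
  exact linearIndependent_of_top_le_span_of_card_eq_finrank (hspan z).ge
    (by rw [finrank_V, ← hcard, Nat.card_eq_fintype_card])

/-- All properties of the dual family at once. -/
theorem Duality.exists_dual_aux [Γ.FiniteIndex] (hneg : (-1 : SL(2, ℤ)) ∈ Γ) (B : HBasis Γ)
    (hB : B.IsFrame) [Fintype (X Γ)] [DecidableEq B.J] :
    ∃ G : B.J → ℍ → ℂ, (∀ j, G j ∈ CF Γ (12 - B.wt j)) ∧ (∀ j, G j ≠ 0) ∧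
      (∀ w, LinearIndependent ℂ (fun j : {j // B.wt j = w} => G j)) ∧
      ∀ (j j' : B.J) (z : ℍ),
        ∑ x : X Γ, conj (12 - B.wt j) (G j) x z * conj (B.wt j') (B.F j') x z
          = if j = j' then Δ z else 0 := by
  classical
  let b0 : Module.Basis B.J ℂ (V Γ) := Module.Basis.mk (hB I).1 (hB I).2.ge
  have hJfin : Finite B.J := Module.Finite.finite_basis b0
  let _ := Fintype.ofFinite B.J
  have hcard : Fintype.card B.J = Fintype.card (X Γ) := by
    have := Module.finrank_eq_card_basis b0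
    rw [Module.finrank_fintype_fun_eq_card] at this
    exact this.symm
  let e : B.J ≃ X Γ := Fintype.equivOfCardEq hcard
  let c : B.J → X Γ → ℍ → ℂ := fun j x => conj (B.wt j) (B.F j) x
  let A : B.J → B.J → ℍ → ℂ := fun j i => c j (e i)
  have hA : ∀ j i, MDiff (A j i) := fun j i => conj_mdiff (B.mem j).1 _
  have hunit : ∀ z, IsUnit (Matrix.of fun j i => A j i z) := by
    intro z
    rw [← Matrix.linearIndependent_rows_iff_isUnit]
    have hli := (hB z).1
    have h2 := hli.map' (LinearEquiv.funCongrLeft ℂ ℂ e).toLinearMap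
      (LinearEquiv.ker _)
    exact h2
  have hdet : ∀ z, Matrix.det (Matrix.of fun j i => A j i z) ≠ 0 := fun z =>
    ((Matrix.isUnit_iff_isUnit_det _).mp (hunit z)).ne_zero
  let H : B.J → X Γ → ℍ → ℂ := fun j x z => (Matrix.of fun j i => A j i z)⁻¹ (e.symm x) j
  have hHmd : ∀ j x, MDiff (H j x) := fun j x => mdiff_inv A hA hdet _ _
  have hH : ∀ z j j', ∑ x, H j x z * c j' x z = if j = j' then 1 else 0 := by
    intro z j j'
    have h1 : (Matrix.of fun j i => A j i z) * (Matrix.of fun j i => A j i z)⁻¹ = 1 :=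
      Matrix.mul_nonsing_inv _ ((Matrix.isUnit_iff_isUnit_det _).mp (hunit z))
    have h2 := congrFun (congrFun h1 j') j
    rw [Matrix.mul_apply, Matrix.one_apply] at h2
    rw [← Equiv.sum_comp e]
    simp only [H, Equiv.symm_apply_apply]
    rw [show (if j = j' then (1 : ℂ) else 0) = if j' = j then 1 else 0 by
      simp only [eq_comm]]
    rw [← h2]
    refine Finset.sum_congr rfl fun i _ => ?_
    simp only [Matrix.of_apply, A]
    ring
  have hdecay := B.dual_decay hneg hcard H hH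
  -- transformation behaviour
  have htrans : ∀ j (g : SL(2, ℤ)) x z,
      H j (g • x) (g • z) * denom g z ^ (B.wt j) = H j x z := by
    intro j g x z
    have hd : denom g z ≠ 0 := denom_ne_zero _ _
    have := eq_of_forall_sum_eq (fun j' => vec Γ (B.wt j') (B.F j') z) (hB z).2
      (fun x => H j (g • x) (g • z) * denom g z ^ (B.wt j)) (fun x => H j x z) (by
        intro j'
        simp only [vec_apply]
        rw [hH z j j']
        have h3 := hH (g • z) j j'
        rw [← Equiv.sum_comp (MulAction.toPerm g)] at h3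
        simp only [MulAction.toPerm_apply, c] at h3
        simp only [conj_smul_smul (B.mem j').2.1] at h3
        by_cases hjj : j = j'
        · subst hjj
          rw [if_pos rfl] at h3 ⊢
          rw [← h3]
          refine Finset.sum_congr rfl fun x _ => ?_
          ring
        · rw [if_neg hjj] at h3 ⊢
          have h4 : ∑ x, H j (g • x) (g • z) * denom g z ^ B.wt j * conj (B.wt j') (B.F j') x z =
              denom g z ^ B.wt j * (denom g z ^ B.wt j')⁻¹ *
                ∑ x, H j (g • x) (g • z) *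
                  (denom g z ^ B.wt j' * conj (B.wt j') (B.F j') x z) := by
            rw [Finset.mul_sum]
            refine Finset.sum_congr rfl fun x _ => ?_
            have : denom g z ^ B.wt j' ≠ 0 := zpow_ne_zero _ hd
            field_simp
          rw [h4, h3, mul_zero])
    exact congrFun this x
  have hslash : ∀ j x (g : SL(2, ℤ)), H j x ∣[-(B.wt j)] g = H j (g⁻¹ • x) := by
    intro j x g
    ext z
    rw [ModularForm.SL_slash_apply, neg_neg, ← htrans j g (g⁻¹ • x) z, smul_inv_smul]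
  have hGslash : ∀ j (g : SL(2, ℤ)),
      (Δ * H j (x₀ Γ)) ∣[12 - B.wt j] g = Δ * H j (g⁻¹ • x₀ Γ) := by
    intro j g
    rw [sub_eq_add_neg, ModularForm.mul_slash_SL2, Δ_slash, hslash]
  have hzero_of : ∀ (Φ : X Γ → ℍ → ℂ) (w : ℤ), (∀ x (g : SL(2, ℤ)), Φ x ∣[w] g = Φ (g⁻¹ • x)) →
      Δ * Φ (x₀ Γ) = 0 → ∀ x, Φ x = 0 := by
    intro Φ w hΦ h0 x
    have h1 : Φ (x₀ Γ) = 0 := by
      ext z
      have := congrFun h0 z
      simpa [Δ_ne z] using this
    obtain ⟨g, rfl⟩ := exists_inv_smul_x₀ x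
    rw [← hΦ, h1, SlashAction.zero_slash]
  refine ⟨fun j => Δ * H j (x₀ Γ), fun j => ⟨Δ_mdiff.mul (hHmd j _), fun γ hγ => ?_, fun g => ?_⟩,
    fun j h0 => ?_, fun w => ?_, fun j j' z => ?_⟩
  · rw [hGslash, smul_x₀_of_mem hγ]
  · rw [hGslash]
    exact hdecay j _
  · have h1 := hzero_of (H j) _ (hslash j) h0
    have h2 := hH I j j
    simp [h1] at h2
  · rw [Fintype.linearIndependent_iff]
    intro a ha i₀
    have h1 := hzero_of (fun x => ∑ i : {j // B.wt j = w}, a i • H i x) (-w) (by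
      intro x g
      rw [SlashAction.sum_slash]
      refine Finset.sum_congr rfl fun i _ => ?_
      rw [ModularForm.SL_smul_slash, ← hslash, i.2]) (by
      rw [← ha, Finset.mul_sum]
      refine Finset.sum_congr rfl fun i _ => ?_
      rw [mul_smul_comm])
    have h2 : ∑ x, (∑ i : {j // B.wt j = w}, a i • H i x) I * c i₀ x I = 0 := by
      refine Finset.sum_eq_zero fun x _ => ?_
      rw [h1 x]
      simp
    have h3 : ∑ x, (∑ i : {j // B.wt j = w}, a i • H i x) I * c i₀ x I =
        ∑ i : {j // B.wt j = w}, a i * ∑ x, H i x I * c i₀ x I := by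
      simp only [Finset.sum_apply, Pi.smul_apply, smul_eq_mul, Finset.sum_mul, Finset.mul_sum]
      rw [Finset.sum_comm]
      refine Finset.sum_congr rfl fun i _ => Finset.sum_congr rfl fun x _ => ?_
      ring
    rw [h3] at h2
    simp only [hH, Subtype.coe_inj, mul_ite, mul_one, mul_zero] at h2
    simpa using h2
  · have h1 : ∀ x : X Γ, conj (12 - B.wt j) (Δ * H j (x₀ Γ)) x = Δ * H j x := by
      intro x
      rw [conj, hGslash, inv_inv]
      congr 2
      have h : x.out • x₀ Γ = ((x.out * 1 : SL(2, ℤ)) : X Γ) := rfl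
      rw [h, mul_one]
      exact QuotientGroup.out_eq' x
    simp only [h1, Pi.mul_apply]
    have h2 := hH z j j'
    have h3 : ∑ x, Δ z * H j x z * conj (B.wt j') (B.F j') x z =
        Δ z * ∑ x, H j x z * c j' x z := by
      rw [Finset.mul_sum]
      exact Finset.sum_congr rfl fun x _ => by simp only [c]; ring
    rw [h3, h2]
    split_ifs <;> simp

/-- **P8+** (strong form): the trace pairing of the dual family with the basis is `δ Δ`. -/
theorem HBasis.exists_dual_strong [Γ.FiniteIndex] (hneg : (-1 : SL(2, ℤ)) ∈ Γ) (B : HBasis Γ)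
    (hB : B.IsFrame) [Fintype (X Γ)] [DecidableEq B.J] :
    ∃ G : B.J → ℍ → ℂ, (∀ j, G j ∈ CF Γ (12 - B.wt j)) ∧
      ∀ (j j' : B.J) (z : ℍ),
        ∑ x : X Γ, conj (12 - B.wt j) (G j) x z * conj (B.wt j') (B.F j') x z
          = if j = j' then Δ z else 0 := by
  obtain ⟨G, h1, -, -, h4⟩ := Duality.exists_dual_aux hneg B hB
  exact ⟨G, h1, h4⟩

theorem HBasis.exists_dual [Γ.FiniteIndex] (hneg : (-1 : SL(2, ℤ)) ∈ Γ) (B : HBasis Γ)
    (hB : B.IsFrame) :
    ∃ G : B.J → ℍ → ℂ, (∀ j, G j ∈ CF Γ (12 - B.wt j)) ∧ (∀ j, G j ≠ 0) ∧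
      ∀ w, LinearIndependent ℂ (fun j : {j // B.wt j = w} => G j) := by
  classical
  have : Finite (X Γ) := Subgroup.finite_quotient_of_finiteIndex
  let _ := Fintype.ofFinite (X Γ)
  obtain ⟨G, h1, h2, h3, -⟩ := Duality.exists_dual_aux hneg B hB
  exact ⟨G, h1, h2, h3⟩

end Fermat.Agent.ES
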