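/-
ES-P9 : elliptic points.  The values of a frame at `i` and `ρ` are eigenbases of `rho S`, `rho (S*T)`.
-/
import Fermat.Agent.ES.Defs2

set_option autoImplicit false
set_option linter.unusedVariables false

namespace Fermat.Agent.ES

open UpperHalfPlane ModularForm Matrix.SpecialLinearGroup Filter Topology ModularGroup
  CongruenceSubgroup
open scoped MatrixGroups Manifold

variable {Γ : Subgroup SL(2, ℤ)} {k : ℤ}

/-- A basis of eigenvectors: the number of those with eigenvalue `1` is `dim ker (f - 1)`. -/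
theorem finrank_ker_sub_one_of_eigenbasis {J W : Type*} [AddCommGroup W] [Module ℂ W]
    [Finite J] (f : W →ₗ[ℂ] W) (v : J → W) (μ : J → ℂ) (hli : LinearIndependent ℂ v)
    (hsp : Submodule.span ℂ (Set.range v) = ⊤) (hf : ∀ j, f (v j) = μ j • v j) :
    Module.finrank ℂ (LinearMap.ker (f - 1)) = Nat.card {j // μ j = 1} := by
  classical
  have := Fintype.ofFinite J
  have hker : LinearMap.ker (f - 1) =
      Submodule.span ℂ (Set.range fun j : {j // μ j = 1} => v j) := by
    apply le_antisymm
    · intro x hx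
      let b := Module.Basis.mk hli hsp.ge
      have hb : ∀ j, b j = v j := fun j => by simp [b]
      have hx' : f x = x := by
        have := LinearMap.mem_ker.mp hx
        simpa [sub_eq_zero] using this
      have hsum : x = ∑ j, b.repr x j • v j := by
        conv_lhs => rw [← b.sum_repr x]
        simp [hb]
      have h0 : ∑ j, (b.repr x j * (μ j - 1)) • v j = 0 := by
        have h1 : f x = ∑ j, (b.repr x j * μ j) • v j := by
          conv_lhs => rw [hsum]
          simp [map_sum, hf, smul_smul]
        have h2 : ∑ j, (b.repr x j * (μ j - 1)) • v j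
            = ∑ j, (b.repr x j * μ j) • v j - ∑ j, b.repr x j • v j := by
          rw [← Finset.sum_sub_distrib]
          refine Finset.sum_congr rfl fun j _ => ?_
          rw [mul_sub, mul_one, sub_smul]
        rw [h2, ← h1, ← hsum, hx', sub_self]
      have hc := (Fintype.linearIndependent_iff.mp hli) _ h0
      rw [hsum]
      refine Submodule.sum_mem _ fun j _ => ?_
      by_cases hj : μ j = 1
      · exact Submodule.smul_mem _ _ (Submodule.subset_span ⟨⟨j, hj⟩, rfl⟩)
      · have : b.repr x j = 0 := by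
          rcases mul_eq_zero.mp (hc j) with h | h
          · exact h
          · exact absurd (sub_eq_zero.mp h) hj
        rw [this, zero_smul]
        exact Submodule.zero_mem _
    · rw [Submodule.span_le]
      rintro _ ⟨⟨j, hj⟩, rfl⟩
      simp [LinearMap.mem_ker, hf, hj]
  have hli' : LinearIndependent ℂ (fun j : {j // μ j = 1} => v j) :=
    hli.comp _ Subtype.val_injective
  rw [hker, finrank_span_eq_card hli', Nat.card_eq_fintype_card]

/-- General principle: at a fixed point `z` of `g` whose automorphy factor is a primitive `n`-th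
root of unity, the number of generators of weight divisible by `n` is `fixDim Γ g`. -/
theorem HBasis.card_dvd_of_fixed [Γ.FiniteIndex] (B : HBasis Γ) (hB : B.IsFrame)
    (g : SL(2, ℤ)) (z : ℍ) (hz : g • z = z) (n : ℕ) (hn : IsPrimitiveRoot (denom g z) n) :
    Nat.card {j // (n : ℤ) ∣ B.wt j} = fixDim Γ g := by
  have hli := (hB z).1
  have hsp := (hB z).2
  have : Finite (X Γ) := Subgroup.finite_quotient_of_finiteIndex
  have : Finite B.J := by
    have := hli.finite
    exact this
  have hd : denom g z ≠ 0 := denom_ne_zero _ _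
  have hf : ∀ j, rho Γ g (vec Γ (B.wt j) (B.F j) z)
      = ((denom g z) ^ (B.wt j))⁻¹ • vec Γ (B.wt j) (B.F j) z := by
    intro j
    have h := vec_smul (B.mem j).2.1 g z
    rw [hz] at h
    conv_rhs => rw [h]
    rw [smul_smul, inv_mul_cancel₀ (zpow_ne_zero _ hd), one_smul]
  rw [fixDim, finrank_ker_sub_one_of_eigenbasis (rho Γ g) _ _ hli hsp hf]
  refine Nat.card_congr (Equiv.subtypeEquivRight fun j => ?_)
  rw [inv_eq_one, hn.zpow_eq_one_iff_dvd]

theorem HBasis.card_four_dvd [Γ.FiniteIndex] (hneg : (-1 : SL(2, ℤ)) ∈ Γ) (B : HBasis Γ)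
    (hB : B.IsFrame) : Nat.card {j // (4 : ℤ) ∣ B.wt j} = fixDim Γ S := by
  have hz : S • I = I := by
    rw [ModularGroup.stabilizer_I]; simp
  have hn : IsPrimitiveRoot (denom S I) 4 := by
    rw [ModularGroup.denom_S]
    have h4 : ((I : ℍ) : ℂ) = Complex.I := rfl
    rw [h4]
    refine IsPrimitiveRoot.mk_of_lt _ (by norm_num) Complex.I_pow_four ?_
    intro l hl hl4
    interval_cases l
    · intro h
      have := congrArg Complex.im h
      simp at this
    · rw [Complex.I_sq]; norm_num
    · rw [pow_succ, Complex.I_sq]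
      intro h
      have := congrArg Complex.im h
      simp at this
  exact_mod_cast B.card_dvd_of_fixed hB S I hz 4 hn

theorem HBasis.card_six_dvd [Γ.FiniteIndex] (hneg : (-1 : SL(2, ℤ)) ∈ Γ) (B : HBasis Γ)
    (hB : B.IsFrame) : Nat.card {j // (6 : ℤ) ∣ B.wt j} = fixDim Γ (S * T) := by
  have hz : (S * T) • ρ = ρ := by
    rw [ModularGroup.stabilizer_ρ]; simp
  have hden : denom ((S * T : SL(2, ℤ)) : GL (Fin 2) ℝ) ρ = (ρ : ℂ) + 1 := by
    simp [denom, Matrix.mul_apply, Fin.sum_univ_two]
  have hn : IsPrimitiveRoot (denom ((S * T : SL(2, ℤ)) : GL (Fin 2) ℝ) ρ) 6 := by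
    rw [hden]
    have hsq : (ρ : ℂ) ^ 2 = -ρ - 1 := ρ_sq
    have him : ((ρ : ℂ)).im ≠ 0 := ρ.im_ne_zero
    have h2 : ((ρ : ℂ) + 1) ^ 2 = ρ := by linear_combination hsq
    have h3 : ((ρ : ℂ) + 1) ^ 3 = -1 := by linear_combination ((ρ : ℂ) + 2) * hsq
    have h4 : ((ρ : ℂ) + 1) ^ 4 = -ρ - 1 := by
      have : ((ρ : ℂ) + 1) ^ 4 = ((ρ : ℂ) + 1) ^ 3 * (ρ + 1) := by ring
      rw [this, h3]; ring
    have h5 : ((ρ : ℂ) + 1) ^ 5 = -ρ := by
      have : ((ρ : ℂ) + 1) ^ 5 = ((ρ : ℂ) + 1) ^ 3 * (ρ + 1) ^ 2 := by ring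
      rw [this, h3, h2]; ring
    have h6 : ((ρ : ℂ) + 1) ^ 6 = 1 := by
      have : ((ρ : ℂ) + 1) ^ 6 = (((ρ : ℂ) + 1) ^ 3) ^ 2 := by ring
      rw [this, h3]; ring
    refine IsPrimitiveRoot.mk_of_lt _ (by norm_num) h6 ?_
    intro l hl hl6
    interval_cases l
    · intro h
      have := congrArg Complex.im h
      simp at this
      exact him this
    · rw [h2]
      intro h
      have := congrArg Complex.im h
      simp at this
      exact him this
    · rw [h3]; norm_num
    · rw [h4]
      intro h
      have := congrArg Complex.im h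
      simp at this
      exact him this
    · rw [h5]
      intro h
      have := congrArg Complex.im h
      simp at this
      exact him this
  exact_mod_cast B.card_dvd_of_fixed hB (S * T) ρ hz 6 hn

end Fermat.Agent.ES
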