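import Mathlib

/-!
# ES-P2 : abstract graded freeness

A graded module `M` over a graded ring `R = ℂ[x, y]` (in the weak form `hRgen`) on which `x, y` is a
regular sequence has a homogeneous basis.
-/

set_option autoImplicit false

namespace Fermat.Agent.ES

namespace GradedFree

variable {𝔸 : Type} [CommRing 𝔸] [Algebra ℂ 𝔸]

/-- homogeneous coefficient vectors of degree `K` -/
def Hom {J : Type} (R : ℤ → Submodule ℂ 𝔸) (wt : J → ℤ) (K : ℤ) (a : J →₀ 𝔸) : Prop :=
  ∀ j, a j ∈ R (K - wt j)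

section Basic

variable {J : Type} {R M : ℤ → Submodule ℂ 𝔸} {wt : J → ℤ} {F : J → 𝔸}

lemma Hom.zero (K : ℤ) : Hom R wt K (0 : J →₀ 𝔸) := fun _ => (R _).zero_mem

lemma Hom.add {K : ℤ} {a b : J →₀ 𝔸} (ha : Hom R wt K a) (hb : Hom R wt K b) :
    Hom R wt K (a + b) := fun j => by
  rw [Finsupp.add_apply]; exact (R _).add_mem (ha j) (hb j)

lemma Hom.neg {K : ℤ} {a : J →₀ 𝔸} (ha : Hom R wt K a) : Hom R wt K (-a) := fun j => by
  rw [Finsupp.neg_apply]; exact (R _).neg_mem (ha j)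

lemma Hom.sub {K : ℤ} {a b : J →₀ 𝔸} (ha : Hom R wt K a) (hb : Hom R wt K b) :
    Hom R wt K (a - b) := fun j => by
  rw [Finsupp.sub_apply]; exact (R _).sub_mem (ha j) (hb j)

lemma Hom.smul_of_mem (hRR : ∀ a b r r', r ∈ R a → r' ∈ R b → r * r' ∈ R (a + b))
    {d K : ℤ} {r : 𝔸} (hr : r ∈ R d) {a : J →₀ 𝔸} (ha : Hom R wt (K - d) a) :
    Hom R wt K (r • a) := fun j => by
  rw [Finsupp.smul_apply, smul_eq_mul]
  have h := hRR d (K - d - wt j) r (a j) hr (ha j)
  rwa [show d + (K - d - wt j) = K - wt j by ring] at h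

lemma Hom.lc_mem (hRM : ∀ a k r m, r ∈ R a → m ∈ M k → r * m ∈ M (a + k))
    (hF : ∀ j, F j ∈ M (wt j)) {K : ℤ} {a : J →₀ 𝔸} (ha : Hom R wt K a) :
    Finsupp.linearCombination 𝔸 F a ∈ M K := by
  rw [Finsupp.linearCombination_apply, Finsupp.sum]
  refine Submodule.sum_mem _ fun j _ => ?_
  rw [smul_eq_mul]
  have h := hRM (K - wt j) (wt j) (a j) (F j) (ha j) (hF j)
  rwa [show K - wt j + wt j = K by ring] at h

end Basic

end GradedFree

open GradedFree in
theorem exists_homogeneous_basis {𝔸 : Type} [CommRing 𝔸] [Algebra ℂ 𝔸]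
    (M R : ℤ → Submodule ℂ 𝔸) (x y : 𝔸) (hx : x ∈ R 4) (hy : y ∈ R 6)
    (hRM : ∀ a k r m, r ∈ R a → m ∈ M k → r * m ∈ M (a + k))
    (hRR : ∀ a b r r', r ∈ R a → r' ∈ R b → r * r' ∈ R (a + b))
    (hM0 : ∀ k < 0, M k = ⊥) (hR0 : ∀ k < 0, R k = ⊥)
    (hR00 : ∀ r ∈ R 0, ∃ c : ℂ, r = algebraMap ℂ 𝔸 c) (h1 : (1 : 𝔸) ∈ R 0)
    (hRgen : ∀ w, w ≠ 0 → ∀ a ∈ R w, ∃ b ∈ R (w - 4), ∃ c ∈ R (w - 6), a = x * b + y * c)
    (hreg1 : ∀ k, ∀ m ∈ M k, x * m = 0 → m = 0)
    (hreg2 : ∀ k, ∀ A ∈ M k, ∀ B ∈ M (k + 2), y * A = x * B → ∃ n ∈ M (k - 4), A = x * n) :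
    ∃ (J : Type) (wt : J → ℤ) (F : J → 𝔸), (∀ j, F j ∈ M (wt j)) ∧
      (∀ K, ∀ G ∈ M K, ∃ a : J →₀ 𝔸, (∀ j, a j ∈ R (K - wt j)) ∧
        G = a.sum (fun j r => r * F j)) ∧
      (∀ K, ∀ a : J →₀ 𝔸, (∀ j, a j ∈ R (K - wt j)) → a.sum (fun j r => r * F j) = 0 → a = 0) := by
  classical
  -- the "decomposable" part of degree `k`
  set I : ℤ → Submodule ℂ 𝔸 := fun k =>
    (M (k - 4)).map (LinearMap.mulLeft ℂ x) ⊔ (M (k - 6)).map (LinearMap.mulLeft ℂ y) with hI
  have hxM : ∀ k, ∀ m ∈ M (k - 4), x * m ∈ M k := fun k m hm => by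
    have h := hRM 4 (k - 4) x m hx hm
    rwa [show (4 : ℤ) + (k - 4) = k by ring] at h
  have hyM : ∀ k, ∀ m ∈ M (k - 6), y * m ∈ M k := fun k m hm => by
    have h := hRM 6 (k - 6) y m hy hm
    rwa [show (6 : ℤ) + (k - 6) = k by ring] at h
  have hxI : ∀ k, ∀ m ∈ M (k - 4), x * m ∈ I k := fun k m hm =>
    Submodule.mem_sup_left (Submodule.mem_map.mpr ⟨m, hm, rfl⟩)
  have hyI : ∀ k, ∀ m ∈ M (k - 6), y * m ∈ I k := fun k m hm =>
    Submodule.mem_sup_right (Submodule.mem_map.mpr ⟨m, hm, rfl⟩)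
  have hIM : ∀ k, I k ≤ M k := by
    intro k
    refine sup_le ?_ ?_
    · rintro _ ⟨m, hm, rfl⟩; exact hxM k m hm
    · rintro _ ⟨m, hm, rfl⟩; exact hyM k m hm
  -- complements
  have hC : ∀ k, ∃ C : Submodule ℂ 𝔸, C ≤ M k ∧ Disjoint (I k) C ∧ M k ≤ I k ⊔ C := by
    intro k
    obtain ⟨C', hC'⟩ := Submodule.exists_isCompl (I k)
    refine ⟨C' ⊓ M k, inf_le_right, hC'.disjoint.mono_right inf_le_left, ?_⟩
    rw [← sup_inf_assoc_of_le C' (hIM k), hC'.sup_eq_top, top_inf_eq]
  choose C hCM hCdisj hCsup using hC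
  -- the index type and the basis
  let ι : ℤ → Type := fun k => Module.Basis.ofVectorSpaceIndex ℂ (C k)
  let bas : ∀ k, Module.Basis (ι k) ℂ (C k) := fun k => Module.Basis.ofVectorSpace ℂ (C k)
  let J : Type := Σ k, ι k
  let wt : J → ℤ := fun j => j.1
  let F : J → 𝔸 := fun j => ((bas j.1 j.2 : C j.1) : 𝔸)
  have hFC : ∀ j : J, F j ∈ C (wt j) := fun j => (bas j.1 j.2).2
  have hF : ∀ j : J, F j ∈ M (wt j) := fun j => hCM _ (hFC j)
  have hwt : ∀ j : J, 0 ≤ wt j := by
    rintro ⟨k, i⟩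
    by_contra hk
    have hk' : k < 0 := not_le.mp hk
    have hbot : C k = ⊥ := le_bot_iff.mp ((hCM k).trans (hM0 k hk').le)
    have h0 : bas k i = 0 := Subtype.ext ((Submodule.mem_bot ℂ).mp (hbot ▸ (bas k i).2))
    exact (bas k).ne_zero i h0
  have hsum : ∀ a : J →₀ 𝔸, a.sum (fun j r => r * F j) = Finsupp.linearCombination 𝔸 F a := by
    intro a
    rw [Finsupp.linearCombination_apply]
    rfl
  set Φ := Finsupp.linearCombination 𝔸 F with hΦ
  have halg : ∀ t : ℂ, algebraMap ℂ 𝔸 t ∈ R 0 := fun t => by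
    rw [Algebra.algebraMap_eq_smul_one]; exact (R 0).smul_mem t h1
  -- generation of the complements
  have hCgen : ∀ K, ∀ c ∈ C K, ∃ a : J →₀ 𝔸, Hom R wt K a ∧ Φ a = c := by
    intro K c hc
    have hspan : C K ≤ Submodule.span ℂ (Set.range fun i : ι K => F ⟨K, i⟩) := by
      intro z hz
      have h := (bas K).mem_span ⟨z, hz⟩
      have h2 := Submodule.mem_map_of_mem (f := (C K).subtype) h
      rw [Submodule.map_span, ← Set.range_comp] at h2
      exact h2
    have hc' := hspan hc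
    clear hc
    induction hc' using Submodule.span_induction with
    | mem z hz =>
      obtain ⟨i, rfl⟩ := hz
      refine ⟨Finsupp.single ⟨K, i⟩ 1, fun j => ?_, ?_⟩
      · by_cases hj : (⟨K, i⟩ : J) = j
        · subst hj
          rw [Finsupp.single_eq_same]
          simpa [wt] using h1
        · rw [Finsupp.single_eq_of_ne' hj]
          exact (R _).zero_mem
      · rw [hΦ, Finsupp.linearCombination_single, one_smul]
    | zero => exact ⟨0, Hom.zero K, map_zero _⟩
    | add u w _ _ hu hw =>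
      obtain ⟨a, ha, rfl⟩ := hu
      obtain ⟨b, hb, rfl⟩ := hw
      exact ⟨a + b, ha.add hb, map_add _ _ _⟩
    | smul t u _ hu =>
      obtain ⟨a, ha, rfl⟩ := hu
      refine ⟨algebraMap ℂ 𝔸 t • a, Hom.smul_of_mem hRR (halg t) (by rwa [sub_zero]), ?_⟩
      rw [map_smul, smul_eq_mul, Algebra.smul_def]
  -- generation
  have gen : ∀ n : ℕ, ∀ K : ℤ, K < n → ∀ G ∈ M K, ∃ a : J →₀ 𝔸, Hom R wt K a ∧ Φ a = G := by
    intro n
    induction n with
    | zero =>
      intro K hK G hG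
      rw [hM0 K (by simpa using hK), Submodule.mem_bot] at hG
      exact ⟨0, Hom.zero K, by rw [hG, map_zero]⟩
    | succ n ih =>
      intro K hK G hG
      obtain ⟨g1, hg1, c, hc, rfl⟩ := Submodule.mem_sup.mp (hCsup K hG)
      obtain ⟨g2, hg2, g3, hg3, rfl⟩ := Submodule.mem_sup.mp hg1
      obtain ⟨m1, hm1, rfl⟩ := Submodule.mem_map.mp hg2
      obtain ⟨m2, hm2, rfl⟩ := Submodule.mem_map.mp hg3
      obtain ⟨a1, ha1, rfl⟩ := ih (K - 4) (by push_cast at hK; omega) m1 hm1
      obtain ⟨a2, ha2, rfl⟩ := ih (K - 6) (by push_cast at hK; omega) m2 hm2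
      obtain ⟨a3, ha3, rfl⟩ := hCgen K c hc
      refine ⟨x • a1 + y • a2 + a3, ((Hom.smul_of_mem hRR hx ha1).add
        (Hom.smul_of_mem hRR hy ha2)).add ha3, ?_⟩
      simp [map_add, map_smul, smul_eq_mul]
  have gen' : ∀ K : ℤ, ∀ G ∈ M K, ∃ a : J →₀ 𝔸, Hom R wt K a ∧ Φ a = G := fun K =>
    gen (K.toNat + 1) K (by push_cast; have := Int.self_le_toNat K; omega)
  -- the top degree part of a relation vanishes
  have top : ∀ K : ℤ, ∀ a : J →₀ 𝔸, Hom R wt K a → Φ a = 0 → ∀ j, wt j = K → a j = 0 := by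
    intro K a ha h0
    set u : ι K →₀ 𝔸 := Finsupp.split a K with hu
    set atop : J →₀ 𝔸 := Finsupp.mapDomain (Sigma.mk K) u with hatop
    have hinj : Function.Injective (Sigma.mk K : ι K → J) := sigma_mk_injective
    have hatop_same : ∀ i : ι K, atop ⟨K, i⟩ = a ⟨K, i⟩ := fun i => by
      rw [hatop, Finsupp.mapDomain_apply hinj, hu, Finsupp.split_apply]
    have hatop_ne : ∀ j : J, wt j ≠ K → atop j = 0 := by
      intro j hj
      rw [hatop]
      refine Finsupp.mapDomain_of_notMem_range _ _ ?_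
      rintro ⟨i, rfl⟩
      exact hj rfl
    -- coefficients of the top part are constants
    have hconst : ∀ i : ι K, ∃ t : ℂ, a ⟨K, i⟩ = algebraMap ℂ 𝔸 t := fun i =>
      hR00 _ (by simpa [wt] using ha ⟨K, i⟩)
    choose g hg using hconst
    have hΦtop : Φ atop = ∑ i ∈ u.support, g i • F ⟨K, i⟩ := by
      rw [hΦ, hatop, Finsupp.linearCombination_mapDomain, Finsupp.linearCombination_apply,
        Finsupp.sum]
      refine Finset.sum_congr rfl fun i _ => ?_
      rw [hu, Finsupp.split_apply, hg i, smul_eq_mul, Algebra.smul_def]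
      rfl
    have hΦtopC : Φ atop ∈ C K := by
      rw [hΦtop]
      exact Submodule.sum_mem _ fun i _ => (C K).smul_mem _ (hFC ⟨K, i⟩)
    -- the rest lies in `I K`
    have hlow : Φ (a - atop) ∈ I K := by
      rw [hΦ, Finsupp.linearCombination_apply, Finsupp.sum]
      refine Submodule.sum_mem _ fun j _ => ?_
      rw [smul_eq_mul, Finsupp.sub_apply]
      by_cases hj : wt j = K
      · obtain ⟨k, i⟩ := j
        obtain rfl : k = K := hj
        rw [hatop_same, sub_self, zero_mul]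
        exact (I k).zero_mem
      · rw [hatop_ne j hj, sub_zero]
        obtain ⟨b, hb, c, hc, hbc⟩ := hRgen (K - wt j) (sub_ne_zero.mpr (Ne.symm hj)) (a j) (ha j)
        rw [hbc, add_mul, mul_assoc, mul_assoc]
        refine (I K).add_mem (hxI K _ ?_) (hyI K _ ?_)
        · have h := hRM _ _ b (F j) hb (hF j)
          rwa [show K - wt j - 4 + wt j = K - 4 by ring] at h
        · have h := hRM _ _ c (F j) hc (hF j)
          rwa [show K - wt j - 6 + wt j = K - 6 by ring] at h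
    have hz : Φ atop = 0 := by
      have h2 : Φ atop = -Φ (a - atop) := by
        rw [map_sub, h0, zero_sub, neg_neg]
      have h3 : Φ atop ∈ I K := by rw [h2]; exact (I K).neg_mem hlow
      exact (Submodule.disjoint_def.mp (hCdisj K)) _ h3 hΦtopC
    have hli : LinearIndependent ℂ (fun i : ι K => F ⟨K, i⟩) :=
      (bas K).linearIndependent.map' (C K).subtype (Submodule.ker_subtype _)
    rw [hΦtop] at hz
    have hg0 := linearIndependent_iff'.mp hli u.support g hz
    rintro ⟨k, i⟩ hk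
    obtain rfl : k = K := hk
    by_cases hi : i ∈ u.support
    · rw [hg i, hg0 i hi, map_zero]
    · rw [Finsupp.notMem_support_iff, hu, Finsupp.split_apply] at hi
      exact hi
  -- independence
  have indep : ∀ n : ℕ, ∀ K : ℤ, K < n → ∀ a : J →₀ 𝔸, Hom R wt K a → Φ a = 0 → a = 0 := by
    intro n
    induction n with
    | zero =>
      intro K hK a ha _
      ext j
      have h := ha j
      rw [hR0 _ (by have := hwt j; simp at hK; omega), Submodule.mem_bot] at h
      simpa using h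
    | succ n ih =>
      intro K hK a ha h0
      have htop := top K a ha h0
      have hdec : ∀ j, ∃ b ∈ R (K - 4 - wt j), ∃ c ∈ R (K - 6 - wt j),
          a j = x * b + y * c ∧ (a j = 0 → b = 0 ∧ c = 0) := by
        intro j
        by_cases hj : a j = 0
        · exact ⟨0, (R _).zero_mem, 0, (R _).zero_mem, by simp [hj], fun _ => ⟨rfl, rfl⟩⟩
        · have hne : K - wt j ≠ 0 := fun h => hj (htop j (by omega))
          obtain ⟨b, hb, c, hc, hbc⟩ := hRgen (K - wt j) hne (a j) (ha j)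
          refine ⟨b, ?_, c, ?_, hbc, fun h => absurd h hj⟩
          · rwa [show K - 4 - wt j = K - wt j - 4 by ring]
          · rwa [show K - 6 - wt j = K - wt j - 6 by ring]
      choose b hb c hc hbc hzero using hdec
      let bF : J →₀ 𝔸 := Finsupp.onFinset a.support b (fun j hj => by
        rw [Finsupp.mem_support_iff]; exact fun h => hj (hzero j h).1)
      let cF : J →₀ 𝔸 := Finsupp.onFinset a.support c (fun j hj => by
        rw [Finsupp.mem_support_iff]; exact fun h => hj (hzero j h).2)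
      have hbF : Hom R wt (K - 4) bF := fun j => hb j
      have hcF : Hom R wt (K - 6) cF := fun j => hc j
      have ha_eq : a = x • bF + y • cF := by
        ext j
        simp only [Finsupp.add_apply, Finsupp.smul_apply, smul_eq_mul]
        exact hbc j
      have hBmem : Φ bF ∈ M (K - 4) := Hom.lc_mem hRM hF hbF
      have hCmem : Φ cF ∈ M (K - 6) := Hom.lc_mem hRM hF hcF
      have hrel : x * Φ bF + y * Φ cF = 0 := by
        rw [← h0, ha_eq, map_add, map_smul, map_smul, smul_eq_mul, smul_eq_mul]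
      obtain ⟨nn, hnn, hCn⟩ := hreg2 (K - 6) (Φ cF) hCmem (-Φ bF)
        (by rw [show K - 6 + 2 = K - 4 by ring]; exact (M _).neg_mem hBmem)
        (by linear_combination hrel)
      obtain ⟨d, hd, rfl⟩ := gen' _ nn hnn
      have hxd : Hom R wt (K - 6) (x • d) := Hom.smul_of_mem hRR hx hd
      have hc_eq : cF = x • d := by
        have := ih (K - 6) (by push_cast at hK; omega) (cF - x • d) (hcF.sub hxd)
          (by rw [map_sub, map_smul, smul_eq_mul, hCn, sub_self])
        exact sub_eq_zero.mp this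
      have hyd : Hom R wt (K - 4) (y • d) :=
        Hom.smul_of_mem hRR hy (by rwa [show K - 4 - 6 = K - 6 - 4 by ring])
      have hb_eq : bF + y • d = 0 := by
        refine ih (K - 4) (by push_cast at hK; omega) (bF + y • d) (hbF.add hyd) ?_
        refine hreg1 (K - 4) _ (Hom.lc_mem hRM hF (hbF.add hyd)) ?_
        rw [map_add, map_smul, smul_eq_mul]
        linear_combination hrel - y * hCn
      rw [ha_eq, hc_eq, eq_neg_of_add_eq_zero_left hb_eq]
      ext j
      simp only [Finsupp.add_apply, Finsupp.smul_apply, Finsupp.neg_apply, smul_eq_mul,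
        Finsupp.coe_zero, Pi.zero_apply]
      ring
  refine ⟨J, wt, F, hF, fun K G hG => ?_, fun K a ha h0 => ?_⟩
  · obtain ⟨a, ha, rfl⟩ := gen' K G hG
    exact ⟨a, ha, (hsum a).symm⟩
  · exact indep (K.toNat + 1) K (by push_cast; have := Int.self_le_toNat K; omega) a ha
      ((hsum a).symm.trans h0)

end Fermat.Agent.ES
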