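/-
Package ES-P3 (part not depending on ES-P2) : regularity of `(E4, E6)` on `⨁ MF Γ k` and basic
consequences of the definition of a homogeneous basis.
-/
import Fermat.Agent.ES.LevelOne

set_option autoImplicit false

namespace Fermat.Agent.ES

open UpperHalfPlane ModularForm Matrix.SpecialLinearGroup Filter Topology ModularGroup
  CongruenceSubgroup Asymptotics
open scoped MatrixGroups Manifold

variable {Γ : Subgroup SL(2, ℤ)} {k : ℤ}

/-- `1 / E4` is bounded at `i∞`. -/
lemma E4_inv_isBigO_one : (fun z => (E4 z)⁻¹) =O[atImInfty] (1 : ℍ → ℝ) := by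
  have h : Tendsto (fun z => (E4 z)⁻¹) atImInfty (𝓝 (1 : ℂ)⁻¹) := E4_tendsto.inv₀ one_ne_zero
  exact h.isBigO_one ℝ

lemma E4_eventually_ne_zero : ∀ᶠ z in atImInfty, E4 z ≠ 0 :=
  E4_tendsto.eventually_ne one_ne_zero

theorem MF_reg2 {A B : ℍ → ℂ} (hA : A ∈ MF Γ k) (hB : B ∈ MF Γ (k + 2)) (h : E6 * A = E4 * B) :
    ∃ n ∈ MF Γ (k - 4), A = E4 * n := by
  -- `C = E4 ^ 2 * A - E6 * B`
  set C : ℍ → ℂ := E4 ^ 2 * A - E6 * B with hC
  have hCmem : C ∈ MF Γ (k + 8) := by
    refine sub_mem ?_ ?_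
    · exact MF_cast (by ring) (MF_mul (MF_top_le (MF_pow E4_mem 2)) hA)
    · exact MF_cast (by ring) (MF_mul (MF_top_le E6_mem) hB)
  have hkey : E4 * C = (1728 : ℂ) • (Δ * A) := by
    have h1 : (1728 : ℂ) • (Δ * A) = ((1728 : ℂ) • Δ) * A := by
      rw [smul_mul_assoc]
    rw [h1, Δ_eq, hC]
    have : E4 * (E4 ^ 2 * A - E6 * B) = E4 ^ 3 * A - E6 * (E4 * B) := by ring
    rw [this, ← h]
    ring
  have hO : ∀ g : SL(2, ℤ), (C ∣[k + 8] g) =O[atImInfty] Δ := by
    intro g
    have h2 : E4 * (C ∣[k + 8] g) = (1728 : ℂ) • (Δ * (A ∣[k] g)) := by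
      have h3 : (E4 * C) ∣[4 + (k + 8)] g = ((1728 : ℂ) • (Δ * A)) ∣[4 + (k + 8)] g := by
        rw [hkey]
      rw [ModularForm.mul_slash_SL2, E4_mem.2.1 g trivial, ModularForm.SL_smul_slash,
        show 4 + (k + 8) = 12 + k by ring, ModularForm.mul_slash_SL2,
        Δ_mem_MF.2.1 g trivial] at h3
      exact h3
    have hbd : (A ∣[k] g) =O[atImInfty] (1 : ℍ → ℝ) := hA.2.2 g
    have h4 : (E4 * (C ∣[k + 8] g)) =O[atImInfty] Δ := by
      rw [h2]
      have h5 : (Δ * (A ∣[k] g)) =O[atImInfty] (fun z => Δ z * (1 : ℂ)) := by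
        refine (isBigO_refl Δ atImInfty).mul ?_
        exact hbd.trans (isBigO_of_le _ (fun _ => by simp))
      simp only [mul_one] at h5
      exact h5.const_smul_left _
    have h6 : (fun z => (E4 z)⁻¹ * (E4 * (C ∣[k + 8] g)) z) =O[atImInfty]
        (fun z => (1 : ℝ) * ‖Δ z‖) := by
      refine IsBigO.mul E4_inv_isBigO_one ?_
      exact h4.norm_right
    have h7 : (C ∣[k + 8] g) =ᶠ[atImInfty] (fun z => (E4 z)⁻¹ * (E4 * (C ∣[k + 8] g)) z) := by
      filter_upwards [E4_eventually_ne_zero] with z hz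
      simp only [Pi.mul_apply]
      rw [inv_mul_cancel_left₀ hz]
    refine (h7.trans_isBigO h6).trans ?_
    simp only [one_mul]
    exact (isBigO_refl Δ atImInfty).norm_left
  obtain ⟨C', hC', hCC'⟩ := exists_eq_Δ_mul' hCmem hO
  refine ⟨(1728 : ℂ)⁻¹ • C', Submodule.smul_mem _ _ (MF_cast (by ring) hC'), ?_⟩
  ext z
  have h8 := congrFun hkey z
  rw [hCC'] at h8
  simp only [Pi.mul_apply, Pi.smul_apply, smul_eq_mul] at h8 ⊢
  have hΔ := Δ_ne_zero z
  have h9 : Δ z * (1728 * A z) = Δ z * (E4 z * C' z) := by linear_combination -h8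
  have h10 := mul_left_cancel₀ hΔ h9
  field_simp
  linear_combination h10

namespace HBasis

variable (B : HBasis Γ)

/-- constant functions as coefficients -/
noncomputable def constCoeff {J : Type} (c : J →₀ ℂ) : J →₀ (ℍ → ℂ) :=
  c.mapRange (fun c => fun _ => c) rfl

lemma constCoeff_apply {J : Type} (c : J →₀ ℂ) (j : J) : constCoeff c j = fun _ => c j := by
  simp [constCoeff]

lemma constCoeff_eq_zero {J : Type} {c : J →₀ ℂ} (h : constCoeff c = 0) : c = 0 := by
  ext j
  have h1 := DFunLike.congr_fun h j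
  rw [constCoeff_apply] at h1
  exact congrFun h1 I

lemma constCoeff_sum {J : Type} (c : J →₀ ℂ) (F : J → ℍ → ℂ) :
    (constCoeff c).sum (fun j r => r * F j) = c.sum (fun j r => r • F j) := by
  unfold constCoeff
  rw [Finsupp.sum_mapRange_index (fun j => by simp)]
  refine Finsupp.sum_congr fun j _ => ?_
  ext z
  simp

/-- A `ℂ`-linear relation between generators of the same weight is trivial. -/
lemma eq_zero_of_sum_smul_eq_zero (w : ℤ) (c : B.J →₀ ℂ) (hc : ∀ j, c j ≠ 0 → B.wt j = w)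
    (h : c.sum (fun j r => r • B.F j) = 0) : c = 0 := by
  apply constCoeff_eq_zero
  refine B.indep w _ (fun j => ?_) (by rw [constCoeff_sum, h])
  rw [constCoeff_apply]
  by_cases hj : c j = 0
  · rw [hj]; exact zero_mem _
  · rw [hc j hj, sub_self]; exact const_mem_MF _

theorem F_ne_zero (j : B.J) : B.F j ≠ 0 := by
  intro h
  have h1 := B.eq_zero_of_sum_smul_eq_zero (B.wt j) (Finsupp.single j 1)
    (fun j' hj' => by
      by_contra hne
      apply hj'
      apply Finsupp.single_eq_of_ne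
      rintro rfl
      exact hne rfl)
    (by rw [Finsupp.sum_single_index (by simp), h, smul_zero])
  have h2 := DFunLike.congr_fun h1 j
  simp at h2

theorem wt_nonneg [Γ.FiniteIndex] (j : B.J) : 0 ≤ B.wt j := by
  by_contra h
  push Not at h
  apply B.F_ne_zero j
  have := B.mem j
  rwa [MF_eq_bot_of_neg h, Submodule.mem_bot] at this

theorem wt_even (hneg : (-1 : SL(2, ℤ)) ∈ Γ) (j : B.J) : Even (B.wt j) := by
  by_contra h
  rw [Int.not_even_iff_odd] at h
  apply B.F_ne_zero j
  have := B.mem j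
  rwa [MF_eq_bot_of_odd hneg h, Submodule.mem_bot] at this

/-- the `F j` of weight `w` are linearly independent over `ℂ` -/
theorem linearIndependent_wt (w : ℤ) :
    LinearIndependent ℂ (fun j : {j // B.wt j = w} => B.F j) := by
  rw [linearIndependent_iff]
  intro l hl
  rw [Finsupp.linearCombination_apply] at hl
  have h1 := B.eq_zero_of_sum_smul_eq_zero w
    (l.embDomain (Function.Embedding.subtype _))
    (fun j hj => by
      by_contra hne
      apply hj
      apply Finsupp.embDomain_of_notMem_range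
      rintro ⟨⟨j', hj'⟩, rfl⟩
      exact hne hj')
    (by rw [Finsupp.sum_embDomain]; exact hl)
  exact Finsupp.embDomain_eq_zero.mp h1

/-- If no level one form of weight `w - wt j ≠ 0` exists, `MF Γ w` is spanned by the generators of
weight `w`. -/
lemma MF_eq_span_wt (w : ℤ) (hw : ∀ j, B.wt j ≠ w → MF ⊤ (w - B.wt j) = ⊥) :
    MF Γ w = Submodule.span ℂ (Set.range (fun j : {j // B.wt j = w} => B.F j)) := by
  apply le_antisymm
  · intro G hG
    obtain ⟨a, ha, rfl⟩ := B.gen w G hG
    refine Submodule.sum_mem _ fun j _ => ?_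
    by_cases hj : B.wt j = w
    · have h1 := ha j
      rw [hj, sub_self] at h1
      obtain ⟨c, hc⟩ := MF_top_zero h1
      have h2 : a j * B.F j = c • B.F j := by
        rw [hc]; ext z; simp
      simp only [h2]
      exact Submodule.smul_mem _ _ (Submodule.subset_span ⟨⟨j, hj⟩, rfl⟩)
    · have h1 := ha j
      rw [hw j hj, Submodule.mem_bot] at h1
      simp only [h1, zero_mul]
      exact zero_mem _
  · rw [Submodule.span_le]
    rintro _ ⟨⟨j, hj⟩, rfl⟩
    exact hj ▸ B.mem j

lemma card_wt_eq_finrank (w : ℤ) (hw : ∀ j, B.wt j ≠ w → MF ⊤ (w - B.wt j) = ⊥) :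
    Nat.card {j // B.wt j = w} = Module.finrank ℂ (MF Γ w) := by
  rw [B.MF_eq_span_wt w hw]
  exact (Module.finrank_eq_nat_card_basis (Module.Basis.span (B.linearIndependent_wt w))).symm

lemma MF_zero_eq_span [Γ.FiniteIndex] : MF Γ 0 = Submodule.span ℂ {(1 : ℍ → ℂ)} := by
  apply le_antisymm
  · intro f hf
    obtain ⟨c, rfl⟩ := MF_zero hf
    rw [Submodule.mem_span_singleton]
    exact ⟨c, by ext z; simp⟩
  · rw [Submodule.span_le, Set.singleton_subset_iff]
    exact one_mem_MF

/-- weight 0 : exactly one generator -/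
theorem card_wt_zero [Γ.FiniteIndex] : Nat.card {j // B.wt j = 0} = 1 := by
  rw [B.card_wt_eq_finrank 0 (fun j hj => MF_top_eq_bot_of_neg (by
    have := B.wt_nonneg j
    omega)), MF_zero_eq_span]
  exact finrank_span_singleton one_ne_zero

/-- weight 2 : the generators of weight 2 are a basis of `MF Γ 2` -/
theorem card_wt_two [Γ.FiniteIndex] (hneg : (-1 : SL(2, ℤ)) ∈ Γ) [Finite B.J] :
    Nat.card {j // B.wt j = 2} = Module.finrank ℂ (MF Γ 2) := by
  refine B.card_wt_eq_finrank 2 (fun j hj => ?_)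
  have h0 := B.wt_nonneg j
  obtain ⟨m, hm⟩ := B.wt_even hneg j
  rcases (show B.wt j = 0 ∨ 2 < B.wt j by omega) with h | h
  · rw [h, sub_zero]; exact MF_top_two
  · exact MF_top_eq_bot_of_neg (by omega)

end HBasis

end Fermat.Agent.ES
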