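/-
Package ES-P3 : existence of a homogeneous basis (the other statements of the package are in
`ES/HBasisCore.lean`, which this file re-exports).
-/
import Fermat.Agent.ES.HBasisCore
import Fermat.Agent.ES.GradedFree

set_option autoImplicit false

namespace Fermat.Agent.ES

open UpperHalfPlane ModularForm Matrix.SpecialLinearGroup Filter Topology ModularGroup
  CongruenceSubgroup Asymptotics
open scoped MatrixGroups Manifold

theorem exists_HBasis (Γ : Subgroup SL(2, ℤ)) [Γ.FiniteIndex] : Nonempty (HBasis Γ) := by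
  obtain ⟨J, wt, F, hmem, hgen, hind⟩ := exists_homogeneous_basis (𝔸 := ℍ → ℂ)
    (fun k => MF Γ k) (fun k => MF ⊤ k) E4 E6 E4_mem E6_mem
    (fun a k r m hr hm => MF_mul (MF_top_le hr) hm)
    (fun a b r r' hr hr' => MF_mul hr hr')
    (fun k hk => MF_eq_bot_of_neg hk) (fun k hk => MF_top_eq_bot_of_neg hk)
    (fun r hr => by
      obtain ⟨c, rfl⟩ := MF_top_zero hr
      exact ⟨c, rfl⟩)
    one_mem_MF
    (fun w hw a ha => MF_top_decomp hw ha)
    (fun k m hm h => (mul_eq_zero_of_mdiff E4_mem.1 hm.1 h).resolve_left E4_ne_zero)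
    (fun k A hA B hB h => MF_reg2 hA hB h)
  exact ⟨⟨J, wt, F, hmem, hgen, hind⟩⟩

end Fermat.Agent.ES
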