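/-
ES-P11 : the count.  `μ + 2 ≤ 2 dim S₂ + fixDim S + fixDim T + fixDim ST`.
-/
import Fermat.Agent.ES.HBasis
import Fermat.Agent.ES.Duality
import Fermat.Agent.ES.Elliptic
import Fermat.Agent.ES.WeightTwo

set_option autoImplicit false

namespace Fermat.Agent.ES

open UpperHalfPlane ModularForm Matrix.SpecialLinearGroup Filter Topology ModularGroup CongruenceSubgroup
open scoped MatrixGroups Manifold

variable {Γ : Subgroup SL(2, ℤ)} {k : ℤ}

namespace Count

/-- pure counting: a weight function with values in `{0,2,4,6,8,10}`. -/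
lemma card_split {J : Type} [Fintype J] (wt : J → ℤ)
    (h : ∀ j, wt j = 0 ∨ wt j = 2 ∨ wt j = 4 ∨ wt j = 6 ∨ wt j = 8 ∨ wt j = 10) :
    Nat.card J + Nat.card {j // wt j = 0} =
      Nat.card {j // wt j = 2} + Nat.card {j // wt j = 10} +
        Nat.card {j // (4 : ℤ) ∣ wt j} + Nat.card {j // (6 : ℤ) ∣ wt j} := by
  classical
  simp only [Nat.card_eq_fintype_card, Fintype.card_subtype]
  rw [← Finset.card_univ, Finset.card_eq_sum_ones, Finset.card_eq_sum_ones,
    Finset.card_eq_sum_ones, Finset.card_eq_sum_ones, Finset.card_eq_sum_ones,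
    Finset.card_eq_sum_ones]
  simp only [Finset.sum_filter]
  simp only [← Finset.sum_add_distrib]
  refine Finset.sum_congr rfl fun j _ => ?_
  rcases h j with h | h | h | h | h | h <;> rw [h] <;> norm_num

end Count

theorem index_add_two_le [Γ.FiniteIndex] (hneg : (-1 : SL(2, ℤ)) ∈ Γ) (hsep : Separates Γ) :
    Γ.index + 2 ≤ 2 * Module.finrank ℂ (CF Γ 2) + fixDim Γ S + fixDim Γ T + fixDim Γ (S * T) := by
  classical
  obtain ⟨B⟩ := exists_HBasis Γ
  obtain ⟨hB, hfin, hcard⟩ := B.isFrame hneg hsep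
  let _ := Fintype.ofFinite B.J
  obtain ⟨G, hG, hG0, hGind⟩ := B.exists_dual hneg hB
  have hwt : ∀ j, B.wt j = 0 ∨ B.wt j = 2 ∨ B.wt j = 4 ∨ B.wt j = 6 ∨ B.wt j = 8 ∨
      B.wt j = 10 := by
    intro j
    have h0 := B.wt_nonneg j
    obtain ⟨m, hm⟩ := B.wt_even hneg j
    have h12 : B.wt j < 12 := by
      by_contra hcon
      have hbot := CF_eq_bot_of_nonpos (Γ := Γ) (k := 12 - B.wt j) (by omega)
      have := hG j
      rw [hbot] at this
      exact hG0 j (by simpa using this)
    omega
  have hsplit := Count.card_split B.wt hwt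
  rw [hcard, B.card_wt_zero, B.card_wt_two hneg, B.card_four_dvd hneg hB,
    B.card_six_dvd hneg hB] at hsplit
  have h10 : Nat.card {j // B.wt j = 10} ≤ Module.finrank ℂ (CF Γ 2) := by
    have := finite_CF (Γ := Γ) 2
    have hmem : ∀ j : {j // B.wt j = 10}, G j ∈ CF Γ 2 := by
      intro j
      have := hG j
      rw [j.2] at this
      simpa using this
    have hli : LinearIndependent ℂ (fun j : {j // B.wt j = 10} => (⟨G j, hmem j⟩ : CF Γ 2)) := by
      refine LinearIndependent.of_comp (CF Γ 2).subtype ?_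
      exact hGind 10
    rw [Nat.card_eq_fintype_card]
    exact hli.fintype_card_le_finrank
  have h2 := finrank_MF_two_le (Γ := Γ)
  omega

end Fermat.Agent.ES
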