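/-
ES-P13 : `fixDim Γ g` is the number of orbits of `⟨g⟩` on `X Γ`; formulas for elements of order 2, 3.
-/
import Fermat.Agent.ES.Defs2

set_option autoImplicit false

namespace Fermat.Agent.ES

open UpperHalfPlane ModularForm Matrix.SpecialLinearGroup Filter Topology ModularGroup
  CongruenceSubgroup
open scoped MatrixGroups Manifold

variable {Γ : Subgroup SL(2, ℤ)} {k : ℤ}

section general

variable {G Y : Type*} [Group G] [MulAction G Y]

/-- the permutation representation on functions -/
def permRep (Y : Type*) [MulAction G Y] (g : G) : (Y → ℂ) →ₗ[ℂ] (Y → ℂ) :=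
  LinearMap.funLeft ℂ ℂ (fun x : Y => g⁻¹ • x)

@[simp] lemma permRep_apply (g : G) (v : Y → ℂ) (x : Y) : permRep Y g v x = v (g⁻¹ • x) := rfl

lemma permRep_one : permRep Y (1 : G) = 1 := by
  ext v x; simp

lemma permRep_mul (g h : G) : permRep Y (g * h) = permRep Y g * permRep Y h := by
  apply LinearMap.ext; intro v; funext x
  simp [mul_smul]

lemma permRep_pow (g : G) (n : ℕ) : permRep Y (g ^ n) = (permRep Y g) ^ n := by
  induction n with
  | zero => simp [permRep_one]
  | succ n ih => rw [pow_succ, pow_succ, permRep_mul, ih]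

lemma mem_ker_permRep_sub_one {g : G} {v : Y → ℂ} :
    v ∈ LinearMap.ker (permRep Y g - 1) ↔ ∀ x, v (g • x) = v x := by
  rw [LinearMap.mem_ker]
  constructor
  · intro h x
    have := congrFun h (g • x)
    simp [sub_eq_zero] at this
    exact this.symm
  · intro h
    ext x
    have := h (g⁻¹ • x)
    simp at this
    simp [this]

lemma apply_zpow_smul {g : G} {v : Y → ℂ} (h : ∀ x, v (g • x) = v x) (n : ℤ) (x : Y) :
    v (g ^ n • x) = v x := by
  induction n using Int.induction_on with
  | zero => simp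
  | succ n ih => rw [add_comm, zpow_add, zpow_one, mul_smul, h, ih]
  | pred n ih =>
    rw [← h (g ^ (-(n : ℤ) - 1) • x), ← mul_smul, ← zpow_one_add]
    rw [show (1 : ℤ) + (-(n : ℤ) - 1) = -(n : ℤ) by ring]
    exact ih

/-- Invariant functions are functions on the orbit space. -/
noncomputable def kerEquivOrbits (g : G) :
    LinearMap.ker (permRep Y g - 1) ≃ₗ[ℂ]
      (MulAction.orbitRel.Quotient (Subgroup.zpowers g) Y → ℂ) where
  toFun v := fun q => Quotient.liftOn' q v.1 (by
    intro a b hab
    have hab' : a ∈ MulAction.orbit (Subgroup.zpowers g) b := hab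
    obtain ⟨⟨_, n, rfl⟩, rfl⟩ := hab'
    exact apply_zpow_smul (mem_ker_permRep_sub_one.mp v.2) n b)
  map_add' v w := by
    funext q
    induction q using Quotient.inductionOn' with
    | h a => rfl
  map_smul' c v := by
    funext q
    induction q using Quotient.inductionOn' with
    | h a => rfl
  invFun φ := ⟨fun x => φ (Quotient.mk'' x), by
    rw [mem_ker_permRep_sub_one]
    intro x
    congr 1
    apply Quotient.sound'
    exact ⟨⟨g, Subgroup.mem_zpowers g⟩, rfl⟩⟩
  left_inv v := by
    ext x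
    rfl
  right_inv φ := by
    funext q
    induction q using Quotient.inductionOn' with
    | h a => rfl

lemma finrank_ker_permRep [Finite Y] (g : G) :
    Module.finrank ℂ (LinearMap.ker (permRep Y g - 1)) =
      Nat.card (MulAction.orbitRel.Quotient (Subgroup.zpowers g) Y) := by
  classical
  have : Fintype (MulAction.orbitRel.Quotient (Subgroup.zpowers g) Y) := Fintype.ofFinite _
  rw [(kerEquivOrbits (Y := Y) g).finrank_eq, Module.finrank_fintype_fun_eq_card,
    Nat.card_eq_fintype_card]

lemma trace_permRep [Fintype Y] [DecidableEq Y] (g : G) :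
    LinearMap.trace ℂ (Y → ℂ) (permRep Y g) = (Nat.card (MulAction.fixedBy Y g) : ℂ) := by
  rw [LinearMap.trace_eq_matrix_trace ℂ (Pi.basisFun ℂ Y), Matrix.trace]
  have h1 : ∀ x : Y, Matrix.diag (LinearMap.toMatrix (Pi.basisFun ℂ Y) (Pi.basisFun ℂ Y)
      (permRep Y g)) x = if g • x = x then 1 else 0 := by
    intro x
    rw [Matrix.diag_apply, LinearMap.toMatrix_apply]
    simp only [Pi.basisFun_apply, Pi.basisFun_repr, permRep_apply, Pi.single_apply]
    have hiff : (g⁻¹ • x = x) ↔ (g • x = x) := by rw [inv_smul_eq_iff, eq_comm]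
    simp only [hiff]
  simp_rw [h1]
  rw [Finset.sum_boole, Nat.card_eq_fintype_card]
  congr 1
  rw [Fintype.card_subtype]
  rfl

/-- Burnside-type formula for a cyclic action of exponent `n`. -/
lemma mul_finrank_ker_permRep [Finite Y] (g : G) (n : ℕ) (hn : 0 < n)
    (hg : ∀ x : Y, g ^ n • x = x) :
    n * Module.finrank ℂ (LinearMap.ker (permRep Y g - 1)) =
      ∑ i ∈ Finset.range n, Nat.card (MulAction.fixedBy Y (g ^ i)) := by
  classical
  have : Fintype Y := Fintype.ofFinite _
  set ρ := permRep Y g with hρ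
  have hρn : ρ ^ n = 1 := by
    rw [hρ, ← permRep_pow]
    apply LinearMap.ext; intro v; funext x
    have := hg ((g ^ n)⁻¹ • x)
    rw [smul_inv_smul] at this
    simp [← this]
  set P : (Y → ℂ) →ₗ[ℂ] (Y → ℂ) := (n : ℂ)⁻¹ • ∑ i ∈ Finset.range n, ρ ^ i with hP
  have hn0 : (n : ℂ) ≠ 0 := Nat.cast_ne_zero.mpr hn.ne'
  have hρP : ρ * ∑ i ∈ Finset.range n, ρ ^ i = ∑ i ∈ Finset.range n, ρ ^ i := by
    rw [Finset.mul_sum]
    simp_rw [← pow_succ']
    have h1 := Finset.sum_range_succ' (fun i => ρ ^ i) n
    have h2 := Finset.sum_range_succ (fun i => ρ ^ i) n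
    rw [h2, hρn, pow_zero] at h1
    exact (add_right_cancel h1).symm
  have hproj : LinearMap.IsProj (LinearMap.ker (ρ - 1)) P := by
    constructor
    · intro v
      rw [LinearMap.mem_ker, LinearMap.sub_apply, sub_eq_zero, Module.End.one_apply, hP,
        LinearMap.smul_apply, map_smul, ← Module.End.mul_apply, hρP]
    · intro v hv
      rw [LinearMap.mem_ker, LinearMap.sub_apply, sub_eq_zero, Module.End.one_apply] at hv
      have hpow : ∀ i : ℕ, (ρ ^ i) v = v := by
        intro i
        induction i with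
        | zero => simp
        | succ i ih => rw [pow_succ, Module.End.mul_apply, hv, ih]
      rw [hP, LinearMap.smul_apply, LinearMap.sum_apply]
      simp only [hpow, Finset.sum_const, Finset.card_range]
      rw [← Nat.cast_smul_eq_nsmul ℂ, smul_smul, inv_mul_cancel₀ hn0, one_smul]
  have htr := hproj.trace
  rw [hP, map_smul, map_sum] at htr
  simp_rw [hρ, ← permRep_pow, trace_permRep] at htr
  rw [smul_eq_mul, inv_mul_eq_iff_eq_mul₀ hn0] at htr
  exact_mod_cast htr.symm

end general

lemma rho_eq_permRep (g : SL(2, ℤ)) : rho Γ g = permRep (X Γ) g := rfl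

theorem finrank_V [Γ.FiniteIndex] : Module.finrank ℂ (V Γ) = Γ.index := by
  classical
  have : Fintype (X Γ) := Fintype.ofFinite _
  rw [Module.finrank_fintype_fun_eq_card, Subgroup.index_eq_card, Nat.card_eq_fintype_card]

theorem fixDim_eq_card_orbits [Γ.FiniteIndex] (g : SL(2, ℤ)) :
    fixDim Γ g = Nat.card (MulAction.orbitRel.Quotient (Subgroup.zpowers g) (X Γ)) := by
  rw [fixDim, rho_eq_permRep, finrank_ker_permRep]
  rfl

lemma card_fixedBy_one [Γ.FiniteIndex] :
    Nat.card (MulAction.fixedBy (X Γ) (1 : SL(2, ℤ))) = Γ.index := by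
  have h1 : MulAction.fixedBy (X Γ) (1 : SL(2, ℤ)) = Set.univ := by
    ext x; simp
  rw [h1, Subgroup.index_eq_card]
  exact Nat.card_congr (Equiv.Set.univ _)

theorem two_mul_fixDim [Γ.FiniteIndex] (g : SL(2, ℤ)) (hg : ∀ x : X Γ, (g ^ 2) • x = x) :
    2 * fixDim Γ g = Γ.index + Nat.card (MulAction.fixedBy (X Γ) g) := by
  have h := mul_finrank_ker_permRep (Y := X Γ) g 2 (by norm_num) hg
  rw [Finset.sum_range_succ, Finset.sum_range_one, pow_zero, pow_one, card_fixedBy_one] at h
  exact h

theorem three_mul_fixDim [Γ.FiniteIndex] (g : SL(2, ℤ)) (hg : ∀ x : X Γ, (g ^ 3) • x = x) :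
    3 * fixDim Γ g = Γ.index + 2 * Nat.card (MulAction.fixedBy (X Γ) g) := by
  have h := mul_finrank_ker_permRep (Y := X Γ) g 3 (by norm_num) hg
  rw [Finset.sum_range_succ, Finset.sum_range_succ, Finset.sum_range_one, pow_zero, pow_one,
    card_fixedBy_one] at h
  have h2 : MulAction.fixedBy (X Γ) (g ^ 2) = MulAction.fixedBy (X Γ) g := by
    ext x
    simp only [MulAction.mem_fixedBy]
    constructor
    · intro hx
      have h3 := hg x
      rw [pow_succ', mul_smul, hx] at h3
      exact h3
    · intro hx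
      rw [pow_two, mul_smul, hx, hx]
  rw [h2] at h
  have : 3 * fixDim Γ g = Γ.index + Nat.card (MulAction.fixedBy (X Γ) g)
      + Nat.card (MulAction.fixedBy (X Γ) g) := h
  omega

end Fermat.Agent.ES
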