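/-
(III) of the ES effort: the pure group theory / linear algebra bound
`finrank (parabolicHoms ℂ Γ ℂ) + dim V^S + dim V^(ST) + dim V^T ≤ |X| + 2`.
-/
import Fermat.Agent.ES.Defs
import Fermat.Prelude.Def_ModularCurve_PeriodMap

set_option autoImplicit false

namespace Fermat.Agent.ES

open ModularCurve.Period ModularGroup
open scoped MatrixGroups

section Rho

variable (Γ : Subgroup SL(2, ℤ))

lemma rho_one : rho Γ 1 = 1 := by
  ext v x
  simp [rho]

lemma rho_mul (g h : SL(2, ℤ)) : rho Γ (g * h) = rho Γ g * rho Γ h := by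
  apply LinearMap.ext
  intro v
  funext x
  simp only [rho_apply, Module.End.mul_apply, mul_inv_rev, mul_smul]

lemma rho_pow (g : SL(2, ℤ)) (n : ℕ) : rho Γ (g ^ n) = rho Γ g ^ n := by
  induction n with
  | zero => simp [rho_one]
  | succ n ih => rw [pow_succ, pow_succ, rho_mul, ih]

end Rho

section Cocycle

variable (Γ : Subgroup SL(2, ℤ))

lemma gam_mem (g : SL(2, ℤ)) (y : X Γ) : (y.out)⁻¹ * g * (g⁻¹ • y).out ∈ Γ := by
  rw [mul_assoc, ← QuotientGroup.eq]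
  have h1 : ((g * (g⁻¹ • y).out : SL(2, ℤ)) : X Γ) = g • (((g⁻¹ • y).out : SL(2, ℤ)) : X Γ) := rfl
  rw [h1, QuotientGroup.out_eq', QuotientGroup.out_eq', smul_inv_smul]

/-- The `Γ`-valued Shapiro cocycle. -/
noncomputable def gam (g : SL(2, ℤ)) (y : X Γ) : Γ := ⟨(y.out)⁻¹ * g * (g⁻¹ • y).out, gam_mem Γ g y⟩

lemma gam_mul (g h : SL(2, ℤ)) (y : X Γ) :
    gam Γ (g * h) y = gam Γ g y * gam Γ h (g⁻¹ • y) := by
  apply Subtype.ext
  simp only [gam, Subgroup.coe_mul, mul_inv_rev, mul_smul]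
  group

/-- The `V`-valued cocycle attached to a homomorphism `φ : Γ → ℂ`, linear in `φ`. -/
noncomputable def coc (g : SL(2, ℤ)) : (Additive Γ →+ ℂ) →ₗ[ℂ] V Γ where
  toFun φ := fun y => φ (Additive.ofMul (gam Γ g y))
  map_add' _ _ := rfl
  map_smul' _ _ := rfl

lemma coc_apply (g : SL(2, ℤ)) (φ : Additive Γ →+ ℂ) (y : X Γ) :
    coc Γ g φ y = φ (Additive.ofMul (gam Γ g y)) := rfl

lemma coc_mul (g h : SL(2, ℤ)) (φ : Additive Γ →+ ℂ) :
    coc Γ (g * h) φ = coc Γ g φ + rho Γ g (coc Γ h φ) := by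
  funext y
  simp only [coc_apply, Pi.add_apply, rho_apply, gam_mul, ofMul_mul, map_add]

lemma coc_one (φ : Additive Γ →+ ℂ) : coc Γ 1 φ = 0 := by
  have h := coc_mul Γ 1 1 φ
  rw [mul_one, rho_one, Module.End.one_apply] at h
  simpa using h

lemma coc_pow (g : SL(2, ℤ)) (n : ℕ) (φ : Additive Γ →+ ℂ) :
    coc Γ (g ^ n) φ = ∑ i ∈ Finset.range n, (rho Γ g ^ i) (coc Γ g φ) := by
  induction n with
  | zero => simp [coc_one]
  | succ n ih => rw [pow_succ, coc_mul, ih, Finset.sum_range_succ, rho_pow]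

end Cocycle

section LinAlg

variable {E : Type*} [AddCommGroup E] [Module ℂ E]

lemma pow_apply_sub_mem_range (A : Module.End ℂ E) (v : E) (i : ℕ) :
    (A ^ i) v - v ∈ LinearMap.range (A - 1) := by
  induction i with
  | zero => simp
  | succ i ih =>
    have h : (A ^ (i + 1)) v - v = (A - 1) ((A ^ i) v) + ((A ^ i) v - v) := by
      rw [pow_succ', Module.End.mul_apply, LinearMap.sub_apply, Module.End.one_apply]
      abel
    rw [h]
    exact Submodule.add_mem _ (LinearMap.mem_range_self _ _) ih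

lemma mem_range_sub_one_of_sum_eq_zero (A : Module.End ℂ E) (v : E) {n : ℕ} (hn : n ≠ 0)
    (hv : ∑ i ∈ Finset.range n, (A ^ i) v = 0) : v ∈ LinearMap.range (A - 1) := by
  have h1 : ∑ i ∈ Finset.range n, ((A ^ i) v - v) ∈ LinearMap.range (A - 1) :=
    Submodule.sum_mem _ fun i _ => pow_apply_sub_mem_range A v i
  rw [Finset.sum_sub_distrib, hv, Finset.sum_const, Finset.card_range, zero_sub] at h1
  have h2 : (-(n : ℂ)⁻¹) • (-(n • v)) ∈ LinearMap.range (A - 1) := Submodule.smul_mem _ _ h1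
  have hn' : (n : ℂ) ≠ 0 := Nat.cast_ne_zero.mpr hn
  have h3 : (-(n : ℂ)⁻¹) • (-(n • v)) = v := by
    rw [smul_neg, neg_smul, neg_neg, ← Nat.cast_smul_eq_nsmul ℂ, smul_smul, inv_mul_cancel₀ hn',
      one_smul]
  rwa [h3] at h2

lemma finrank_le_of_two_maps {E F : Type*} [AddCommGroup E] [Module ℂ E] [FiniteDimensional ℂ E]
    [AddCommGroup F] [Module ℂ F] [FiniteDimensional ℂ F] (f₁ f₂ : E →ₗ[ℂ] F)
    (A W : Submodule ℂ F) (h1 : ∀ z, f₁ z ∈ A) (h2 : ∀ z, f₁ z = 0 → f₂ z ∈ W)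
    (ev : E →ₗ[ℂ] ℂ) (h3 : ∀ z, f₁ z = 0 → f₂ z = 0 → ev z = 0 → z = 0) :
    Module.finrank ℂ E ≤ Module.finrank ℂ A + Module.finrank ℂ W + 1 := by
  have e1 := LinearMap.finrank_range_add_finrank_ker f₁
  have e2 := LinearMap.finrank_range_add_finrank_ker (f₂.domRestrict (LinearMap.ker f₁))
  have r1 : Module.finrank ℂ (LinearMap.range f₁) ≤ Module.finrank ℂ A := by
    apply Submodule.finrank_mono
    rintro _ ⟨z, rfl⟩
    exact h1 z
  have r2 : Module.finrank ℂ (LinearMap.range (f₂.domRestrict (LinearMap.ker f₁))) ≤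
      Module.finrank ℂ W := by
    apply Submodule.finrank_mono
    rintro _ ⟨⟨z, hz⟩, rfl⟩
    exact h2 z hz
  have r3 : Module.finrank ℂ (LinearMap.ker (f₂.domRestrict (LinearMap.ker f₁))) ≤ 1 := by
    have hev : Function.Injective (ev.comp ((LinearMap.ker f₁).subtype.comp
        (LinearMap.ker (f₂.domRestrict (LinearMap.ker f₁))).subtype)) := by
      rw [← LinearMap.ker_eq_bot, LinearMap.ker_eq_bot']
      rintro ⟨⟨z, hz⟩, hz2⟩ h0
      exact Subtype.ext (Subtype.ext (h3 z hz hz2 h0))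
    have := LinearMap.finrank_le_finrank_of_injective hev
    simpa using this
  omega

end LinAlg

section Membership

variable (Γ : Subgroup SL(2, ℤ))

lemma coc_mem_range_of_pow (g : SL(2, ℤ)) {n : ℕ} (hn : n ≠ 0) (φ : Additive Γ →+ ℂ)
    (h : coc Γ (g ^ n) φ = 0) : coc Γ g φ ∈ LinearMap.range (rho Γ g - 1) :=
  mem_range_sub_one_of_sum_eq_zero (rho Γ g) _ hn (by rw [← coc_pow, h])

lemma S_pow_four : (S : SL(2, ℤ)) ^ 4 = 1 := by
  decide

lemma ST_pow_six : ((S * T : SL(2, ℤ))) ^ 6 = 1 := by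
  decide

lemma coc_S_mem (φ : Additive Γ →+ ℂ) : coc Γ S φ ∈ LinearMap.range (rho Γ S - 1) :=
  coc_mem_range_of_pow Γ S (n := 4) (by norm_num) φ (by rw [S_pow_four, coc_one])

lemma coc_ST_mem (φ : Additive Γ →+ ℂ) :
    coc Γ (S * T) φ ∈ LinearMap.range (rho Γ (S * T) - 1) :=
  coc_mem_range_of_pow Γ (S * T) (n := 6) (by norm_num) φ (by rw [ST_pow_six, coc_one])

lemma trace_conj (g h : SL(2, ℤ)) :
    ((h⁻¹ * g * h : SL(2, ℤ)) : Matrix (Fin 2) (Fin 2) ℤ).trace =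
      (g : Matrix (Fin 2) (Fin 2) ℤ).trace := by
  rw [Matrix.SpecialLinearGroup.coe_mul, Matrix.trace_mul_comm, ← Matrix.SpecialLinearGroup.coe_mul,
    mul_inv_cancel_left]

lemma trace_T_pow (n : ℕ) : ((T ^ n : SL(2, ℤ)) : Matrix (Fin 2) (Fin 2) ℤ).trace = 2 := by
  rw [← zpow_natCast, coe_T_zpow, Matrix.trace_fin_two_of]
  norm_num

lemma exists_pow_smul_eq [Γ.FiniteIndex] (g : SL(2, ℤ)) :
    ∃ n : ℕ, n ≠ 0 ∧ ∀ y : X Γ, g ^ n • y = y := by
  have hfin : IsOfFinOrder (MulAction.toPermHom SL(2, ℤ) (X Γ) g) := isOfFinOrder_of_finite _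
  refine ⟨orderOf (MulAction.toPermHom SL(2, ℤ) (X Γ) g), hfin.orderOf_pos.ne', fun y => ?_⟩
  have h := pow_orderOf_eq_one (MulAction.toPermHom SL(2, ℤ) (X Γ) g)
  rw [← map_pow] at h
  have h2 := congrArg (fun σ : Equiv.Perm (X Γ) => σ y) h
  simpa using h2

lemma coc_T_mem [Γ.FiniteIndex] {φ : Additive Γ →+ ℂ} (hφ : IsParabolicHom Γ φ) :
    coc Γ T φ ∈ LinearMap.range (rho Γ T - 1) := by
  obtain ⟨n, hn, hfix⟩ := exists_pow_smul_eq Γ T
  refine coc_mem_range_of_pow Γ T hn φ ?_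
  funext y
  rw [coc_apply]
  refine hφ _ ?_
  have h1 : ((gam Γ (T ^ n) y : Γ) : SL(2, ℤ)) = (y.out)⁻¹ * T ^ n * y.out := by
    have h2 : (T ^ n)⁻¹ • y = y := by
      rw [inv_smul_eq_iff, hfix]
    simp only [gam, h2]
  rw [h1, trace_conj, trace_T_pow]
  norm_num

end Membership

section Twisted

variable (Γ : Subgroup SL(2, ℤ))

/-- The cocycle `coc φ` minus the coboundary of `d`, linear in `(φ, d)`. -/
noncomputable def cz (g : SL(2, ℤ)) : ((Additive Γ →+ ℂ) × V Γ) →ₗ[ℂ] V Γ :=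
  (coc Γ g).comp (LinearMap.fst ℂ _ _) - (rho Γ g - 1).comp (LinearMap.snd ℂ _ _)

lemma cz_apply (g : SL(2, ℤ)) (p : (Additive Γ →+ ℂ) × V Γ) :
    cz Γ g p = coc Γ g p.1 - (rho Γ g - 1) p.2 := rfl

lemma cz_mul (g h : SL(2, ℤ)) (p : (Additive Γ →+ ℂ) × V Γ) :
    cz Γ (g * h) p = cz Γ g p + rho Γ g (cz Γ h p) := by
  simp only [cz_apply, coc_mul, rho_mul, LinearMap.sub_apply, Module.End.mul_apply,
    Module.End.one_apply, map_sub]
  abel

lemma cz_one (p : (Additive Γ →+ ℂ) × V Γ) : cz Γ 1 p = 0 := by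
  simp [cz_apply, coc_one, rho_one]

lemma cz_eq_zero_of_S_T (p : (Additive Γ →+ ℂ) × V Γ) (hS : cz Γ S p = 0) (hT : cz Γ T p = 0)
    (g : SL(2, ℤ)) : cz Γ g p = 0 := by
  have hg : g ∈ Subgroup.closure ({S, T} : Set SL(2, ℤ)) := by
    rw [SpecialLinearGroup.SL2Z_generators]; trivial
  induction hg using Subgroup.closure_induction with
  | mem x hx =>
    rcases hx with rfl | hx
    · exact hS
    · rw [Set.mem_singleton_iff] at hx; rw [hx]; exact hT
  | one => exact cz_one Γ p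
  | mul x y _ _ hx hy => rw [cz_mul, hx, hy, map_zero, add_zero]
  | inv x _ hx =>
    have h := cz_mul Γ x⁻¹ x p
    rw [inv_mul_cancel, cz_one, hx, map_zero, add_zero] at h
    exact h.symm

lemma gam_x₀ (γ : Γ) : ∃ r : Γ, gam Γ (γ : SL(2, ℤ)) (x₀ Γ) = r⁻¹ * γ * r := by
  have hr : ((x₀ Γ).out : SL(2, ℤ)) ∈ Γ := by
    have h : (((x₀ Γ).out : SL(2, ℤ)) : X Γ) = ((1 : SL(2, ℤ)) : X Γ) :=
      QuotientGroup.out_eq' (x₀ Γ)
    rw [QuotientGroup.eq] at h
    simpa using Γ.inv_mem h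
  have hfix : ((γ : SL(2, ℤ)))⁻¹ • x₀ Γ = x₀ Γ := by
    have h1 : ((γ : SL(2, ℤ)))⁻¹ • x₀ Γ = ((((γ : SL(2, ℤ)))⁻¹ * 1 : SL(2, ℤ)) : X Γ) := rfl
    rw [h1, x₀, QuotientGroup.eq]
    simp
  refine ⟨⟨_, hr⟩, Subtype.ext ?_⟩
  simp only [gam, hfix, Subgroup.coe_mul, Subgroup.coe_inv]

lemma fst_eq_zero_of_cz (p : (Additive Γ →+ ℂ) × V Γ) (h : ∀ g, cz Γ g p = 0) : p.1 = 0 := by
  refine AddMonoidHom.ext fun a => ?_
  obtain ⟨γ, rfl⟩ : ∃ γ : Γ, Additive.ofMul γ = a := ⟨Additive.toMul a, rfl⟩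
  have h1 := congrFun (h (γ : SL(2, ℤ))) (x₀ Γ)
  obtain ⟨r, hr⟩ := gam_x₀ Γ γ
  have hfix : ((γ : SL(2, ℤ)))⁻¹ • x₀ Γ = x₀ Γ := by
    have h1 : ((γ : SL(2, ℤ)))⁻¹ • x₀ Γ = ((((γ : SL(2, ℤ)))⁻¹ * 1 : SL(2, ℤ)) : X Γ) := rfl
    rw [h1, x₀, QuotientGroup.eq]
    simp
  simp only [cz_apply, Pi.sub_apply, coc_apply, hr, LinearMap.sub_apply, rho_apply, hfix,
    Module.End.one_apply, sub_self, sub_zero, Pi.zero_apply, ofMul_mul, ofMul_inv, map_add,
    map_neg] at h1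
  simpa using h1

lemma snd_const_of_cz (p : (Additive Γ →+ ℂ) × V Γ) (h : ∀ g, cz Γ g p = 0) (x : X Γ) :
    p.2 x = p.2 (x₀ Γ) := by
  have h0 := fst_eq_zero_of_cz Γ p h
  obtain ⟨g, rfl⟩ := MulAction.exists_smul_eq SL(2, ℤ) (x₀ Γ) x
  have h1 := congrFun (h g) (g • x₀ Γ)
  simp only [cz_apply, h0, map_zero, LinearMap.sub_apply, Module.End.one_apply, Pi.sub_apply,
    rho_apply, inv_smul_smul, Pi.zero_apply, zero_sub, neg_sub] at h1
  exact sub_eq_zero.mp h1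

end Twisted

section Sup

variable (Γ : Subgroup SL(2, ℤ))

open Classical in
lemma rho_single (g : SL(2, ℤ)) (x : X Γ) :
    rho Γ g (Pi.single x (1 : ℂ)) = Pi.single (g • x) (1 : ℂ) := by
  funext y
  rw [rho_apply, Pi.single_apply, Pi.single_apply]
  congr 1
  rw [inv_smul_eq_iff]

/-- `(S-1)V + (ST-1)V`. -/
noncomputable def augS : Submodule ℂ (V Γ) :=
  LinearMap.range (rho Γ S - 1) ⊔ LinearMap.range (rho Γ (S * T) - 1)

open Classical in
/-- The subgroup of `g` with `e_{gx} - e_x ∈ augS` for all `x`. -/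
def augSubgroup : Subgroup SL(2, ℤ) where
  carrier := {g | ∀ x : X Γ, (Pi.single (g • x) (1 : ℂ) - Pi.single x (1 : ℂ) : V Γ) ∈ augS Γ}
  one_mem' := fun x => by simp
  mul_mem' := by
    intro g h hg hh x
    have h1 := Submodule.add_mem _ (hg (h • x)) (hh x)
    rw [mul_smul]
    simpa using h1
  inv_mem' := by
    intro g hg x
    have h1 := Submodule.neg_mem _ (hg (g⁻¹ • x))
    rw [smul_inv_smul, neg_sub] at h1
    exact h1

open Classical in
lemma augSubgroup_eq_top : augSubgroup Γ = ⊤ := by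
  have hS : S ∈ augSubgroup Γ := fun x => by
    refine Submodule.mem_sup_left ⟨Pi.single x 1, ?_⟩
    rw [LinearMap.sub_apply, rho_single, Module.End.one_apply]
  have hST : S * T ∈ augSubgroup Γ := fun x => by
    refine Submodule.mem_sup_right ⟨Pi.single x 1, ?_⟩
    rw [LinearMap.sub_apply, rho_single, Module.End.one_apply]
  have hT : T ∈ augSubgroup Γ := by
    have := (augSubgroup Γ).mul_mem ((augSubgroup Γ).inv_mem hS) hST
    rwa [inv_mul_cancel_left] at this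
  rw [eq_top_iff, ← SpecialLinearGroup.SL2Z_generators, Subgroup.closure_le]
  rintro g (rfl | hg)
  · exact hS
  · rw [Set.mem_singleton_iff] at hg; rw [hg]; exact hT

open Classical in
lemma card_le_finrank_augS [Γ.FiniteIndex] :
    Nat.card (X Γ) ≤ Module.finrank ℂ (augS Γ) + 1 := by
  have : Fintype (X Γ) := Fintype.ofFinite _
  have htop : (⊤ : Submodule ℂ (V Γ)) ≤ augS Γ ⊔ Submodule.span ℂ {Pi.single (x₀ Γ) (1 : ℂ)} := by
    rw [← (Pi.basisFun ℂ (X Γ)).span_eq, Submodule.span_le]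
    rintro _ ⟨x, rfl⟩
    obtain ⟨g, rfl⟩ := MulAction.exists_smul_eq SL(2, ℤ) (x₀ Γ) x
    have hg : g ∈ augSubgroup Γ := by rw [augSubgroup_eq_top]; trivial
    have h1 := hg (x₀ Γ)
    have h2 : (Pi.single (x₀ Γ) (1 : ℂ) : V Γ) ∈ Submodule.span ℂ {(Pi.single (x₀ Γ) (1 : ℂ) : V Γ)} :=
      Submodule.mem_span_singleton_self _
    have h3 := Submodule.add_mem _ (Submodule.mem_sup_left (T := Submodule.span ℂ {(Pi.single (x₀ Γ) (1 : ℂ) : V Γ)}) h1)
      (Submodule.mem_sup_right (S := augS Γ) h2)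
    rw [sub_add_cancel] at h3
    simpa [Pi.basisFun_apply] using h3
  have h1 : Module.finrank ℂ (V Γ) = Nat.card (X Γ) := by
    rw [Module.finrank_fintype_fun_eq_card, Nat.card_eq_fintype_card]
  calc Nat.card (X Γ) = Module.finrank ℂ (⊤ : Submodule ℂ (V Γ)) := by rw [finrank_top, h1]
    _ ≤ Module.finrank ℂ ↥(augS Γ ⊔ Submodule.span ℂ {(Pi.single (x₀ Γ) (1 : ℂ) : V Γ)}) :=
        Submodule.finrank_mono htop
    _ ≤ Module.finrank ℂ (augS Γ) +
          Module.finrank ℂ (Submodule.span ℂ {(Pi.single (x₀ Γ) (1 : ℂ) : V Γ)}) :=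
        Submodule.finrank_add_le_finrank_add_finrank _ _
    _ ≤ Module.finrank ℂ (augS Γ) + 1 := by
        gcongr
        refine (finrank_span_le_card _).trans ?_
        simp

end Sup

section Count

variable (Γ : Subgroup SL(2, ℤ))

/-- inclusion of `parabolicHoms × V` in `Hom × V`. -/
noncomputable def incl : (↥(parabolicHoms ℂ Γ ℂ) × V Γ) →ₗ[ℂ] ((Additive Γ →+ ℂ) × V Γ) :=
  LinearMap.prodMap (parabolicHoms ℂ Γ ℂ).subtype LinearMap.id

lemma incl_apply (z : ↥(parabolicHoms ℂ Γ ℂ) × V Γ) : incl Γ z = ((z.1 : Additive Γ →+ ℂ), z.2) := rfl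

theorem finite_parabolicHoms [Γ.FiniteIndex] : Module.Finite ℂ ↥(parabolicHoms ℂ Γ ℂ) := by
  let f : ↥(parabolicHoms ℂ Γ ℂ) →ₗ[ℂ] V Γ × V Γ :=
    ((coc Γ S).prod (coc Γ T)).comp (parabolicHoms ℂ Γ ℂ).subtype
  have hf : Function.Injective f := by
    rw [← LinearMap.ker_eq_bot, LinearMap.ker_eq_bot']
    intro φ hφ
    have h1 : coc Γ S (φ : Additive Γ →+ ℂ) = 0 := congrArg Prod.fst hφ
    have h2 : coc Γ T (φ : Additive Γ →+ ℂ) = 0 := congrArg Prod.snd hφ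
    have h3 := fst_eq_zero_of_cz Γ ((φ : Additive Γ →+ ℂ), 0)
      (cz_eq_zero_of_S_T Γ _ (by simp [cz_apply, h1]) (by simp [cz_apply, h2]))
    exact Subtype.ext h3
  exact Module.Finite.of_injective f hf

theorem finrank_parabolicHoms_add_le [Γ.FiniteIndex] :
    Module.finrank ℂ ↥(parabolicHoms ℂ Γ ℂ) + fixDim Γ S + fixDim Γ (S * T) + fixDim Γ T
      ≤ Nat.card (X Γ) + 2 := by
  have : Fintype (X Γ) := Fintype.ofFinite _
  have := finite_parabolicHoms Γ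
  have hμ : Module.finrank ℂ (V Γ) = Nat.card (X Γ) := by
    rw [Module.finrank_fintype_fun_eq_card, Nat.card_eq_fintype_card]
  have eS := LinearMap.finrank_range_add_finrank_ker (rho Γ S - 1)
  have eU := LinearMap.finrank_range_add_finrank_ker (rho Γ (S * T) - 1)
  have eT := LinearMap.finrank_range_add_finrank_ker (rho Γ T - 1)
  have eE : Module.finrank ℂ (↥(parabolicHoms ℂ Γ ℂ) × V Γ) =
      Module.finrank ℂ ↥(parabolicHoms ℂ Γ ℂ) + Module.finrank ℂ (V Γ) := Module.finrank_prod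
  have eW := Submodule.finrank_sup_add_finrank_inf_eq (LinearMap.range (rho Γ S - 1))
    (LinearMap.range (rho Γ (S * T) - 1))
  have hsup : Nat.card (X Γ) ≤ Module.finrank ℂ
      ↥(LinearMap.range (rho Γ S - 1) ⊔ LinearMap.range (rho Γ (S * T) - 1)) + 1 :=
    card_le_finrank_augS Γ
  have key := finrank_le_of_two_maps ((cz Γ T).comp (incl Γ)) ((cz Γ S).comp (incl Γ))
    (LinearMap.range (rho Γ T - 1))
    (LinearMap.range (rho Γ S - 1) ⊓ LinearMap.range (rho Γ (S * T) - 1))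
    (fun z => by
      rw [LinearMap.comp_apply, cz_apply, incl_apply]
      exact Submodule.sub_mem _ (coc_T_mem Γ z.1.2) (LinearMap.mem_range_self _ _))
    (fun z hz => by
      have hz' : cz Γ T (incl Γ z) = 0 := hz
      rw [LinearMap.comp_apply]
      refine ⟨?_, ?_⟩
      · rw [cz_apply, incl_apply]
        exact Submodule.sub_mem _ (coc_S_mem Γ _) (LinearMap.mem_range_self _ _)
      · have h2 : cz Γ S (incl Γ z) = cz Γ (S * T) (incl Γ z) := by
          rw [cz_mul, hz', map_zero, add_zero]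
        rw [h2, cz_apply, incl_apply]
        exact Submodule.sub_mem _ (coc_ST_mem Γ _) (LinearMap.mem_range_self _ _))
    ((LinearMap.proj (x₀ Γ)).comp (LinearMap.snd ℂ _ _))
    (fun z hT hS h0 => by
      have hall := cz_eq_zero_of_S_T Γ _ hS hT
      have h1 : (z.1 : Additive Γ →+ ℂ) = 0 := fst_eq_zero_of_cz Γ _ hall
      have h2 : ∀ x, z.2 x = z.2 (x₀ Γ) := snd_const_of_cz Γ _ hall
      have h3 : z.2 (x₀ Γ) = 0 := h0
      refine Prod.ext (Subtype.ext h1) ?_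
      funext x
      rw [h2 x, h3]
      rfl)
  simp only [fixDim]
  omega

/-- Specialisation to `Γ₀(N)`. -/
theorem finrank_parabolicHoms_Gamma0_add_le (N : ℕ) [NeZero N] :
    Module.Finite ℂ ↥(parabolicHoms ℂ (CongruenceSubgroup.Gamma0 N) ℂ) ∧
    Module.finrank ℂ ↥(parabolicHoms ℂ (CongruenceSubgroup.Gamma0 N) ℂ) +
        fixDim (CongruenceSubgroup.Gamma0 N) S + fixDim (CongruenceSubgroup.Gamma0 N) (S * T) +
        fixDim (CongruenceSubgroup.Gamma0 N) T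
      ≤ Nat.card (X (CongruenceSubgroup.Gamma0 N)) + 2 :=
  ⟨finite_parabolicHoms _, finrank_parabolicHoms_add_le _⟩

end Count

end Fermat.Agent.ES
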