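/-
Spectral projectors of a finite order operator (abstract linear algebra), used at the cusp.
-/
import Mathlib

set_option autoImplicit false

namespace Fermat.Agent.ES

open Complex Finset

/-- `ζ_n = exp(2πi/n)`. -/
noncomputable def zt (n : ℕ) : ℂ := Complex.exp (2 * Real.pi * Complex.I / n)

lemma zt_prim {n : ℕ} (hn : n ≠ 0) : IsPrimitiveRoot (zt n) n :=
  Complex.isPrimitiveRoot_exp n hn

lemma zt_ne_zero (n : ℕ) : zt n ≠ 0 := Complex.exp_ne_zero _

lemma zt_pow_n {n : ℕ} (hn : n ≠ 0) : zt n ^ n = 1 := (zt_prim hn).pow_eq_one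

lemma geom_sum_root {x : ℂ} {n : ℕ} (hx : x ^ n = 1) (hx1 : x ≠ 1) :
    ∑ s ∈ range n, x ^ s = 0 := by
  have h := mul_neg_geom_sum x n
  rw [hx, sub_self] at h
  rcases mul_eq_zero.mp h with h | h
  · exact absurd (sub_eq_zero.mp h).symm hx1
  · exact h

variable {W : Type*} [AddCommGroup W] [Module ℂ W]

/-- The projector onto the `ζ^r`-eigenspace of an operator `A` with `A^n = 1`. -/
noncomputable def pr (A : Module.End ℂ W) (n r : ℕ) : Module.End ℂ W :=
  (n : ℂ)⁻¹ • ∑ s ∈ range n, ((zt n)⁻¹ ^ (r * s)) • A ^ s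

variable {A : Module.End ℂ W} {n : ℕ}

lemma sum_pr (hn : n ≠ 0) : ∑ r ∈ range n, pr A n r = 1 := by
  unfold pr
  rw [← Finset.smul_sum, Finset.sum_comm]
  have h : ∀ s ∈ range n, ∑ r ∈ range n, ((zt n)⁻¹ ^ (r * s)) • A ^ s
      = (if s = 0 then (n : ℂ) else 0) • A ^ s := by
    intro s hs
    rw [← Finset.sum_smul]
    congr 1
    split_ifs with h0
    · subst h0; simp
    · have : ∀ r, (zt n)⁻¹ ^ (r * s) = ((zt n)⁻¹ ^ s) ^ r := fun r => by rw [mul_comm, pow_mul]
      simp_rw [this]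
      apply geom_sum_root
      · rw [← pow_mul, mul_comm, pow_mul, inv_pow, zt_pow_n hn]; simp
      · intro h1
        rw [inv_pow, inv_eq_one] at h1
        have := (zt_prim hn).dvd_of_pow_eq_one s h1
        exact absurd (Nat.le_of_dvd (Nat.pos_of_ne_zero h0) this) (not_le.mpr (mem_range.mp hs))
  rw [Finset.sum_congr rfl h]
  simp only [ite_smul, zero_smul]
  rw [Finset.sum_ite_eq' (range n) 0 (fun s => (n : ℂ) • A ^ s)]
  rw [if_pos (mem_range.mpr (Nat.pos_of_ne_zero hn)), pow_zero, smul_smul,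
    inv_mul_cancel₀ (Nat.cast_ne_zero.mpr hn), one_smul]

lemma mul_pr (hn : n ≠ 0) (hA : A ^ n = 1) (r : ℕ) : A * pr A n r = (zt n ^ r) • pr A n r := by
  unfold pr
  rw [mul_smul_comm, smul_comm (zt n ^ r)]
  congr 1
  rw [Finset.mul_sum, Finset.smul_sum]
  set c : ℕ → Module.End ℂ W := fun s => ((zt n)⁻¹ ^ (r * s)) • A ^ s with hc
  have h1 : ∀ s, A * (((zt n)⁻¹ ^ (r * s)) • A ^ s) = (zt n ^ r) • c (s + 1) := by
    intro s
    rw [hc]
    simp only
    rw [mul_smul_comm, smul_smul, ← pow_succ']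
    congr 1
    rw [mul_add, mul_one, pow_add, inv_pow, inv_pow]
    have h0 := pow_ne_zero r (zt_ne_zero n)
    have h0' := pow_ne_zero (r * s) (zt_ne_zero n)
    field_simp
  simp_rw [h1]
  rw [← Finset.smul_sum, ← Finset.smul_sum]
  congr 1
  have h2 : c n = c 0 := by
    rw [hc]
    simp only
    rw [hA, mul_comm r n, pow_mul, inv_pow, zt_pow_n hn]
    simp
  have h3 := Finset.sum_range_succ c n
  have h4 := Finset.sum_range_succ' c n
  rw [h3, h2] at h4
  exact (add_right_cancel h4).symm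

lemma pow_mul_pr (hn : n ≠ 0) (hA : A ^ n = 1) (r s : ℕ) :
    A ^ s * pr A n r = (zt n ^ (r * s)) • pr A n r := by
  induction s with
  | zero => simp
  | succ s ih =>
    rw [pow_succ', mul_assoc, ih, mul_smul_comm, mul_pr hn hA, smul_smul, mul_add, mul_one,
      pow_add]

lemma pr_mul_pr (hn : n ≠ 0) (hA : A ^ n = 1) {r r' : ℕ} (hr : r < n) (hr' : r' < n) :
    pr A n r * pr A n r' = if r = r' then pr A n r else 0 := by
  conv_lhs => rw [pr]
  rw [smul_mul_assoc, Finset.sum_mul]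
  have h1 : ∀ s, (((zt n)⁻¹ ^ (r * s)) • A ^ s) * pr A n r'
      = (((zt n)⁻¹ ^ r * zt n ^ r') ^ s) • pr A n r' := by
    intro s
    rw [smul_mul_assoc, pow_mul_pr hn hA, smul_smul, mul_pow, ← pow_mul, ← pow_mul]
  simp_rw [h1]
  rw [← Finset.sum_smul, smul_smul]
  split_ifs with h
  · subst h
    have : (zt n)⁻¹ ^ r * zt n ^ r = 1 := by
      rw [inv_pow, inv_mul_cancel₀ (pow_ne_zero _ (zt_ne_zero n))]
    rw [this]
    simp [Nat.cast_ne_zero.mpr hn]
  · rw [geom_sum_root, mul_zero, zero_smul]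
    · rw [mul_pow, ← pow_mul, ← pow_mul, mul_comm r n, mul_comm r' n, pow_mul, pow_mul, inv_pow,
        zt_pow_n hn]
      simp
    · intro h1
      rw [inv_pow, inv_mul_eq_one₀ (pow_ne_zero _ (zt_ne_zero n))] at h1
      exact h ((zt_prim hn).pow_inj hr hr' h1)

lemma pr_comm (r : ℕ) : Commute A (pr A n r) := by
  unfold pr
  apply Commute.smul_right
  apply Commute.sum_right
  intro s _
  exact (Commute.pow_right (Commute.refl A) s).smul_right _

/-- `P(w) = Σ_r w_r π_r` for a family of scalars `w`. -/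
noncomputable def comb (A : Module.End ℂ W) (n : ℕ) (w : ℕ → ℂ) : Module.End ℂ W :=
  ∑ r ∈ range n, w r • pr A n r

lemma comb_mul_comb (hn : n ≠ 0) (hA : A ^ n = 1) (w w' : ℕ → ℂ) :
    comb A n w * comb A n w' = comb A n (fun r => w r * w' r) := by
  unfold comb
  rw [Finset.sum_mul]
  refine Finset.sum_congr rfl fun r hr => ?_
  rw [Finset.mul_sum]
  have : ∀ r' ∈ range n, (w r • pr A n r) * (w' r' • pr A n r')
      = if r = r' then (w r * w' r) • pr A n r else 0 := by
    intro r' hr'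
    rw [smul_mul_smul_comm, pr_mul_pr hn hA (mem_range.mp hr) (mem_range.mp hr')]
    split_ifs with h
    · subst h; rfl
    · simp
  rw [Finset.sum_congr rfl this, Finset.sum_ite_eq (range n) r, if_pos hr]

lemma comb_one (hn : n ≠ 0) : comb A n (fun _ => 1) = 1 := by
  unfold comb
  simp [sum_pr hn]

lemma comb_mul_A (hn : n ≠ 0) (hA : A ^ n = 1) (w : ℕ → ℂ) :
    comb A n w * A = comb A n (fun r => w r * zt n ^ r) := by
  unfold comb
  rw [Finset.sum_mul]
  refine Finset.sum_congr rfl fun r _ => ?_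
  rw [smul_mul_assoc, ← (pr_comm r).eq, mul_pr hn hA, smul_smul]

end Fermat.Agent.ES
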