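/-
The twist `P(z)` at the cusp `i∞` : `tw f z = P(z)⁻¹ (vec f z)` is `1`-periodic.
-/
import Fermat.Agent.ES.LevelOne
import Fermat.Agent.ES.Proj

set_option autoImplicit false

namespace Fermat.Agent.ES

open UpperHalfPlane ModularForm Matrix.SpecialLinearGroup Filter Topology ModularGroup
  CongruenceSubgroup Asymptotics
open scoped MatrixGroups Manifold

variable (Γ : Subgroup SL(2, ℤ)) {k : ℤ} {f : ℍ → ℂ}

lemma rho_one : rho Γ 1 = 1 := by
  ext v x; simp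

lemma rho_mul (g h : SL(2, ℤ)) : rho Γ (g * h) = rho Γ g * rho Γ h := by
  apply LinearMap.ext; intro v; funext x
  simp [mul_smul]

lemma rho_pow (g : SL(2, ℤ)) (n : ℕ) : rho Γ (g ^ n) = rho Γ g ^ n := by
  induction n with
  | zero => simp [rho_one]
  | succ n ih => rw [pow_succ, rho_mul, ih, pow_succ]

theorem exists_period [Γ.FiniteIndex] : ∃ n : ℕ, n ≠ 0 ∧ rho Γ T ^ n = 1 := by
  classical
  have : Finite (X Γ) := Subgroup.finite_quotient_of_finiteIndex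
  have := Fintype.ofFinite (X Γ)
  let σ : Equiv.Perm (X Γ) := MulAction.toPerm (T : SL(2, ℤ))
  refine ⟨orderOf σ, (orderOf_pos σ).ne', ?_⟩
  rw [← rho_pow]
  apply LinearMap.ext; intro v; funext x
  have h : ∀ y : X Γ, (T ^ orderOf σ : SL(2, ℤ)) • y = y := by
    intro y
    have h1 : (σ ^ orderOf σ) y = y := by rw [pow_orderOf_eq_one]; rfl
    have h2 : σ ^ orderOf σ = MulAction.toPerm ((T : SL(2, ℤ)) ^ orderOf σ) := by
      rw [← MulAction.toPermHom_apply, map_pow]; rfl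
    rw [h2] at h1
    exact h1
  have h' : ((T ^ orderOf σ : SL(2, ℤ)))⁻¹ • x = x := by
    rw [inv_smul_eq_iff, h]
  simp [h']

/-- A common period of all conjugates: `rho T ^ per = 1`. -/
noncomputable def per [Γ.FiniteIndex] : ℕ := (exists_period Γ).choose

lemma per_ne_zero [Γ.FiniteIndex] : per Γ ≠ 0 := (exists_period Γ).choose_spec.1

lemma rhoT_pow_per [Γ.FiniteIndex] : rho Γ T ^ per Γ = 1 := (exists_period Γ).choose_spec.2

/-- `exp(2πi r z / n)`. -/
noncomputable def ee (n : ℕ) (z : ℍ) (r : ℕ) : ℂ :=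
  Complex.exp (2 * Real.pi * Complex.I * r * z / n)

lemma ee_ne_zero (n : ℕ) (z : ℍ) (r : ℕ) : ee n z r ≠ 0 := Complex.exp_ne_zero _

lemma norm_ee (n : ℕ) (z : ℍ) (r : ℕ) :
    ‖ee n z r‖ = Real.exp (-(2 * Real.pi * (r / n) * z.im)) := by
  rw [ee, Complex.norm_exp]
  congr 1
  have : (2 * Real.pi * Complex.I * r * z / n : ℂ)
      = ((2 * Real.pi * (r / n) : ℝ) : ℂ) * (Complex.I * z) := by
    push_cast; ring
  rw [this, Complex.re_ofReal_mul]
  simp

lemma ee_vadd (n : ℕ) (z : ℍ) (r : ℕ) :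
    ee n ((1 : ℝ) +ᵥ z) r = ee n z r * zt n ^ r := by
  rw [ee, ee, zt, ← Complex.exp_nat_mul, ← Complex.exp_add]
  congr 1
  rw [UpperHalfPlane.coe_vadd]
  push_cast
  ring

lemma mdiff_ee (n : ℕ) (r : ℕ) : MDiff (fun z : ℍ => ee n z r) := by
  rw [UpperHalfPlane.mdifferentiable_iff]
  have : DifferentiableOn ℂ (fun w : ℂ => Complex.exp (2 * Real.pi * Complex.I * r * w / n))
      {z | 0 < z.im} := by
    apply Differentiable.differentiableOn
    fun_prop
  refine this.congr fun w hw => ?_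
  simp [ee, Function.comp, ofComplex_apply_of_im_pos hw]

lemma mdiff_ee_inv (n : ℕ) (r : ℕ) : MDiff (fun z : ℍ => (ee n z r)⁻¹) := by
  rw [UpperHalfPlane.mdifferentiable_iff]
  have : DifferentiableOn ℂ (fun w : ℂ => Complex.exp (-(2 * Real.pi * Complex.I * r * w / n)))
      {z | 0 < z.im} := by
    apply Differentiable.differentiableOn
    fun_prop
  refine this.congr fun w hw => ?_
  simp [ee, Function.comp, ofComplex_apply_of_im_pos hw, Complex.exp_neg]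

variable [Γ.FiniteIndex]

/-- `P(z) = Σ_r exp(2πi r z/n) π_r`. -/
noncomputable def Pz (z : ℍ) : Module.End ℂ (V Γ) :=
  comb (rho Γ T) (per Γ) (fun r => ee (per Γ) z r)

/-- `P(z)⁻¹ = Σ_r exp(-2πi r z/n) π_r`. -/
noncomputable def Pinv (z : ℍ) : Module.End ℂ (V Γ) :=
  comb (rho Γ T) (per Γ) (fun r => (ee (per Γ) z r)⁻¹)

lemma Pz_mul_Pinv (z : ℍ) : Pz Γ z * Pinv Γ z = 1 := by
  rw [Pz, Pinv, comb_mul_comb (per_ne_zero Γ) (rhoT_pow_per Γ)]
  simp [ee_ne_zero, comb_one (per_ne_zero Γ)]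

lemma Pinv_mul_Pz (z : ℍ) : Pinv Γ z * Pz Γ z = 1 := by
  rw [Pz, Pinv, comb_mul_comb (per_ne_zero Γ) (rhoT_pow_per Γ)]
  simp [ee_ne_zero, comb_one (per_ne_zero Γ)]

/-- The twisted vector `tw f z = P(z)⁻¹ (vec f z)`. -/
noncomputable def tw (k : ℤ) (f : ℍ → ℂ) (z : ℍ) : V Γ := Pinv Γ z (vec Γ k f z)

lemma Pz_tw (z : ℍ) : Pz Γ z (tw Γ k f z) = vec Γ k f z := by
  rw [tw, ← Module.End.mul_apply, Pz_mul_Pinv]; rfl

variable {Γ}

omit [Γ.FiniteIndex] in
lemma vec_vadd (hf : ∀ γ ∈ Γ, f ∣[k] γ = f) (z : ℍ) :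
    vec Γ k f ((1 : ℝ) +ᵥ z) = rho Γ T (vec Γ k f z) := by
  have h := vec_smul hf T z
  rw [modular_T_smul] at h
  rw [h]
  have : denom (T : SL(2, ℤ)) z = 1 := by
    rw [ModularGroup.denom_apply]; simp [ModularGroup.T]
  rw [this]; simp

lemma tw_vadd (hf : ∀ γ ∈ Γ, f ∣[k] γ = f) (z : ℍ) :
    tw Γ k f ((1 : ℝ) +ᵥ z) = tw Γ k f z := by
  rw [tw, tw, vec_vadd hf, ← Module.End.mul_apply, Pinv, Pinv,
    comb_mul_A (per_ne_zero Γ) (rhoT_pow_per Γ)]
  congr 2
  funext r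
  rw [ee_vadd, mul_inv, mul_assoc,
    inv_mul_cancel₀ (pow_ne_zero _ (zt_ne_zero _)), mul_one]


/-! ### coordinates, holomorphy, growth -/

omit [Γ.FiniteIndex] in
lemma apply_eq_sum [Fintype (X Γ)] [DecidableEq (X Γ)] (L : Module.End ℂ (V Γ)) (w : V Γ)
    (x : X Γ) : L w x = ∑ y, w y * L (Pi.single y 1) x := by
  have h := LinearMap.pi_apply_eq_sum_univ L w
  rw [h, Finset.sum_apply]
  refine Finset.sum_congr rfl fun y _ => ?_
  rw [Pi.smul_apply, smul_eq_mul]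
  have : (fun j => if y = j then (1 : ℂ) else 0) = Pi.single y 1 := by
    funext j
    simp [Pi.single_apply, eq_comm]
  rw [this]

lemma mdiff_apply (L : Module.End ℂ (V Γ)) {w : ℍ → V Γ} (hw : ∀ y, MDiff (fun z => w z y))
    (x : X Γ) : MDiff (fun z => L (w z) x) := by
  classical
  have : Finite (X Γ) := Subgroup.finite_quotient_of_finiteIndex
  have := Fintype.ofFinite (X Γ)
  have h : (fun z => L (w z) x) = ∑ y, (fun z => w z y * L (Pi.single y 1) x) := by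
    funext z
    rw [apply_eq_sum L, Finset.sum_apply]
  rw [h]
  exact MDifferentiable.sum fun y _ => (hw y).mul mdifferentiable_const

lemma isBigO_apply (L : Module.End ℂ (V Γ)) {w : ℍ → V Γ} {g : ℍ → ℝ}
    (hw : ∀ y, (fun z => w z y) =O[atImInfty] g) (x : X Γ) :
    (fun z => L (w z) x) =O[atImInfty] g := by
  classical
  have : Finite (X Γ) := Subgroup.finite_quotient_of_finiteIndex
  have := Fintype.ofFinite (X Γ)
  have h : (fun z => L (w z) x) = fun z => ∑ y, w z y * L (Pi.single y 1) x := by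
    funext z
    rw [apply_eq_sum L]
  rw [h]
  apply IsBigO.fun_sum
  intro y _
  have := (hw y).const_mul_left (L (Pi.single y 1) x)
  simpa [mul_comm] using this


/-- the growth function `exp(2π (n-1)/n Im z)` of `P(z)⁻¹`. -/
noncomputable def grow (Γ : Subgroup SL(2, ℤ)) [Γ.FiniteIndex] (z : ℍ) : ℝ :=
  Real.exp (2 * Real.pi * (((per Γ : ℝ) - 1) / per Γ) * z.im)

lemma norm_ee_le_one (n : ℕ) (z : ℍ) (r : ℕ) : ‖ee n z r‖ ≤ 1 := by
  rw [norm_ee, Real.exp_le_one_iff, neg_nonpos]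
  have := z.im_pos
  positivity

lemma norm_ee_inv_le {r : ℕ} (hr : r < per Γ) (z : ℍ) : ‖(ee (per Γ) z r)⁻¹‖ ≤ grow Γ z := by
  rw [norm_inv, norm_ee, ← Real.exp_neg, neg_neg, grow, Real.exp_le_exp]
  have hz := z.im_pos
  have hn : (0 : ℝ) < per Γ := by exact_mod_cast Nat.pos_of_ne_zero (per_ne_zero Γ)
  have hr' : (r : ℝ) ≤ (per Γ : ℝ) - 1 := by
    have : r + 1 ≤ per Γ := hr
    have : ((r + 1 : ℕ) : ℝ) ≤ per Γ := by exact_mod_cast this
    push_cast at this; linarith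
  gcongr

lemma mdiff_comb {c : ℕ → ℍ → ℂ} (hc : ∀ r, MDiff (c r)) {w : ℍ → V Γ}
    (hw : ∀ y, MDiff (fun z => w z y)) (A : Module.End ℂ (V Γ)) (n : ℕ) (x : X Γ) :
    MDiff (fun z => comb A n (fun r => c r z) (w z) x) := by
  have h : (fun z => comb A n (fun r => c r z) (w z) x)
      = ∑ r ∈ Finset.range n, (fun z => c r z * pr A n r (w z) x) := by
    funext z
    simp [comb, LinearMap.sum_apply, Finset.sum_apply]
  rw [h]
  exact MDifferentiable.sum fun r _ => (hc r).mul (mdiff_apply _ hw x)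

lemma isBigO_comb {c : ℕ → ℍ → ℂ} {b g : ℍ → ℝ} {n : ℕ}
    (hc : ∀ r < n, ∀ z, ‖c r z‖ ≤ b z) {w : ℍ → V Γ}
    (hw : ∀ y, (fun z => w z y) =O[atImInfty] g) (A : Module.End ℂ (V Γ)) (x : X Γ) :
    (fun z => comb A n (fun r => c r z) (w z) x) =O[atImInfty] fun z => b z * g z := by
  have h : (fun z => comb A n (fun r => c r z) (w z) x)
      = fun z => ∑ r ∈ Finset.range n, c r z * pr A n r (w z) x := by
    funext z
    simp [comb, LinearMap.sum_apply, Finset.sum_apply]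
  rw [h]
  apply IsBigO.fun_sum
  intro r hr
  apply IsBigO.mul _ (isBigO_apply _ hw x)
  apply IsBigO.of_bound 1
  filter_upwards with z
  rw [one_mul]
  exact (hc r (Finset.mem_range.mp hr) z).trans (le_abs_self _)

omit [Γ.FiniteIndex] in
lemma mdiff_vec (hf : MDiff f) (y : X Γ) : MDiff (fun z => vec Γ k f z y) := conj_mdiff hf y

lemma mdiff_tw (hf : MDiff f) (x : X Γ) : MDiff (fun z => tw Γ k f z x) :=
  mdiff_comb (fun r => mdiff_ee_inv _ r) (mdiff_vec hf) _ _ x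

/-- `P(z)` preserves `O(g)`. -/
lemma isBigO_Pz {w : ℍ → V Γ} {g : ℍ → ℝ} (hw : ∀ y, (fun z => w z y) =O[atImInfty] g)
    (x : X Γ) : (fun z => Pz Γ z (w z) x) =O[atImInfty] g := by
  have := isBigO_comb (c := fun r z => ee (per Γ) z r) (b := fun _ => 1) (n := per Γ)
    (fun r _ z => norm_ee_le_one _ z r) hw (rho Γ T) x
  simpa [Pz] using this

/-- `P(z)⁻¹` loses at most `grow`. -/
lemma isBigO_Pinv {w : ℍ → V Γ} {g : ℍ → ℝ} (hw : ∀ y, (fun z => w z y) =O[atImInfty] g)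
    (x : X Γ) : (fun z => Pinv Γ z (w z) x) =O[atImInfty] fun z => grow Γ z * g z :=
  isBigO_comb (c := fun r z => (ee (per Γ) z r)⁻¹) (b := grow Γ) (n := per Γ)
    (fun _ hr z => norm_ee_inv_le hr z) hw (rho Γ T) x

lemma isBigO_tw (hf : f ∈ MF Γ k) (x : X Γ) :
    (fun z => tw Γ k f z x) =O[atImInfty] grow Γ := by
  have := isBigO_Pinv (Γ := Γ) (w := vec Γ k f) (g := fun _ => 1)
    (fun y => conj_mem_bdd hf y) x
  simpa [tw] using this

lemma tw_add (f g : ℍ → ℂ) (z : ℍ) : tw Γ k (f + g) z = tw Γ k f z + tw Γ k g z := by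
  rw [tw, tw, tw, ← map_add]
  congr 1
  funext x
  simp [vec_apply, conj_add]

lemma tw_smul (c : ℂ) (f : ℍ → ℂ) (z : ℍ) : tw Γ k (c • f) z = c • tw Γ k f z := by
  rw [tw, tw, ← map_smul]
  congr 1
  funext x
  simp [vec_apply, conj_smul]

/-- multiplying by a level one form -/
lemma tw_mul {l : ℤ} {a : ℍ → ℂ} (ha : a ∈ MF ⊤ l) (f : ℍ → ℂ) (z : ℍ) :
    tw Γ (l + k) (a * f) z = a z • tw Γ k f z := by
  rw [tw, tw, ← map_smul]
  congr 1
  funext x
  simp [vec_apply, conj_mul, conj_of_mem_top ha]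

end Fermat.Agent.ES
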